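import Mathlib
import Fermat.Agent.LT.General.Level
import Fermat.Agent.LT.Descent.Kernel.Defs

set_option autoImplicit false

/-!
# Matched words and combinations

A word consists of real invariant kernels at the places of `F` and a list of good places of degree
one over `K`; its kernel on `K` has the slot kernels and the operators `bcOp`.
-/

noncomputable section

open MeasureTheory NumberField IsDedekindDomain
open FermatAgent.LT (H3 YSpace yKer heckeWord)
open scoped ComplexConjugate MatrixGroups

namespace FermatAgent.LTG

/-- A matched word. -/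
structure KWord (S : Setup) where
  /-- the kernels at the places of `F` -/
  ker : InfinitePlace S.F → H3 → H3 → ℂ
  inv : ∀ w, LT.H3.IsInvKer (ker w)
  real : ∀ w P Q, conj (ker w P Q) = ker w P Q
  /-- the places -/
  pl : List (HeightOneSpectrum (𝓞 S.F))
  good : ∀ w ∈ pl, (S.m : 𝓞 S.F) ∉ w.asIdeal ∧
    Ideal.absNorm w.asIdeal = Ideal.absNorm (S.underK w).asIdeal

namespace KWord

variable {S : Setup} (D : S.Level) (σ : S.F ≃+* S.F) (w₁ : InfinitePlace S.K → InfinitePlace S.F)
  (x : KWord S)

/-- The kernel on `F`. -/
def kerF : YSpace (D.levelIdeal S.F) → YSpace (D.levelIdeal S.F) → ℂ :=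
  yKer x.ker (D.levelOpF σ * heckeWord (D.levelIdeal S.F) x.pl)

/-- The kernel on `K`. -/
def kerK : YSpace (D.levelIdeal S.K) → YSpace (D.levelIdeal S.K) → ℂ :=
  yKer (S.slotKer σ w₁ x.ker) (D.levelOpK * (x.pl.map D.bcOp).prod)

open Classical in
/-- The number of letters over a place of `K`. -/
def countOver (v : HeightOneSpectrum (𝓞 S.K)) : ℕ := x.pl.countP fun w => S.underK w = v

end KWord

/-- A real combination of matched words. -/
abbrev Combo (S : Setup) := List (ℝ × KWord S)

namespace Combo

variable {S : Setup} (D : S.Level) (σ : S.F ≃+* S.F) (w₁ : InfinitePlace S.K → InfinitePlace S.F)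
  (A : Combo S)

/-- The kernel of a combination on `F`. -/
def kerF (y z : YSpace (D.levelIdeal S.F)) : ℂ :=
  (A.map fun p => (p.1 : ℂ) * p.2.kerF D σ y z).sum

/-- The kernel of a combination on `K`. -/
def kerK (y z : YSpace (D.levelIdeal S.K)) : ℂ :=
  (A.map fun p => (p.1 : ℂ) * p.2.kerK D σ w₁ y z).sum

end Combo

end FermatAgent.LTG

end
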