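import Mathlib
import Fermat.Agent.LT.General.Spectral.Word
import Fermat.Agent.LT.Descent.Spectral.Op
import Fermat.Agent.LT.Descent.Spectral.Bound

set_option autoImplicit false

/-!
# What the descent needs from the annihilator of constant terms
-/

noncomputable section

open MeasureTheory NumberField IsDedekindDomain
open FermatAgent.LT (H3 GAf Cosets YSpace kerSum yOp yVol IsCuspFn IsFrobOver q8Trace)
open scoped ComplexConjugate MatrixGroups

namespace FermatAgent.LTG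

/-- The normalised eigenvalue of the Hecke operator times the square root of the norm. -/
def lamOf {S : Setup} (t : HeightOneSpectrum (𝓞 S.F) → ℤ) (w : HeightOneSpectrum (𝓞 S.F)) : ℂ :=
  ((Real.sqrt (Ideal.absNorm w.asIdeal) * t w : ℝ) : ℂ)

/-- A function on the space with the prescribed eigenvalues at the infinite places and at the places
of `pls`, fixed by the projection of the level. -/
structure IsTypeFun {S : Setup} (D : S.Level) (σ : S.F ≃+* S.F)
    (t : HeightOneSpectrum (𝓞 S.F) → ℤ) (pls : Set (HeightOneSpectrum (𝓞 S.F)))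
    (Φ : YSpace (D.levelIdeal S.F) → ℂ) : Prop where
  measurable : Measurable Φ
  bounded : ∃ C, ∀ y, ‖Φ y‖ ≤ C
  level : ∀ x, D.levelOpF σ (fun p => Φ (x, p)) = fun p => Φ (x, p)
  hecke : ∀ w ∈ pls, ∀ x, LT.heckeOp (D.levelIdeal S.F) w (fun p => Φ (x, p)) =
    fun p => lamOf t w * Φ (x, p)
  sph : ∀ (w : InfinitePlace S.F) x q, letI := Classical.decEq (InfinitePlace S.F)
    LT.H3.IsSph0 fun P => Φ (Function.update x w P, q)

/-- A combination of matched words whose sums over the groups are bounded, which is a nonzero scalar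
on the functions of the wanted type, and in whose image the eigenfunctions are cusp forms. -/
structure Annihilator (S : Setup) (D : S.Level) (σ : S.F ≃+* S.F)
    (w₁ : InfinitePlace S.K → InfinitePlace S.F) (t : HeightOneSpectrum (𝓞 S.F) → ℤ) where
  /-- the rational prime of the places of the letters -/
  p : ℕ
  p_prime : p.Prime
  p_good : ¬ p ∣ S.m
  /-- the combination -/
  A : Combo S
  letters : ∀ x ∈ A, ∀ w ∈ x.2.pl, (p : 𝓞 S.F) ∈ w.asIdeal
  boundF : ∃ C : ℝ, ∀ y z, ‖kerSum (A.kerF D σ) y z‖ ≤ C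
  boundK : ∃ C : ℝ, ∀ y z, ‖kerSum (A.kerK D σ w₁) y z‖ ≤ C
  /-- the scalar -/
  α : ℝ
  α_ne_zero : α ≠ 0
  eigen : ∀ Φ, IsTypeFun D σ t {w | (p : 𝓞 S.F) ∈ w.asIdeal} Φ →
    ∀ y, yOp (A.kerF D σ) Φ y = (α : ℂ) * Φ y
  cuspF : ∀ (Φ : YSpace (D.levelIdeal S.F) → ℂ) (c : ℂ), c ≠ 0 → Measurable Φ →
    (∀ (γ : PGL(2, S.F)) y, Φ (γ • y) = Φ y) → (∃ C, ∀ y, ‖Φ y‖ ≤ C) →
    (∀ q, Continuous fun x => Φ (x, q)) →
    (∀ (w : InfinitePlace S.F) x q, letI := Classical.decEq (InfinitePlace S.F)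
      LT.H3.IsSph0 fun P => Φ (Function.update x w P, q)) →
    (∀ y, yOp (A.kerF D σ) Φ y = c * Φ y) →
    IsCuspFn (D.levelIdeal S.F) fun x g => Φ (x, (g : Cosets (D.levelIdeal S.F)))
  cuspK : ∀ (Φ : YSpace (D.levelIdeal S.K) → ℂ) (c : ℂ), c ≠ 0 → Measurable Φ →
    (∀ (γ : PGL(2, S.K)) y, Φ (γ • y) = Φ y) → (∃ C, ∀ y, ‖Φ y‖ ≤ C) →
    (∀ q, Continuous fun x => Φ (x, q)) →
    (∀ (u : InfinitePlace S.K) x q, letI := Classical.decEq (InfinitePlace S.K)
      LT.H3.IsSph0 fun P => Φ (Function.update x u P, q)) →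
    (∀ y, yOp (A.kerK D σ w₁) Φ y = c * Φ y) →
    IsCuspFn (D.levelIdeal S.K) fun x g => Φ (x, (g : Cosets (D.levelIdeal S.K)))

end FermatAgent.LTG

end
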