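import Mathlib
import Fermat.Agent.LT.Descent.Spectral.Pair

set_option autoImplicit false
set_option linter.unusedSectionVars false

/-!
# Linearity of the operators of kernels
-/

noncomputable section

open MeasureTheory Filter NumberField IsDedekindDomain
open scoped ComplexConjugate ENNReal MatrixGroups
open FermatAgent.LT (H3 YSpace yVol IsYKernel yConv yOp kerSum AutDomain)

namespace FermatAgent.LTG

variable {L : Type*} [Field L] [NumberField L] {𝔫 : Ideal (𝓞 L)} [h𝔫 : Fact (𝔫 ≠ ⊥)]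
  {k k' : YSpace 𝔫 → YSpace 𝔫 → ℂ}

omit h𝔫 in
theorem isYKernel_zero : IsYKernel (fun _ _ : YSpace 𝔫 => (0 : ℂ)) where
  measurable := measurable_const
  invariant _ _ _ := rfl
  bounded := ⟨0, fun _ _ => by simp⟩
  row := ⟨0, fun _ => by simp⟩
  col := ⟨0, fun _ => by simp⟩
  supp := ⟨0, fun _ _ h => absurd rfl h⟩
  fin _ := ⟨∅, Set.finite_empty, fun _ _ h => absurd rfl h⟩

omit h𝔫 in
theorem isYKernel_smul (hk : IsYKernel k) (c : ℂ) : IsYKernel (fun y u => c * k y u) where
  measurable := hk.measurable.const_mul c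
  invariant γ y y' := by simp only [hk.invariant]
  bounded := by
    obtain ⟨C, hC⟩ := hk.bounded
    exact ⟨‖c‖ * C, fun y y' => by
      rw [norm_mul]; exact mul_le_mul_of_nonneg_left (hC y y') (norm_nonneg c)⟩
  row := by
    obtain ⟨V, hV⟩ := hk.row
    refine ⟨‖c‖ * V, fun y => ?_⟩
    simp only [enorm_mul]
    rw [lintegral_const_mul _ (hk.measurable_row y).enorm, ENNReal.ofReal_mul (norm_nonneg c),
      ← ofReal_norm]
    exact mul_le_mul_right (hV y) _
  col := by
    obtain ⟨V, hV⟩ := hk.col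
    refine ⟨‖c‖ * V, fun y => ?_⟩
    simp only [enorm_mul]
    rw [lintegral_const_mul _ (hk.measurable_col y).enorm, ENNReal.ofReal_mul (norm_nonneg c),
      ← ofReal_norm]
    exact mul_le_mul_right (hV y) _
  supp := by
    obtain ⟨R, hR⟩ := hk.supp
    exact ⟨R, fun y y' h => hR y y' (right_ne_zero_of_mul h)⟩
  fin q := by
    obtain ⟨s, hs, hs'⟩ := hk.fin q
    exact ⟨s, hs, fun y y' h => hs' y y' (right_ne_zero_of_mul h)⟩

omit h𝔫 in
theorem isYKernel_add (hk : IsYKernel k) (hk' : IsYKernel k') :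
    IsYKernel (fun y u => k y u + k' y u) where
  measurable := hk.measurable.add hk'.measurable
  invariant γ y y' := by simp only [hk.invariant, hk'.invariant]
  bounded := by
    obtain ⟨C, hC⟩ := hk.bounded
    obtain ⟨C', hC'⟩ := hk'.bounded
    exact ⟨C + C', fun y y' => (norm_add_le _ _).trans (add_le_add (hC y y') (hC' y y'))⟩
  row := by
    obtain ⟨V, hV⟩ := hk.row
    obtain ⟨V', hV'⟩ := hk'.row
    refine ⟨max V 0 + max V' 0, fun y => ?_⟩
    refine (lintegral_mono fun u => enorm_add_le (k y u) (k' y u)).trans ?_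
    rw [lintegral_add_left (hk.measurable_row y).enorm,
      ENNReal.ofReal_add (le_max_right _ _) (le_max_right _ _)]
    exact add_le_add ((hV y).trans (ENNReal.ofReal_le_ofReal (le_max_left _ _)))
      ((hV' y).trans (ENNReal.ofReal_le_ofReal (le_max_left _ _)))
  col := by
    obtain ⟨V, hV⟩ := hk.col
    obtain ⟨V', hV'⟩ := hk'.col
    refine ⟨max V 0 + max V' 0, fun y => ?_⟩
    refine (lintegral_mono fun u => enorm_add_le (k u y) (k' u y)).trans ?_
    rw [lintegral_add_left (hk.measurable_col y).enorm,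
      ENNReal.ofReal_add (le_max_right _ _) (le_max_right _ _)]
    exact add_le_add ((hV y).trans (ENNReal.ofReal_le_ofReal (le_max_left _ _)))
      ((hV' y).trans (ENNReal.ofReal_le_ofReal (le_max_left _ _)))
  supp := by
    obtain ⟨R, hR⟩ := hk.supp
    obtain ⟨R', hR'⟩ := hk'.supp
    refine ⟨max R R', fun y y' h w => ?_⟩
    by_cases h0 : k y y' = 0
    · exact (hR' y y' (fun h1 => h (by simp [h0, h1])) w).trans (le_max_right _ _)
    · exact (hR y y' h0 w).trans (le_max_left _ _)
  fin q := by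
    obtain ⟨s, hs, hs'⟩ := hk.fin q
    obtain ⟨s', hs1, hs1'⟩ := hk'.fin q
    refine ⟨s ∪ s', hs.union hs1, fun y y' h => ?_⟩
    by_cases h0 : k y y' = 0
    · have h1 : k' y y' ≠ 0 := fun h1 => h (by simp [h0, h1])
      exact ⟨fun e => Or.inr ((hs1' y y' h1).1 e), fun e => Or.inr ((hs1' y y' h1).2 e)⟩
    · exact ⟨fun e => Or.inl ((hs' y y' h0).1 e), fun e => Or.inl ((hs' y y' h0).2 e)⟩

variable (𝔇 : AutDomain PGL(2, L) (yVol 𝔫))

theorem integrable_conv (hk : IsYKernel k) (hk' : IsYKernel k') (y z : YSpace 𝔫) :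
    Integrable (fun u => k y u * k' u z) (yVol 𝔫) := by
  obtain ⟨C, hC⟩ := hk'.bounded
  exact (hk.integrable_row y).mul_bdd (hk'.measurable_col z).aestronglyMeasurable
    (Eventually.of_forall fun u => hC u z)

theorem yConv_add_right {k'' : YSpace 𝔫 → YSpace 𝔫 → ℂ} (hk : IsYKernel k) (hk' : IsYKernel k')
    (hk'' : IsYKernel k'') :
    yConv k (fun y u => k' y u + k'' y u) = fun y u => yConv k k' y u + yConv k k'' y u := by
  funext y z
  simp only [yConv, mul_add]
  exact integral_add (integrable_conv hk hk' y z) (integrable_conv hk hk'' y z)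

theorem yConv_add_left {k'' : YSpace 𝔫 → YSpace 𝔫 → ℂ} (hk : IsYKernel k) (hk' : IsYKernel k')
    (hk'' : IsYKernel k'') :
    yConv (fun y u => k y u + k' y u) k'' = fun y u => yConv k k'' y u + yConv k' k'' y u := by
  funext y z
  simp only [yConv, add_mul]
  exact integral_add (integrable_conv hk hk'' y z) (integrable_conv hk' hk'' y z)

omit h𝔫 in
theorem yConv_smul_right (c : ℂ) : yConv k (fun y u => c * k' y u) = fun y u => c * yConv k k' y u := by
  funext y z
  simp only [yConv, mul_left_comm _ c, integral_const_mul]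

omit h𝔫 in
theorem yConv_smul_left (c : ℂ) : yConv (fun y u => c * k y u) k' = fun y u => c * yConv k k' y u := by
  funext y z
  simp only [yConv, mul_assoc, integral_const_mul]

omit h𝔫 in
theorem yConv_zero_right : yConv k (fun _ _ : YSpace 𝔫 => (0 : ℂ)) = fun _ _ => 0 := by
  funext y z; simp [yConv]

omit h𝔫 in
theorem yConv_zero_left : yConv (fun _ _ : YSpace 𝔫 => (0 : ℂ)) k = fun _ _ => 0 := by
  funext y z; simp [yConv]

omit h𝔫 in
theorem kerSum_add (hk : IsYKernel k) (hk' : IsYKernel k') (y z : YSpace 𝔫) :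
    kerSum (fun y u => k y u + k' y u) y z = kerSum k y z + kerSum k' y z :=
  (summable_of_hasFiniteSupport (hk.finite_kerSum y z)).tsum_add
    (summable_of_hasFiniteSupport (hk'.finite_kerSum y z))

omit h𝔫 in
theorem kerSum_smul (c : ℂ) (y z : YSpace 𝔫) :
    kerSum (fun y u => c * k y u) y z = c * kerSum k y z :=
  tsum_mul_left

/-- The composite of two kernels acts as the composite of the operators. -/
theorem yOp_yConv (hk : IsYKernel k) (hk' : IsYKernel k') {Φ : YSpace 𝔫 → ℂ} (hm : Measurable Φ)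
    {C : ℝ} (hC : ∀ y, ‖Φ y‖ ≤ C) (y : YSpace 𝔫) :
    yOp (yConv k k') Φ y = yOp k (yOp k' Φ) y := by
  obtain ⟨V, hV⟩ := hk.row
  obtain ⟨V', hV'⟩ := hk'.row
  simp only [yOp, yConv, ← integral_mul_const, ← integral_const_mul, mul_assoc]
  refine integral_integral_swap ?_
  have hmf : Measurable fun z : YSpace 𝔫 × YSpace 𝔫 => k y z.2 * (k' z.2 z.1 * Φ z.1) :=
    ((hk.measurable_row y).comp measurable_snd).mul
      ((hk'.measurable.comp measurable_swap).mul (hm.comp measurable_fst))
  refine ⟨hmf.aestronglyMeasurable, ?_⟩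
  rw [hasFiniteIntegral_iff_enorm]
  simp only [Function.uncurry]
  rw [lintegral_prod _ hmf.enorm.aemeasurable]
  have hin : Measurable fun p => ∫⁻ u, ‖k y u‖ₑ * ‖k' u p‖ₑ ∂(yVol 𝔫) :=
    Measurable.lintegral_prod_left' (f := fun z : YSpace 𝔫 × YSpace 𝔫 => ‖k y z.1‖ₑ * ‖k' z.1 z.2‖ₑ)
      (((hk.measurable_row y).enorm.comp measurable_fst).mul hk'.measurable.enorm)
  refine lt_of_le_of_lt (lintegral_mono (g := fun p =>
    (∫⁻ u, ‖k y u‖ₑ * ‖k' u p‖ₑ ∂(yVol 𝔫)) * ENNReal.ofReal C) fun p => ?_) ?_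
  · have hm' : Measurable fun u => ‖k y u‖ₑ * ‖k' u p‖ₑ :=
      (hk.measurable_row y).enorm.mul (hk'.measurable_col p).enorm
    dsimp only
    rw [← lintegral_mul_const _ hm']
    refine lintegral_mono fun u => ?_
    simp only [enorm_mul, ← mul_assoc]
    refine mul_le_mul_right ?_ _
    rw [← ofReal_norm]
    exact ENNReal.ofReal_le_ofReal (hC p)
  · rw [lintegral_mul_const _ hin]
    exact ENNReal.mul_lt_top ((LT.lintegral_yConv_le hk hk' hV hV' y).trans_lt
      (ENNReal.mul_lt_top ENNReal.ofReal_lt_top ENNReal.ofReal_lt_top)) ENNReal.ofReal_lt_top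

end FermatAgent.LTG

end
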