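import Mathlib
import Fermat.Agent.LT.General.Spectral.Word
import Fermat.Agent.LT.General.Spectral.YLinear
import Fermat.Agent.LT.General.Level.Facts
import Fermat.Agent.LT.Descent.Spectral.Words

set_option autoImplicit false

/-!
# The operators of matched words
-/

noncomputable section

open MeasureTheory NumberField IsDedekindDomain
open scoped ComplexConjugate MatrixGroups
open FermatAgent.LT (H3 YSpace yVol yKer yConv IsYKernel IsCosetOp IsHermOp Cosets heckeWord heckeOp
  kerSum AutDomain unitKer placeKer)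

namespace FermatAgent.LTG

theorem conj_kConv {h h' : H3 → H3 → ℂ} (hr : ∀ P Q, conj (h P Q) = h P Q)
    (hr' : ∀ P Q, conj (h' P Q) = h' P Q) (P Q : H3) :
    conj (LT.H3.kConv h h' P Q) = LT.H3.kConv h h' P Q := by
  rw [LT.H3.kConv, ← integral_conj]
  simp only [map_mul, hr, hr']

theorem conj_ballKer (ε : ℝ) (P Q : H3) : conj (LT.H3.ballKer ε P Q) = LT.H3.ballKer ε P Q := by
  simp only [LT.H3.ballKer, Set.indicator]
  split_ifs <;> simp

section Prod

variable {L : Type*} [Field L] [NumberField L] {𝔫 : Ideal (𝓞 L)}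
  {T : Module.End ℂ (Cosets 𝔫 → ℂ)} {α : Type*} {f : α → Module.End ℂ (Cosets 𝔫 → ℂ)}
  {l : List α}

theorem commute_map_prod {T : Module.End ℂ (Cosets 𝔫 → ℂ)} (h : ∀ a ∈ l, Commute T (f a)) :
    Commute T (l.map f).prod :=
  Commute.list_prod_right _ _ fun S hS => by
    obtain ⟨a, ha, rfl⟩ := List.mem_map.mp hS
    exact h a ha

theorem isCosetOp_map_prod [Fact (𝔫 ≠ ⊥)] (hT : IsCosetOp T) :
    ∀ {l : List α}, (∀ a ∈ l, IsCosetOp (f a)) → IsCosetOp (T * (l.map f).prod)
  | [], _ => by simpa using hT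
  | a :: l, h => by
    rw [List.map_cons, List.prod_cons]
    refine hT.mul ?_
    clear hT
    induction l generalizing a with
    | nil => simpa using h a List.mem_cons_self
    | cons b l ih =>
      rw [List.map_cons, List.prod_cons]
      exact (h a List.mem_cons_self).mul (ih b fun c hc => h c (List.mem_cons_of_mem _ hc))

theorem isHermOp_map_prod [Fact (𝔫 ≠ ⊥)] (hT : IsCosetOp T) (hTh : IsHermOp T) :
    ∀ {l : List α}, (∀ a ∈ l, IsCosetOp (f a) ∧ IsHermOp (f a) ∧ Commute T (f a)) →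
      (∀ a ∈ l, ∀ b ∈ l, Commute (f a) (f b)) → IsHermOp (T * (l.map f).prod)
  | [], _, _ => by simpa using hTh
  | a :: l, h, hc => by
    have hl : ∀ b ∈ l, IsCosetOp (f b) ∧ IsHermOp (f b) ∧ Commute T (f b) :=
      fun b hb => h b (List.mem_cons_of_mem _ hb)
    obtain ⟨ha, hah, hTa⟩ := h a List.mem_cons_self
    have hcomm : Commute (f a) (T * (l.map f).prod) :=
      hTa.symm.mul_right (commute_map_prod fun b hb =>
        hc a List.mem_cons_self b (List.mem_cons_of_mem _ hb))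
    rw [List.map_cons, List.prod_cons, ← mul_assoc, hTa.eq, mul_assoc]
    exact IsHermOp.mul_of_commute ha (isCosetOp_map_prod hT fun b hb => (hl b hb).1) hah
      (isHermOp_map_prod hT hTh hl fun b hb c hc' =>
        hc b (List.mem_cons_of_mem _ hb) c (List.mem_cons_of_mem _ hc')) hcomm

end Prod

namespace KWord

variable {S : Setup} {D : S.Level} {σ : S.F ≃+* S.F} {w₁ : InfinitePlace S.K → InfinitePlace S.F}

/-- The product of two words. -/
def mul (x y : KWord S) : KWord S where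
  ker w := LT.H3.kConv (x.ker w) (y.ker w)
  inv w := (x.inv w).kConv (y.inv w)
  real w := conj_kConv (x.real w) (y.real w)
  pl := x.pl ++ y.pl
  good w hw := (List.mem_append.mp hw).elim (x.good w) (y.good w)

/-- The unit balls. -/
def unitW (S : Setup) : KWord S where
  ker _ := LT.H3.ballKer 1
  inv _ := LT.H3.isInvKer_ballKer 1
  real _ := conj_ballKer 1
  pl := []
  good _ h := absurd h List.not_mem_nil

open Classical in
/-- An additional ball at one place. -/
def ballW (w : InfinitePlace S.F) (ε : ℝ) : KWord S where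
  ker := Function.update (fun _ => LT.H3.ballKer 1) w
    (LT.H3.kConv (LT.H3.ballKer ε) (LT.H3.ballKer 1))
  inv u := LT.isInvKer_update w ε u
  real u := by
    rcases eq_or_ne u w with rfl | hu
    · rw [Function.update_self]; exact conj_kConv (conj_ballKer ε) (conj_ballKer 1)
    · rw [Function.update_of_ne hu]; exact conj_ballKer 1
  pl := []
  good _ h := absurd h List.not_mem_nil

/-- A Hecke operator at a good place of degree one over `K`. -/
def heckeW (w : HeightOneSpectrum (𝓞 S.F)) (hw : (S.m : 𝓞 S.F) ∉ w.asIdeal ∧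
    Ideal.absNorm w.asIdeal = Ideal.absNorm (S.underK w).asIdeal) : KWord S where
  ker _ := LT.H3.ballKer 1
  inv _ := LT.H3.isInvKer_ballKer 1
  real _ := conj_ballKer 1
  pl := [w]
  good _ h := List.mem_singleton.mp h ▸ hw

variable (D σ)

/-- The operator of the places on `F`. -/
def opF (x : KWord S) : Module.End ℂ (Cosets (D.levelIdeal S.F) → ℂ) :=
  D.levelOpF σ * heckeWord (D.levelIdeal S.F) x.pl

/-- The operator of the places on `K`. -/
def opK (x : KWord S) : Module.End ℂ (Cosets (D.levelIdeal S.K) → ℂ) :=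
  D.levelOpK * (x.pl.map D.bcOp).prod

variable {D σ}

theorem kerF_eq (x : KWord S) : x.kerF D σ = yKer x.ker (x.opF D σ) := rfl

theorem kerK_eq (x : KWord S) : x.kerK D σ w₁ = yKer (S.slotKer σ w₁ x.ker) (x.opK D) := rfl

theorem underK_good {w : HeightOneSpectrum (𝓞 S.F)} (hw : (S.m : 𝓞 S.F) ∉ w.asIdeal) :
    (S.m : 𝓞 S.K) ∉ (S.underK w).asIdeal := fun h => hw ((S.natCast_mem_underK w _).mp h)

theorem not_le {L : IntermediateField ℚ (AlgebraicClosure ℚ)} [NumberField L]
    {w : HeightOneSpectrum (𝓞 L)} (hw : (S.m : 𝓞 L) ∉ w.asIdeal) :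
    ¬ D.levelIdeal L ≤ w.asIdeal := fun h => hw ((D.levelIdeal_le_iff L w).mp h)

theorem isCosetOp_bcOp {w : HeightOneSpectrum (𝓞 S.F)} (hw : (S.m : 𝓞 S.F) ∉ w.asIdeal) :
    IsCosetOp (D.bcOp w) :=
  LT.isCosetOp_heckeOp (D.levelIdeal_ne_bot S.K) (not_le (underK_good hw))

theorem isHermOp_bcOp {w : HeightOneSpectrum (𝓞 S.F)} (hw : (S.m : 𝓞 S.F) ∉ w.asIdeal) :
    IsHermOp (D.bcOp w) :=
  LT.isHermOp_heckeOp (D.levelIdeal_ne_bot S.K) (not_le (underK_good hw))

theorem commute_levelOpK_bcOp {w : HeightOneSpectrum (𝓞 S.F)} (hw : (S.m : 𝓞 S.F) ∉ w.asIdeal) :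
    Commute D.levelOpK (D.bcOp w) :=
  D.commute_levelOpK (underK_good hw)

theorem commute_bcOp {w w' : HeightOneSpectrum (𝓞 S.F)} (hw : (S.m : 𝓞 S.F) ∉ w.asIdeal)
    (hw' : (S.m : 𝓞 S.F) ∉ w'.asIdeal) : Commute (D.bcOp w) (D.bcOp w') :=
  LT.commute_heckeOp (D.levelIdeal_ne_bot S.K) (not_le (underK_good hw)) (not_le (underK_good hw'))

theorem commute_heckeOpF {w w' : HeightOneSpectrum (𝓞 S.F)} (hw : (S.m : 𝓞 S.F) ∉ w.asIdeal)
    (hw' : (S.m : 𝓞 S.F) ∉ w'.asIdeal) :
    Commute (heckeOp (D.levelIdeal S.F) w) (heckeOp (D.levelIdeal S.F) w') :=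
  LT.commute_heckeOp (D.levelIdeal_ne_bot S.F) (not_le hw) (not_le hw')

theorem isCosetOp_opF (x : KWord S) : IsCosetOp (x.opF D σ) :=
  isCosetOp_map_prod (D.isCosetOp_levelOpF σ) fun w hw =>
    LT.isCosetOp_heckeOp (D.levelIdeal_ne_bot S.F) (not_le (x.good w hw).1)

theorem isCosetOp_opK (x : KWord S) : IsCosetOp (x.opK D) :=
  isCosetOp_map_prod D.isCosetOp_levelOpK fun w hw => isCosetOp_bcOp (x.good w hw).1

theorem isHermOp_opF (x : KWord S) : IsHermOp (x.opF D σ) :=
  isHermOp_map_prod (D.isCosetOp_levelOpF σ) (D.isHermOp_levelOpF σ)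
    (fun w hw => ⟨LT.isCosetOp_heckeOp (D.levelIdeal_ne_bot S.F) (not_le (x.good w hw).1),
      LT.isHermOp_heckeOp (D.levelIdeal_ne_bot S.F) (not_le (x.good w hw).1),
      D.commute_levelOpF σ (x.good w hw).1⟩)
    fun w hw w' hw' => commute_heckeOpF (x.good w hw).1 (x.good w' hw').1

theorem isHermOp_opK (x : KWord S) : IsHermOp (x.opK D) :=
  isHermOp_map_prod D.isCosetOp_levelOpK D.isHermOp_levelOpK
    (fun w hw => ⟨isCosetOp_bcOp (x.good w hw).1, isHermOp_bcOp (x.good w hw).1,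
      commute_levelOpK_bcOp (x.good w hw).1⟩)
    fun w hw w' hw' => commute_bcOp (x.good w hw).1 (x.good w' hw').1

theorem opF_mul (x y : KWord S) : x.opF D σ * y.opF D σ = (x.mul y).opF D σ := by
  simp only [opF, mul, heckeWord, List.map_append, List.prod_append]
  have h : Commute (D.levelOpF σ) (List.map (heckeOp (D.levelIdeal S.F)) x.pl).prod :=
    commute_map_prod fun w hw => D.commute_levelOpF σ (x.good w hw).1
  rw [mul_assoc, ← mul_assoc _ (D.levelOpF σ), ← h.eq, mul_assoc,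
    ← mul_assoc (D.levelOpF σ) (D.levelOpF σ), D.levelOpF_idem]

theorem opK_mul (x y : KWord S) : x.opK D * y.opK D = (x.mul y).opK D := by
  simp only [opK, mul, List.map_append, List.prod_append]
  have h : Commute D.levelOpK (List.map D.bcOp x.pl).prod :=
    commute_map_prod fun w hw => commute_levelOpK_bcOp (x.good w hw).1
  rw [mul_assoc, ← mul_assoc _ D.levelOpK, ← h.eq, mul_assoc,
    ← mul_assoc D.levelOpK D.levelOpK, D.levelOpK_idem]

theorem opF_mul_comm (x y : KWord S) : (x.mul y).opF D σ = (y.mul x).opF D σ := by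
  simp only [opF, mul, heckeWord, List.map_append, List.prod_append]
  congr 1
  exact Commute.list_prod_right _ _ fun A hA => Commute.list_prod_left _ _ fun B hB => by
    obtain ⟨w, hw, rfl⟩ := List.mem_map.mp hA
    obtain ⟨w', hw', rfl⟩ := List.mem_map.mp hB
    exact commute_heckeOpF (x.good w' hw').1 (y.good w hw).1

theorem isInvKer_slot (x : KWord S) (u : InfinitePlace S.K) :
    LT.H3.IsInvKer (S.slotKer σ w₁ x.ker u) :=
  ((x.inv _).kConv (x.inv _)).kConv (x.inv _)

theorem conj_slot (x : KWord S) (u : InfinitePlace S.K) (P Q : H3) :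
    conj (S.slotKer σ w₁ x.ker u P Q) = S.slotKer σ w₁ x.ker u P Q :=
  conj_kConv (conj_kConv (x.real _) (x.real _)) (x.real _) P Q

theorem slot_mul (x y : KWord S) (u : InfinitePlace S.K) :
    LT.H3.kConv (S.slotKer σ w₁ x.ker u) (S.slotKer σ w₁ y.ker u) =
      S.slotKer σ w₁ (x.mul y).ker u := by
  simp only [Setup.slotKer, mul]
  rw [LT.H3.kConv_four ((x.inv _).kConv (x.inv _)) (x.inv _) ((y.inv _).kConv (y.inv _)) (y.inv _),
    LT.H3.kConv_four (x.inv _) (x.inv _) (y.inv _) (y.inv _)]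

theorem isYKernel_kerF (x : KWord S) : IsYKernel (x.kerF D σ) :=
  LT.isYKernel_yKer x.inv x.isCosetOp_opF

theorem isYKernel_kerK (x : KWord S) : IsYKernel (x.kerK D σ w₁) :=
  LT.isYKernel_yKer (fun u => x.isInvKer_slot u) x.isCosetOp_opK

theorem kerF_mul (x y : KWord S) :
    yConv (x.kerF D σ) (y.kerF D σ) = (x.mul y).kerF D σ := by
  rw [kerF_eq, kerF_eq, LT.yConv_yKer x.isCosetOp_opF y.isCosetOp_opF, opF_mul]
  rfl

theorem kerK_mul (x y : KWord S) :
    yConv (x.kerK D σ w₁) (y.kerK D σ w₁) = (x.mul y).kerK D σ w₁ := by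
  rw [kerK_eq, kerK_eq, LT.yConv_yKer x.isCosetOp_opK y.isCosetOp_opK, opK_mul, kerK_eq]
  congr 1
  funext u
  exact slot_mul x y u

theorem kerF_mul_comm (x y : KWord S) : (x.mul y).kerF D σ = (y.mul x).kerF D σ := by
  rw [kerF_eq, kerF_eq, opF_mul_comm]
  congr 1
  funext w
  exact LT.H3.kConv_comm (x.inv w) (y.inv w)

theorem conj_kerF (x : KWord S) (y z : YSpace (D.levelIdeal S.F)) :
    conj (x.kerF D σ y z) = x.kerF D σ z y :=
  LT.conj_yKer x.inv x.isHermOp_opF x.real y z

theorem conj_kerK (x : KWord S) (y z : YSpace (D.levelIdeal S.K)) :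
    conj (x.kerK D σ w₁ y z) = x.kerK D σ w₁ z y :=
  LT.conj_yKer (fun u => x.isInvKer_slot u) x.isHermOp_opK (fun u => x.conj_slot u) y z

theorem countOver_mul (x y : KWord S) (v : HeightOneSpectrum (𝓞 S.K)) :
    (x.mul y).countOver v = x.countOver v + y.countOver v := by
  classical
  simp only [countOver, mul, List.countP_append]

theorem kerF_unitW : (unitW S).kerF D σ = unitKer (D.levelOpF σ) := by
  simp [kerF_eq, opF, unitW, unitKer, heckeWord]

theorem kerF_ballW (w : InfinitePlace S.F) (ε : ℝ) :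
    (ballW w ε).kerF D σ = placeKer (D.levelOpF σ) w ε := by
  simp [kerF_eq, opF, ballW, placeKer, heckeWord]

theorem kerF_heckeW (w : HeightOneSpectrum (𝓞 S.F)) (hw : (S.m : 𝓞 S.F) ∉ w.asIdeal ∧
    Ideal.absNorm w.asIdeal = Ideal.absNorm (S.underK w).asIdeal) :
    (heckeW w hw).kerF D σ = unitKer (D.levelOpF σ * heckeOp (D.levelIdeal S.F) w) := by
  simp [kerF_eq, opF, heckeW, unitKer, heckeWord]

end KWord

end FermatAgent.LTG

end
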