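import Mathlib
import Fermat.Agent.LT.MultOne.Coeff

set_option autoImplicit false

/-!
# Coefficients of eigenfunctions are determined by their values at units away from the bad places

When the inverse different is killed by a number `M` supported on the bad places, a coefficient of
an eigenfunction vanishes as soon as those at the ideles which are units at all good places do.
-/

noncomputable section

open NumberField IsDedekindDomain WithZero Filter
open FermatAgent.LT

namespace FermatAgent.LTG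

set_option linter.unusedSectionVars false

variable {L : Type*} [Field L] [NumberField L] [IsTotallyComplex L]

/-- `M` kills the inverse different and is a unit at the places outside `S`. -/
structure DiffData (S : Set (HeightOneSpectrum (𝓞 L))) (M : ℕ) : Prop where
  diff : ∀ y : L, (∀ o : 𝓞 L, ∃ t : ℤ, Algebra.trace ℚ L (y * (o : L)) = t) →
    ∃ z : 𝓞 L, (z : L) = (M : L) * y
  unit : ∀ v ∉ S, (M : 𝓞 L) ∉ v.asIdeal

/-- The trace of an integral multiple of a rational point of a trivial character is integral. -/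
theorem exists_int_of_phaseInf_eq_one {x : L} (h : phaseInf x = 1) :
    ∃ n : ℤ, Algebra.trace ℚ L x = n := by
  rw [phaseInf_eq_exp_trace] at h
  obtain ⟨n, hn⟩ := Complex.exp_eq_one_iff.mp h
  refine ⟨n, ?_⟩
  have h3 : ((Algebra.trace ℚ L x : ℚ) : ℂ) = (n : ℂ) := by
    have h2 : (2 * Real.pi * Complex.I : ℂ) ≠ 0 := by simp [Real.pi_ne_zero]
    refine mul_left_cancel₀ h2 ?_
    rw [hn]
    ring
  exact_mod_cast h3

theorem valued_natCast_eq_one {v : HeightOneSpectrum (𝓞 L)} {M : ℕ} (h : (M : 𝓞 L) ∉ v.asIdeal) :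
    Valued.v (loc v (M : L)) = 1 := by
  rw [show (M : L) = ((M : 𝓞 L) : L) by simp, valued_loc,
    HeightOneSpectrum.valuation_of_algebraMap]
  exact (v.intValuation_eq_one_iff_mem_primeCompl _).mpr h

variable {S : Set (HeightOneSpectrum (𝓞 L))} {M : ℕ}

/-- At a good place the character is trivial only on the integers. -/
theorem DiffData.valued_le_one (hd : DiffData S M) {v : HeightOneSpectrum (𝓞 L)} (hv : v ∉ S)
    {c : v.adicCompletion L} (hc : CharTrivAt v c) : Valued.v c ≤ 1 := by
  obtain ⟨b, hb⟩ := exists_rat_int (updAt v c 0)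
  have htr : ∀ o : 𝓞 L, ∃ n : ℤ, Algebra.trace ℚ L (b * (o : L)) = n := by
    intro o
    refine exists_int_of_phaseInf_eq_one ?_
    rw [← hc o]
    refine (adelicChar_apply_of_near ?_).symm
    intro w
    rw [adele_sub_apply, adele_algebraMap_apply, map_mul]
    have h2 := hb w
    rw [adele_sub_apply, adele_algebraMap_apply] at h2
    have ho : Valued.v (loc w (o : L)) ≤ 1 := by
      rw [valued_loc, HeightOneSpectrum.valuation_of_algebraMap]
      exact w.intValuation_le_one o
    rcases eq_or_ne w v with rfl | hw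
    · rw [updAt_self] at h2 ⊢
      rw [← sub_mul, map_mul]
      simpa using mul_le_mul' h2 ho
    · rw [updAt_of_ne _ _ _ hw] at h2 ⊢
      simp only [Nat.cast_zero, zero_sub, Valuation.map_neg, map_mul] at h2 ⊢
      simpa using mul_le_mul' h2 ho
  obtain ⟨z, hz⟩ := hd.diff b htr
  have h1 : Valued.v (loc v b) ≤ 1 := by
    have h2 : Valued.v (loc v (z : L)) ≤ 1 := by
      rw [valued_loc, HeightOneSpectrum.valuation_of_algebraMap]
      exact v.intValuation_le_one z
    rwa [hz, map_mul, map_mul, valued_natCast_eq_one (hd.unit v hv), one_mul] at h2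
  have h2 := hb v
  rw [adele_sub_apply, adele_algebraMap_apply, updAt_self] at h2
  calc Valued.v c = Valued.v ((c - loc v b) + loc v b) := by rw [sub_add_cancel]
    _ ≤ max (Valued.v (c - loc v b)) (Valued.v (loc v b)) := Valuation.map_add _ _ _
    _ ≤ 1 := max_le (by simpa using h2) h1

/-- The character is trivial on integral multiples of integers. -/
theorem charTrivAt_of_le_one {v : HeightOneSpectrum (𝓞 L)} {c : v.adicCompletion L}
    (hc : Valued.v c ≤ 1) : CharTrivAt v c := by
  intro o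
  refine adelicChar_of_small (updAt_mem_smallAdeles ?_)
  rw [map_mul, Pi.zero_apply, Nat.cast_zero, neg_zero, exp_zero]
  refine mul_le_one' hc ?_
  rw [valued_loc, HeightOneSpectrum.valuation_of_algebraMap]
  exact v.intValuation_le_one o

variable {𝔫 : Ideal (𝓞 L)} {φ : XInf L → GAf L → ℂ} {W : GAf L → ℂ}

theorem valued_mul_ideleAt_inv (a : (Adf L)ˣ) (v : HeightOneSpectrum (𝓞 L)) :
    Valued.v (((a * (ideleAt v (piLoc v))⁻¹ : (Adf L)ˣ) : Adf L) v) =
      Valued.v ((a : Adf L) v) * exp (1 : ℤ) := by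
  have hi : ((ideleAt v (piLoc v))⁻¹ : (Adf L)ˣ) = ideleAt v (piLoc v)⁻¹ :=
    (map_inv (ideleAtHom v) (piLoc v)).symm
  rw [Units.val_mul, adele_mul_apply, hi, ideleAt_self, Units.val_inv_eq_inv_val, map_mul,
    map_inv₀, show ((piLoc v : (v.adicCompletion L)ˣ) : v.adicCompletion L) = loc v (pi v : L)
      from rfl, valued_uniformizer, ← exp_neg, neg_neg]

theorem valued_mul_ideleAt_inv_of_ne (a : (Adf L)ˣ) {v w : HeightOneSpectrum (𝓞 L)} (h : w ≠ v) :
    ((a * (ideleAt v (piLoc v))⁻¹ : (Adf L)ˣ) : Adf L) w = (a : Adf L) w := by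
  have hi : ((ideleAt v (piLoc v))⁻¹ : (Adf L)ˣ) = ideleAt v (piLoc v)⁻¹ :=
    (map_inv (ideleAtHom v) (piLoc v)).symm
  rw [Units.val_mul, adele_mul_apply, hi, ideleAt_of_ne _ h, mul_one]

/-- The Hecke relation for the coefficients at a good place. -/
theorem coeff_hecke (hφ : IsCuspFn 𝔫 φ) (hW : HasExpansion φ W) (h𝔫 : 𝔫 ≠ ⊥)
    {v : HeightOneSpectrum (𝓞 L)} {l : ℂ} (hl : IsEigenAt v φ l) {a : (Adf L)ˣ}
    (ha : CharTrivAt v ((a : Adf L) v)) :
    (Nat.card (𝓞 L ⧸ v.asIdeal) : ℂ) * diagW W (a * ideleAt v (piLoc v)) +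
        diagW W (a * (ideleAt v (piLoc v))⁻¹) =
      (Real.sqrt (Ideal.absNorm v.asIdeal) : ℂ) * l * diagW W a := by
  have : Finite (𝓞 L ⧸ v.asIdeal) := Ideal.finiteQuotientOfFreeOfNeBot _ v.ne_bot
  let _ := Fintype.ofFinite (𝓞 L ⧸ v.asIdeal)
  set β : (𝓞 L ⧸ v.asIdeal) → GAf L := fun b => atPlace v (upperTri (piLoc v)
    (algebraMap L (v.adicCompletion L)
      ((Function.surjInv (Ideal.Quotient.mk_surjective (I := v.asIdeal)) b : 𝓞 L) : L)) 1) with hβ
  set γ : GAf L := atPlace v (upperTri 1 0 (piLoc v)) with hγ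
  have hT := (HasExpansion.sum Finset.univ (fun b => hW.comp_mul_right (β b))).add
    (hW.comp_mul_right γ)
  have hT' : HasExpansion (fun x g => (∑ b, φ x (g * β b)) + φ x (g * γ))
      (fun g => (Real.sqrt (Ideal.absNorm v.asIdeal) : ℂ) * l * W g) := by
    refine fun x g => ?_
    have h1 := hl x g
    rw [heckeT, finsum_eq_sum_of_fintype] at h1
    change HasSum _ ((∑ b, φ x (g * β b)) + φ x (g * γ))
    rw [h1]
    exact (hW.const_mul _) x g
  have key : (∑ b, W (upperTri a 0 1 * β b)) + W (upperTri a 0 1 * γ) =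
      (Real.sqrt (Ideal.absNorm v.asIdeal) : ℂ) * l * diagW W a := hT.unique hT' _
  have hterm : ∀ b, W (upperTri a 0 1 * β b) = diagW W (a * ideleAt v (piLoc v)) := by
    intro b
    set o : 𝓞 L := Function.surjInv (Ideal.Quotient.mk_surjective (I := v.asIdeal)) b
    have hd : upperTri a 0 1 * β b =
        upperTri 1 (updAt v ((a : Adf L) v * loc v (o : L)) 0) 1 *
          upperTri (a * ideleAt v (piLoc v)) 0 1 := by
      simp only [hβ, atPlace_upperTri, ideleAt_one, upperTri_mul]
      simp only [mul_one, one_mul, Units.val_one, mul_zero, zero_add, add_zero]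
      congr 1
      refine FiniteAdeleRing.ext _ fun w => ?_
      rw [adele_mul_apply]
      rcases eq_or_ne w v with rfl | hw
      · rw [updAt_self, updAt_self]
      · rw [updAt_of_ne _ _ _ hw, updAt_of_ne _ _ _ hw]; simp
    have h1 := coeff_upperUni h𝔫 hW hφ.rational hφ.level
      (updAt v ((a : Adf L) v * loc v (o : L)) 0) (upperTri (a * ideleAt v (piLoc v)) 0 1)
    rw [← hd, ha o, one_mul] at h1
    exact h1
  have hlast : W (upperTri a 0 1 * γ) = diagW W (a * (ideleAt v (piLoc v))⁻¹) := by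
    have hu : updAt v (0 : v.adicCompletion L) 0 = 0 := by
      refine FiniteAdeleRing.ext _ fun w => ?_
      rcases eq_or_ne w v with rfl | hw
      · rw [updAt_self]; rfl
      · rw [updAt_of_ne _ _ _ hw]; simp [adele_zero_apply]
    have hd : upperTri a 0 1 * γ = upperTri (a * (ideleAt v (piLoc v))⁻¹) 0 1 *
        upperTri (ideleAt v (piLoc v)) 0 (ideleAt v (piLoc v)) := by
      simp only [hγ, atPlace_upperTri, ideleAt_one, upperTri_mul, hu]
      simp
    rw [hd, hW.mul_right (c := 1) (fun x g => by rw [hφ.central, one_mul]), one_mul]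
    rfl
  simp only [hterm, hlast, Finset.sum_const, Finset.card_univ, nsmul_eq_mul] at key
  rwa [Nat.card_eq_fintype_card]

/-- A coefficient which is nonzero forces a trivial character at the places prime to the level. -/
theorem charTrivAt_of_ne_zero (hφ : IsCuspFn 𝔫 φ) (hW : HasExpansion φ W) (h𝔫 : 𝔫 ≠ ⊥)
    {e : HeightOneSpectrum (𝓞 L) → ℕ} (he : IsLevelExp 𝔫 e) {v : HeightOneSpectrum (𝓞 L)}
    (hev : e v = 0) {a : (Adf L)ˣ} (ha : diagW W a ≠ 0) : CharTrivAt v ((a : Adf L) v) := by
  intro o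
  have hk : transl v o ∈ congrSubgroup 𝔫 := by
    rw [transl, atPlace_upperTri, ideleAt_one]
    refine (isNearOne_upperUni (updAt_mem_smallAdeles ?_)).mem_congrSubgroup he
    rw [hev, valued_loc, HeightOneSpectrum.valuation_of_algebraMap]
    simpa using v.intValuation_le_one o
  have h1 : adelicChar (updAt v ((a : Adf L) v * loc v (o : L)) 0) *
      W (upperTri a 0 1 * transl v o) = diagW W a := by
    rw [upperTri_mul_transl]
    exact coeff_upperUni h𝔫 hW hφ.rational hφ.level _ _
  rw [hW.mul_right (c := 1) (fun x g => by rw [hφ.level _ hk, one_mul]), one_mul] at h1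
  exact mul_right_cancel₀ ha (h1.trans (one_mul _).symm)

/-- **Vanishing.** If the coefficients at ideles which are units outside `S` vanish, all vanish. -/
theorem diagW_eq_zero (hd : DiffData S M) (hφ : IsCuspFn 𝔫 φ) (hW : HasExpansion φ W)
    (h𝔫 : 𝔫 ≠ ⊥) {e : HeightOneSpectrum (𝓞 L) → ℕ} (he : IsLevelExp 𝔫 e)
    (heS : ∀ v ∉ S, e v = 0) (heig : ∀ v ∉ S, ∃ l : ℂ, IsEigenAt v φ l)
    (h0 : ∀ a : (Adf L)ˣ, (∀ v ∉ S, Valued.v ((a : Adf L) v) = 1) → diagW W a = 0)
    (a : (Adf L)ˣ) : diagW W a = 0 := by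
  classical
  let ord : (Adf L)ˣ → HeightOneSpectrum (𝓞 L) → ℕ := fun b v =>
    if v ∈ S then 0 else (-log (Valued.v ((b : Adf L) v))).toNat
  have hne : ∀ (b : (Adf L)ˣ) v, Valued.v ((b : Adf L) v) ≠ 0 := fun b v =>
    (Valuation.ne_zero_iff _).mpr ((FiniteAdeleRing.isUnit_iff.mp b.isUnit).1 v)
  have hle : ∀ b, diagW W b ≠ 0 → ∀ v ∉ S, Valued.v ((b : Adf L) v) ≤ 1 := fun b hb v hv =>
    hd.valued_le_one hv (charTrivAt_of_ne_zero hφ hW h𝔫 he (heS v hv) hb)
  have hsupp : ∀ b, (Function.support (ord b)).Finite := by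
    intro b
    refine (Filter.eventually_cofinite.mp (FiniteAdeleRing.isUnit_iff.mp b.isUnit).2).subset
      fun v hv h1 => hv ?_
    simp [ord, h1]
  suffices h : ∀ n b, ∑ᶠ v, ord b v = n → diagW W b = 0 from h _ a rfl
  intro n
  induction n using Nat.strong_induction_on with
  | _ n ih =>
  intro b hn
  by_contra hb
  obtain ⟨v, hv, hv1⟩ : ∃ v, v ∉ S ∧ Valued.v ((b : Adf L) v) ≠ 1 := by
    by_contra hcon
    push Not at hcon
    exact hb (h0 b hcon)
  have hlog : log (Valued.v ((b : Adf L) v)) < 0 := by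
    rcases lt_trichotomy (log (Valued.v ((b : Adf L) v))) 0 with h | h | h
    · exact h
    · exact absurd (by rw [← exp_log (hne b v), h, exp_zero]) hv1
    · have := hle b hb v hv
      rw [← exp_log (hne b v), ← exp_zero, exp_le_exp] at this
      omega
  set π := (ideleAt v (piLoc v))⁻¹ with hπ
  have hb' : Valued.v (((b * π : (Adf L)ˣ) : Adf L) v) = exp (log (Valued.v ((b : Adf L) v)) + 1) := by
    rw [hπ, valued_mul_ideleAt_inv, exp_add, exp_log (hne b v)]
  have hsmall : ∀ c : (Adf L)ˣ, (∀ w, w ≠ v → (c : Adf L) w = (b : Adf L) w) →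
      log (Valued.v ((b : Adf L) v)) < log (Valued.v ((c : Adf L) v)) → diagW W c = 0 := by
    intro c hc hcv
    by_contra hc0
    have h1 := hle c hc0 v hv
    rw [← exp_log (hne c v), ← exp_zero, exp_le_exp] at h1
    refine hc0 (ih (∑ᶠ w, ord c w) ?_ c rfl)
    rw [← hn, finsum_eq_sum_of_support_subset (s := (hsupp b).toFinset ∪ {v}) _ ?_,
      finsum_eq_sum_of_support_subset (s := (hsupp b).toFinset ∪ {v}) _ ?_]
    · refine Finset.sum_lt_sum (fun w _ => ?_) ⟨v, by simp, ?_⟩
      · rcases eq_or_ne w v with rfl | hw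
        · simp only [ord, if_neg hv]; omega
        · simp [ord, hc w hw]
      · simp only [ord, if_neg hv]; omega
    · intro w hw
      simp at hw ⊢
      exact Or.inr hw
    · intro w hw
      rcases eq_or_ne w v with rfl | hwv
      · simp
      · simp at hw ⊢
        exact Or.inr (by simpa [ord, hc w hwv] using hw)
  have h1 : diagW W (b * π) = 0 :=
    hsmall _ (fun w hw => valued_mul_ideleAt_inv_of_ne b hw) (by rw [hb', log_exp]; omega)
  have h2 : diagW W (b * π * π) = 0 :=
    hsmall _ (fun w hw => by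
        rw [hπ, valued_mul_ideleAt_inv_of_ne _ hw, valued_mul_ideleAt_inv_of_ne _ hw])
      (by rw [hπ, valued_mul_ideleAt_inv, ← hπ, hb', ← exp_add, log_exp]; omega)
  obtain ⟨l, hl⟩ := heig v hv
  have htriv : CharTrivAt v (((b * π : (Adf L)ˣ) : Adf L) v) := charTrivAt_of_le_one (by
    rw [hb', ← exp_zero, exp_le_exp]; omega)
  have key := coeff_hecke hφ hW h𝔫 hl htriv
  rw [← hπ, h1, h2, add_zero, mul_zero, hπ, inv_mul_cancel_right] at key
  have : Finite (𝓞 L ⧸ v.asIdeal) := Ideal.finiteQuotientOfFreeOfNeBot _ v.ne_bot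
  exact hb ((mul_eq_zero.mp key).resolve_left (Nat.cast_ne_zero.mpr Nat.card_pos.ne'))

end FermatAgent.LTG

end
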