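import Mathlib
import Fermat.Agent.LT.General.Level.Group
import Fermat.Agent.LT.Base.Cosets
import Fermat.Agent.LT.MultOne.Approx

set_option autoImplicit false

/-!
# Lifts of the residual matrices of a box group
-/

noncomputable section

open NumberField IsDedekindDomain
open FermatAgent.LT (Adf GAf IntAd intToAdele congrSubgroup upperTri)

namespace FermatAgent.LTG

variable {L : Type*} [Field L] [NumberField L]

theorem ratChar_eq_of_dvd_sub {M : ℕ} {s t : ℤ} (h : (M : ℤ) ∣ s - t) :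
    ratChar M s = ratChar M t := by
  rcases eq_or_ne M 0 with rfl | hM
  · rw [Nat.cast_zero, zero_dvd_iff, sub_eq_zero] at h
    rw [h]
  obtain ⟨c, hc⟩ := h
  have hM' : (M : ℂ) ≠ 0 := Nat.cast_ne_zero.mpr hM
  rw [ratChar, ratChar, Complex.exp_eq_exp_iff_exists_int]
  refine ⟨c, ?_⟩
  have h1 : (s : ℂ) = (t : ℂ) + (M : ℂ) * (c : ℂ) := by
    rw [show s = t + M * c by rw [← hc]; ring]
    push_cast
    ring
  rw [h1]
  field_simp

namespace Box

variable (P : Box L)

/-- The diagonal map into the integral adeles. -/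
def intDiag : 𝓞 L →+* IntAd L :=
  RingHom.pi fun v : HeightOneSpectrum (𝓞 L) => algebraMap (𝓞 L) (v.adicCompletionIntegers L)

theorem isLiftOf_iff (k : GL (Fin 2) (IntAd L))
    (M : Matrix (Fin 2) (Fin 2) (𝓞 L ⧸ P.lvlIdeal)) :
    P.IsLiftOf k M ↔ ∃ o : Matrix (Fin 2) (Fin 2) (𝓞 L), o.map (Ideal.Quotient.mk P.lvlIdeal) = M ∧
      ∀ i j, (k : Matrix (Fin 2) (Fin 2) (IntAd L)) i j - intDiag (o i j) ∈
        P.lvlIdeal.map intDiag := Iff.rfl

/-- Two lifts differ by the congruence subgroup. -/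
theorem mem_congrSubgroup_of_lifts {k k' : GL (Fin 2) (IntAd L)}
    {M : Matrix (Fin 2) (Fin 2) (𝓞 L ⧸ P.lvlIdeal)} (h : P.IsLiftOf k M) (h' : P.IsLiftOf k' M) :
    (Matrix.GeneralLinearGroup.map intToAdele k)⁻¹ * Matrix.GeneralLinearGroup.map intToAdele k' ∈
      congrSubgroup P.lvlIdeal := by
  obtain ⟨o, ho, hk⟩ := h
  obtain ⟨o', ho', hk'⟩ := h'
  rw [← map_inv, ← map_mul]
  refine Subgroup.mem_map_of_mem _ (MonoidHom.mem_ker.mpr ?_)
  rw [map_mul, map_inv, inv_mul_eq_one]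
  refine Units.ext (Matrix.ext fun i j => ?_)
  simp only [Matrix.GeneralLinearGroup.map_apply]
  have hoo : o i j - o' i j ∈ P.lvlIdeal := by
    rw [← Ideal.Quotient.eq]
    exact congrFun (congrFun (ho.trans ho'.symm) i) j
  refine Ideal.Quotient.eq.mpr ?_
  have e : (k : Matrix (Fin 2) (Fin 2) (IntAd L)) i j - (k' : Matrix (Fin 2) (Fin 2) (IntAd L)) i j =
      ((k : Matrix (Fin 2) (Fin 2) (IntAd L)) i j - intDiag (o i j)) -
        ((k' : Matrix (Fin 2) (Fin 2) (IntAd L)) i j - intDiag (o' i j)) +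
          intDiag (o i j - o' i j) := by
    rw [map_sub]
    ring
  rw [e]
  exact add_mem (sub_mem (hk i j) (hk' i j)) (Ideal.mem_map_of_mem _ hoo)

/-- The chosen lift acts as any lift on functions of that level. -/
theorem apply_lift {X : Type*} {φ : X → GAf L → ℂ}
    (hlev : ∀ u ∈ congrSubgroup P.lvlIdeal, ∀ x g, φ x (g * u) = φ x g)
    {k : GL (Fin 2) (IntAd L)} {M : Matrix (Fin 2) (Fin 2) (𝓞 L ⧸ P.lvlIdeal)}
    (h : P.IsLiftOf k M) (x : X) (g : GAf L) :
    φ x (g * P.lift M) = φ x (g * Matrix.GeneralLinearGroup.map intToAdele k) := by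
  classical
  have hex : ∃ k, P.IsLiftOf k M := ⟨k, h⟩
  rw [lift, dif_pos hex]
  have hu := P.mem_congrSubgroup_of_lifts hex.choose_spec h
  set a := Matrix.GeneralLinearGroup.map intToAdele hex.choose
  set b := Matrix.GeneralLinearGroup.map intToAdele k
  rw [show g * b = g * a * (a⁻¹ * b) by group, hlev _ hu]

/-- The character of a residual matrix. -/
theorem chi_resMat (hM : P.M₁ ∣ P.N) {a b c d : 𝓞 L} (hb : b ∈ P.B) :
    P.chi (P.resMat a b c d) = ratChar P.M₁ (Algebra.trace ℤ (𝓞 L) b) := by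
  classical
  have h01 : P.resMat a b c d 0 1 = Ideal.Quotient.mk P.lvlIdeal b := by simp [resMat]
  have h : ∃ b' ∈ P.B, Ideal.Quotient.mk P.lvlIdeal b' = P.resMat a b c d 0 1 :=
    ⟨b, hb, h01.symm⟩
  rw [chi, dif_pos h]
  refine ratChar_eq_of_dvd_sub ?_
  obtain ⟨z, hz⟩ := Ideal.mem_span_singleton'.mp (Ideal.Quotient.eq.mp (h.choose_spec.2.trans h01))
  obtain ⟨q, hq⟩ := hM
  rw [← map_sub, ← hz, mul_comm, show (P.N : 𝓞 L) * z = (P.N : ℤ) • z by simp, map_zsmul,
    smul_eq_mul, hq, Nat.cast_mul]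
  exact ((dvd_mul_right _ _).mul_right _)

/-- The upper unipotent of a global integer lifts its residual matrix. -/
theorem isLiftOf_upper (b : 𝓞 L) :
    P.IsLiftOf (upperTri 1 (intDiag b) 1) (P.resMat 0 b 0 0) := by
  refine ⟨!![1 + 0, b; (P.M₂ : 𝓞 L) * 0, 1 + 0], rfl, fun i j => ?_⟩
  fin_cases i <;> fin_cases j <;> simp [upperTri, intDiag]

/-- A diagonal matrix lifts the residual matrix of an integer congruent to its entry. -/
theorem isLiftOf_diag (u : (IntAd L)ˣ) (o : 𝓞 L)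
    (h : (u : IntAd L) - intDiag o ∈ P.lvlIdeal.map intDiag) :
    P.IsLiftOf (upperTri u 0 1) (P.resMat (o - 1) 0 0 0) := by
  refine ⟨!![1 + (o - 1), 0; (P.M₂ : 𝓞 L) * 0, 1 + 0], rfl, fun i j => ?_⟩
  fin_cases i <;> fin_cases j <;> simp [upperTri]
  simpa [intDiag] using h

/-- Integral adeles are congruent to global integers modulo the level. -/
theorem exists_int_congr (hN : P.N ≠ 0) (u : IntAd L) :
    ∃ o : 𝓞 L, u - intDiag o ∈ P.lvlIdeal.map intDiag := by
  classical
  have h : P.lvlIdeal ≠ ⊥ := by simpa using hN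
  obtain ⟨e, he, he0⟩ := LT.exists_levelExp h
  obtain ⟨o, ho⟩ := LT.exists_int_close_finset (Filter.eventually_cofinite.mp he0).toFinset
    (fun v => ((u v : v.adicCompletionIntegers L) : v.adicCompletion L)) e (fun v _ => (u v).2)
  refine ⟨o, LT.mem_map_pi_of_small he fun v => ?_⟩
  change Valued.v (((u v : v.adicCompletionIntegers L) : v.adicCompletion L) -
    LT.loc v (o : L)) ≤ WithZero.exp (-(e v : ℤ))
  by_cases hv : v ∈ (Filter.eventually_cofinite.mp he0).toFinset
  · exact ho v hv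
  · have hv' : e v = 0 := by simpa using hv
    rw [hv', Nat.cast_zero, neg_zero, WithZero.exp_zero]
    refine (Valuation.map_sub _ _ _).trans (max_le (u v).2 ?_)
    rw [LT.valued_loc, HeightOneSpectrum.valuation_of_algebraMap]
    exact v.intValuation_le_one o

end Box

end FermatAgent.LTG

end
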