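import Mathlib
import Fermat.Agent.LT.General.Spectral.BoxLift

set_option autoImplicit false

/-!
# The projection of a box group on functions of the cosets, evaluated
-/

noncomputable section

open NumberField IsDedekindDomain
open FermatAgent.LT (Adf GAf IntAd intToAdele congrSubgroup upperTri Cosets levelGroup rightOp)

namespace FermatAgent.LTG

variable {L : Type*} [Field L] [NumberField L]

/-- Integral adelic matrices normalise the congruence subgroup. -/
theorem conj_mem_congrSubgroup {𝔫 : Ideal (𝓞 L)} {u : GAf L} (hu : u ∈ congrSubgroup 𝔫)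
    (k : GL (Fin 2) (IntAd L)) :
    (Matrix.GeneralLinearGroup.map intToAdele k)⁻¹ * u * Matrix.GeneralLinearGroup.map intToAdele k ∈
      congrSubgroup 𝔫 := by
  obtain ⟨u₀, hu₀, rfl⟩ := hu
  rw [← map_inv, ← map_mul, ← map_mul]
  refine Subgroup.mem_map_of_mem _ (MonoidHom.mem_ker.mpr ?_)
  rw [map_mul, map_mul, MonoidHom.mem_ker.mp hu₀, mul_one, map_inv, inv_mul_cancel]

/-- Right translation by an integral matrix is compatible with the cosets. -/
theorem rightOp_int_mk {𝔫 : Ideal (𝓞 L)} (k : GL (Fin 2) (IntAd L)) (f : Cosets 𝔫 → ℂ) (g : GAf L) :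
    rightOp 𝔫 (Matrix.GeneralLinearGroup.map intToAdele k) f (g : Cosets 𝔫) =
      f ((g * Matrix.GeneralLinearGroup.map intToAdele k : GAf L) : Cosets 𝔫) := by
  set K₀ := Matrix.GeneralLinearGroup.map intToAdele k
  set o := ((g : Cosets 𝔫).out : GAf L) with ho
  change f ((o * K₀ : GAf L) : Cosets 𝔫) = _
  refine congrArg f (QuotientGroup.eq.mpr ?_)
  have hq : o⁻¹ * g ∈ levelGroup 𝔫 := QuotientGroup.eq.mp (QuotientGroup.out_eq' _)
  obtain ⟨u, hu, z, hz, hz'⟩ := Subgroup.mem_sup_of_normal_right.1 hq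
  have e : (o * K₀)⁻¹ * (g * K₀) = K₀⁻¹ * u * K₀ * z := by
    rw [show g = o * (u * z) by rw [hz', mul_inv_cancel_left], mul_inv_rev]
    have hc := Subgroup.mem_center_iff.mp hz K₀
    calc K₀⁻¹ * o⁻¹ * (o * (u * z) * K₀) = K₀⁻¹ * u * (z * K₀) := by group
      _ = K₀⁻¹ * u * (K₀ * z) := by rw [hc]
      _ = _ := by group
  rw [e]
  exact mul_mem (Subgroup.mem_sup_left (conj_mem_congrSubgroup hu k)) (Subgroup.mem_sup_right hz)

open Classical in
/-- An integral matrix congruent modulo `N` to a global one which is unipotent at the places of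
`N`. -/
theorem exists_int_lift {N : ℕ} (o : Matrix (Fin 2) (Fin 2) (𝓞 L))
    (h : ∀ v : HeightOneSpectrum (𝓞 L), (N : 𝓞 L) ∈ v.asIdeal →
      o 0 0 - 1 ∈ v.asIdeal ∧ o 1 1 - 1 ∈ v.asIdeal ∧ o 1 0 ∈ v.asIdeal) :
    ∃ (k : GL (Fin 2) (IntAd L)) (r : Matrix (Fin 2) (Fin 2) (IntAd L)), ∀ i j,
      (k : Matrix (Fin 2) (Fin 2) (IntAd L)) i j - Box.intDiag (o i j) =
        Box.intDiag (N : 𝓞 L) * r i j := by
  let ε : IntAd L := fun v => if (N : 𝓞 L) ∈ v.asIdeal then 1 else 0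
  have hunit : ∀ v : HeightOneSpectrum (𝓞 L), (N : 𝓞 L) ∉ v.asIdeal →
      IsUnit (algebraMap (𝓞 L) (v.adicCompletionIntegers L) (N : 𝓞 L)) := fun v hv => by
    refine (Valuation.Integers.isUnit_iff_valuation_eq_one
      (Valuation.valuationSubring.integers (v := Valued.v (R := v.adicCompletion L)))).mpr ?_
    change Valued.v (LT.loc v ((N : 𝓞 L) : L)) = 1
    rw [LT.valued_loc, HeightOneSpectrum.valuation_of_algebraMap]
    exact (v.intValuation_eq_one_iff_mem_primeCompl _).mpr hv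
  let r₀ : IntAd L := fun v => if hv : (N : 𝓞 L) ∈ v.asIdeal then 0
    else (((hunit v hv).unit⁻¹ : (v.adicCompletionIntegers L)ˣ) : v.adicCompletionIntegers L)
  have hr₀ : 1 - ε = Box.intDiag (N : 𝓞 L) * r₀ := funext fun v => by
    change 1 - ε v = algebraMap (𝓞 L) (v.adicCompletionIntegers L) (N : 𝓞 L) * r₀ v
    by_cases hv : (N : 𝓞 L) ∈ v.asIdeal
    · simp [ε, r₀, hv]
    · simp [ε, r₀, hv]
  set Mx : Matrix (Fin 2) (Fin 2) (IntAd L) := Matrix.of fun i j =>
    ε * Box.intDiag (o i j) + (1 - ε) * (if i = j then 1 else 0) with hMx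
  have hdet : IsUnit Mx.det := by
    refine Pi.isUnit_iff.mpr fun v => ?_
    rw [Matrix.det_fin_two]
    by_cases hv : (N : 𝓞 L) ∈ v.asIdeal
    · obtain ⟨h00, h11, h10⟩ := h v hv
      have he : Mx 0 0 v * Mx 1 1 v - Mx 0 1 v * Mx 1 0 v =
          algebraMap (𝓞 L) (v.adicCompletionIntegers L) (o 0 0 * o 1 1 - o 0 1 * o 1 0) := by
        simp [Mx, ε, hv, Box.intDiag]
      change IsUnit (Mx 0 0 v * Mx 1 1 v - Mx 0 1 v * Mx 1 0 v)
      rw [he]
      refine (Valuation.Integers.isUnit_iff_valuation_eq_one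
        (Valuation.valuationSubring.integers (v := Valued.v (R := v.adicCompletion L)))).mpr ?_
      change Valued.v (LT.loc v ((o 0 0 * o 1 1 - o 0 1 * o 1 0 : 𝓞 L) : L)) = 1
      rw [LT.valued_loc, HeightOneSpectrum.valuation_of_algebraMap]
      refine (v.intValuation_eq_one_iff_mem_primeCompl _).mpr fun hd => ?_
      refine v.isPrime.ne_top ((Ideal.eq_top_iff_one _).mpr ?_)
      have e : (1 : 𝓞 L) = (o 0 0 * o 1 1 - o 0 1 * o 1 0) + o 0 1 * o 1 0 -
          (o 0 0 - 1) * o 1 1 - (o 1 1 - 1) := by ring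
      rw [e]
      exact sub_mem (sub_mem (add_mem hd (Ideal.mul_mem_left _ _ h10))
        (Ideal.mul_mem_right _ _ h00)) h11
    · change IsUnit (Mx 0 0 v * Mx 1 1 v - Mx 0 1 v * Mx 1 0 v)
      simp [Mx, ε, hv]
  refine ⟨Matrix.GeneralLinearGroup.mk'' Mx hdet,
    Matrix.of fun i j => r₀ * ((if i = j then 1 else 0) - Box.intDiag (o i j)), fun i j => ?_⟩
  change ε * Box.intDiag (o i j) + (1 - ε) * (if i = j then 1 else 0) - Box.intDiag (o i j) = _
  rw [Matrix.of_apply, ← mul_assoc, ← hr₀]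
  ring

namespace Box

variable (P : Box L)

/-- The chosen lift comes from an integral matrix. -/
theorem lift_eq_map (M : Matrix (Fin 2) (Fin 2) (𝓞 L ⧸ P.lvlIdeal)) :
    ∃ k : GL (Fin 2) (IntAd L), P.lift M = Matrix.GeneralLinearGroup.map intToAdele k := by
  classical
  unfold lift
  split_ifs with h
  · exact ⟨h.choose, rfl⟩
  · exact ⟨1, (map_one _).symm⟩

/-- The projection at a coset. -/
theorem op_mk (hN : P.N ≠ 0) (f : Cosets P.lvlIdeal → ℂ) (g : GAf L) :
    P.op f (g : Cosets P.lvlIdeal) = (Nat.card P.resSet : ℂ)⁻¹ *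
      ∑ M ∈ (resSet_finite (P := P) (Nat.pos_of_ne_zero hN)).toFinset,
        (P.chi M)⁻¹ * f ((g * P.lift M : GAf L) : Cosets P.lvlIdeal) := by
  rw [op, finsum_mem_eq_finite_toFinset_sum _ (resSet_finite (P := P) (Nat.pos_of_ne_zero hN))]
  simp only [LinearMap.smul_apply, LinearMap.sum_apply, Pi.smul_apply, Finset.sum_apply, smul_eq_mul]
  refine congrArg _ (Finset.sum_congr rfl fun M _ => congrArg _ ?_)
  obtain ⟨k, hk⟩ := P.lift_eq_map M
  rw [hk, rightOp_int_mk]

end Box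

end FermatAgent.LTG

end
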