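import Mathlib
import Fermat.Agent.LT.General.Spectral.OpApply
import Fermat.Agent.LT.Descent.Kernel.CosetOp

set_option autoImplicit false

/-!
# Translates of functions of a level: helper lemmas
-/

noncomputable section

open NumberField IsDedekindDomain WithZero
open FermatAgent.LT (Adf GAf IntAd intToAdele congrSubgroup upperTri Cosets levelGroup atPlace
  loc)
open FermatAgent.LT.CO (locMat)

namespace FermatAgent.LTG

variable {L : Type*} [Field L] [NumberField L]

namespace Box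

theorem intDiag_natCast (N : ℕ) : intDiag (N : 𝓞 L) = (N : IntAd L) := map_natCast intDiag N

theorem natCast_dvd_of_mem {N : ℕ} {x : IntAd L}
    (h : x ∈ (Ideal.span {(N : 𝓞 L)}).map intDiag) : (N : IntAd L) ∣ x := by
  rw [Ideal.map_span, Set.image_singleton, intDiag_natCast] at h
  exact Ideal.mem_span_singleton.mp h

/-- The chosen lift lifts, as soon as some lift exists, and is then congruent to any global matrix
with that reduction. -/
theorem exists_lift_spec (P : Box L) {M : Matrix (Fin 2) (Fin 2) (𝓞 L ⧸ P.lvlIdeal)}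
    {o : Matrix (Fin 2) (Fin 2) (𝓞 L)} (ho : o.map (Ideal.Quotient.mk P.lvlIdeal) = M)
    (h : ∀ v : HeightOneSpectrum (𝓞 L), (P.N : 𝓞 L) ∈ v.asIdeal →
      o 0 0 - 1 ∈ v.asIdeal ∧ o 1 1 - 1 ∈ v.asIdeal ∧ o 1 0 ∈ v.asIdeal) :
    ∃ k : GL (Fin 2) (IntAd L), P.lift M = Matrix.GeneralLinearGroup.map intToAdele k ∧
      ∀ i j, (P.N : IntAd L) ∣
        (k : Matrix (Fin 2) (Fin 2) (IntAd L)) i j - intDiag (o i j) := by
  classical
  obtain ⟨k₀, r, hr⟩ := exists_int_lift o h
  have hex : ∃ k, P.IsLiftOf k M := by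
    refine ⟨k₀, (P.isLiftOf_iff _ _).mpr ⟨o, ho, fun i j => ?_⟩⟩
    rw [hr i j]
    exact Ideal.mul_mem_right _ _ (Ideal.mem_map_of_mem _ (Ideal.mem_span_singleton_self _))
  refine ⟨hex.choose, by rw [lift, dif_pos hex], fun i j => ?_⟩
  obtain ⟨o', ho', hk⟩ := (P.isLiftOf_iff _ _).mp hex.choose_spec
  have hoo : o' i j - o i j ∈ P.lvlIdeal := by
    rw [← Ideal.Quotient.eq]
    exact congrFun (congrFun (ho'.trans ho.symm) i) j
  rw [show (hex.choose : Matrix (Fin 2) (Fin 2) (IntAd L)) i j - intDiag (o i j) =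
      ((hex.choose : Matrix (Fin 2) (Fin 2) (IntAd L)) i j - intDiag (o' i j)) +
        intDiag (o' i j - o i j) by rw [map_sub]; ring]
  exact natCast_dvd_of_mem (add_mem (hk i j) (Ideal.mem_map_of_mem _ hoo))

end Box

/-- The entries of a matrix of the congruence subgroup. -/
theorem exists_entries_of_mem_congr {N : ℕ} {u : GAf L}
    (hu : u ∈ congrSubgroup (Ideal.span {(N : 𝓞 L)})) :
    ∃ k : GL (Fin 2) (IntAd L), u = Matrix.GeneralLinearGroup.map intToAdele k ∧
      ∀ i j, (N : IntAd L) ∣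
        (k : Matrix (Fin 2) (Fin 2) (IntAd L)) i j - (1 : Matrix (Fin 2) (Fin 2) (IntAd L)) i j := by
  obtain ⟨k, hk, rfl⟩ := hu
  refine ⟨k, rfl, fun i j => Box.natCast_dvd_of_mem ?_⟩
  have hk' : Matrix.GeneralLinearGroup.map (Ideal.Quotient.mk ((Ideal.span {(N : 𝓞 L)}).map
      Box.intDiag)) k = 1 := hk
  have h1 := congrArg Units.val hk'
  have h1 := congrFun (congrFun h1 i) j
  simp only [Matrix.GeneralLinearGroup.map_apply, Units.val_one] at h1
  refine Ideal.Quotient.eq.mp (h1.trans ?_)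
  rcases eq_or_ne i j with rfl | hij
  · simp
  · simp [hij]

/-- Central elements are the scalar matrices. -/
theorem exists_upperTri_of_mem_center {z : GAf L} (hz : z ∈ Subgroup.center (GAf L)) :
    ∃ a : (Adf L)ˣ, z = upperTri a 0 a := by
  rw [Matrix.GeneralLinearGroup.center_eq_range_scalar] at hz
  obtain ⟨a, rfl⟩ := hz
  refine ⟨a, Units.ext (Matrix.ext fun i j => ?_)⟩
  fin_cases i <;> fin_cases j <;> simp [upperTri, Matrix.GeneralLinearGroup.scalar]

theorem upperTri_scalar_mem_center (a : (Adf L)ˣ) :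
    upperTri a (0 : Adf L) a ∈ Subgroup.center (GAf L) := by
  rw [Matrix.GeneralLinearGroup.center_eq_range_scalar]
  refine ⟨a, Units.ext (Matrix.ext fun i j => ?_)⟩
  fin_cases i <;> fin_cases j <;> simp [upperTri, Matrix.GeneralLinearGroup.scalar]

/-- A matrix at one place commutes with a diagonal idele which is trivial there. -/
theorem atPlace_mul_diag_comm (v : HeightOneSpectrum (𝓞 L)) (M : GL (Fin 2) (v.adicCompletion L))
    {t : (Adf L)ˣ} (ht : (t : Adf L) v = 1) :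
    atPlace v M * upperTri t 0 1 = upperTri t 0 1 * atPlace v M := by
  refine LT.CO.ext_locMat fun w => ?_
  rw [map_mul, map_mul]
  rcases eq_or_ne w v with rfl | hw
  · have h1 : locMat w (upperTri t (0 : Adf L) 1) = 1 := by
      refine Units.ext (Matrix.ext fun i j => ?_)
      fin_cases i <;> fin_cases j
      · exact ht
      · rfl
      · rfl
      · rfl
    rw [h1, mul_one, one_mul]
  · rw [LT.CO.locMat_atPlace_ne M hw, one_mul, mul_one]

/-- An idele which is trivial at the places prime to `m` becomes integral, as does its inverse,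
after multiplication by a power of `m`. -/
theorem exists_pow_mul_integral {m : ℕ} (hm : m ≠ 0) (t : (Adf L)ˣ)
    (ht : ∀ v : HeightOneSpectrum (𝓞 L), (m : 𝓞 L) ∉ v.asIdeal → (t : Adf L) v = 1) :
    ∃ j : ℕ, ∃ T T' : IntAd L, intToAdele T = ((m ^ j : ℕ) : Adf L) * (t : Adf L) ∧
      intToAdele T' = ((m ^ j : ℕ) : Adf L) * ((t⁻¹ : (Adf L)ˣ) : Adf L) := by
  classical
  have hne : ∀ v, (t : Adf L) v ≠ 0 := (FiniteAdeleRing.isUnit_iff.mp t.isUnit).1
  have hinv : ∀ v, ((t⁻¹ : (Adf L)ˣ) : Adf L) v = ((t : Adf L) v)⁻¹ := fun v =>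
    eq_inv_of_mul_eq_one_left (by
      rw [← LT.adele_mul_apply, Units.inv_mul]; rfl)
  let B : Finset (HeightOneSpectrum (𝓞 L)) :=
    (Ideal.finite_factors (I := Ideal.span {(m : 𝓞 L)}) (by simp [hm])).toFinset
  let f : HeightOneSpectrum (𝓞 L) → ℕ := fun v => (log (Valued.v ((t : Adf L) v))).natAbs
  refine ⟨B.sup f, ?_⟩
  have hbound : ∀ (x : Adf L), (∀ v, Valued.v (x v) ≠ 0 ∧
      (log (Valued.v (x v))).natAbs = f v ∧ ((m : 𝓞 L) ∉ v.asIdeal → Valued.v (x v) = 1)) →
      ∀ v, Valued.v ((((m ^ B.sup f : ℕ) : Adf L) * x) v) ≤ 1 := by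
    intro x hx v
    obtain ⟨h0, h1, h2⟩ := hx v
    rw [LT.adele_mul_apply, map_mul,
      show ((m ^ B.sup f : ℕ) : Adf L) = algebraMap L (Adf L) ((m : L) ^ B.sup f) by simp,
      LT.adele_algebraMap_apply, map_pow, map_pow]
    have hv : Valued.v (loc v (m : L)) = v.intValuation (m : 𝓞 L) := by
      rw [show (m : L) = ((m : 𝓞 L) : L) by simp, LT.valued_loc,
        HeightOneSpectrum.valuation_of_algebraMap]
    rw [hv]
    by_cases hvm : (m : 𝓞 L) ∈ v.asIdeal
    · have hB : v ∈ B := by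
        simp only [B, Set.Finite.mem_toFinset, Set.mem_ofPred_eq, Ideal.dvd_iff_le,
          Ideal.span_singleton_le_iff_mem]
        exact hvm
      have hle : v.intValuation (m : 𝓞 L) ≤ exp (-1 : ℤ) :=
        (v.intValuation_le_pow_iff_mem _ 1).mpr (by rwa [pow_one])
      refine (mul_le_mul' (pow_le_pow_left' hle _) le_rfl).trans ?_
      rw [← exp_nsmul, ← exp_log h0, ← exp_add, ← exp_zero, exp_le_exp]
      have h3 : f v ≤ B.sup f := Finset.le_sup hB
      have h4 : log (Valued.v (x v)) ≤ (f v : ℤ) := h1 ▸ Int.le_natAbs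
      simp only [nsmul_eq_mul, mul_neg, mul_one]
      omega
    · rw [h2 hvm, mul_one]
      exact pow_le_one₀ zero_le (v.intValuation_le_one _)
  have hv0 : ∀ v, Valued.v ((t : Adf L) v) ≠ 0 := fun v => (Valuation.ne_zero_iff _).mpr (hne v)
  refine ⟨fun v => ⟨(((m ^ B.sup f : ℕ) : Adf L) * (t : Adf L)) v, hbound _ (fun w =>
      ⟨hv0 w, rfl, fun hw => by rw [ht w hw, map_one]⟩) v⟩,
    fun v => ⟨(((m ^ B.sup f : ℕ) : Adf L) * ((t⁻¹ : (Adf L)ˣ) : Adf L)) v,
      hbound _ (fun w => ⟨?_, ?_, fun hw => ?_⟩) v⟩, rfl, rfl⟩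
  · rw [hinv, map_inv₀]
    exact inv_ne_zero (hv0 w)
  · rw [hinv, map_inv₀, log_inv, Int.natAbs_neg]
  · rw [hinv, ht w hw, inv_one, map_one]

/-- A function of a level is one on the cosets. -/
theorem coset_out_eq {X : Type*} {𝔫 : Ideal (𝓞 L)} {φ : X → GAf L → ℂ}
    (hlev : ∀ u ∈ congrSubgroup 𝔫, ∀ x g, φ x (g * u) = φ x g)
    (hcen : ∀ (a : (Adf L)ˣ) x g, φ x (g * upperTri a 0 a) = φ x g) (x : X) (g : GAf L) :
    φ x ((g : Cosets 𝔫).out : GAf L) = φ x g := by
  set o := ((g : Cosets 𝔫).out : GAf L)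
  have hq : o⁻¹ * g ∈ levelGroup 𝔫 := QuotientGroup.eq.mp (QuotientGroup.out_eq' _)
  obtain ⟨u, hu, z, hz, hz'⟩ := Subgroup.mem_sup_of_normal_right.1 hq
  obtain ⟨a, rfl⟩ := exists_upperTri_of_mem_center hz
  conv_rhs => rw [show g = o * u * upperTri a 0 a by rw [mul_assoc, hz', mul_inv_cancel_left]]
  rw [hcen, hlev u hu]

end FermatAgent.LTG

end
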