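import Mathlib
import Fermat.Agent.LT.General.Level.Good
import Fermat.Agent.LT.General.Geom.Facts
import Fermat.Agent.LT.General.Spectral.Coeff
import Fermat.Agent.LT.General.Spectral.BoxLift

set_option autoImplicit false

/-!
# An eigenfunction of the type of the box group is determined by one coefficient

At the bad places the coefficients are supported on the single class of `-1/M₁` modulo `1 + A`.
-/

noncomputable section

open NumberField IsDedekindDomain WithZero
open FermatAgent.LT (XInf Adf GAf IntAd intToAdele congrSubgroup upperTri HasExpansion IsCuspFn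
  IsEigenAt diagW adelicChar phaseInf loc IsLevelExp smallAdeles)

namespace FermatAgent.LTG

namespace Setup.Level

variable {S : Setup} (D : S.Level)

/-- The places of `F` over `m`. -/
def badSet : Set (HeightOneSpectrum (𝓞 S.F)) := {w | (S.m : 𝓞 S.F) ∈ w.asIdeal}

theorem diffData : DiffData (badSet (S := S)) (S.m ^ D.k) where
  diff y hy := D.diff y hy
  unit w hw h := hw (w.isPrime.mem_of_pow_mem D.k (by simpa using h))

theorem M₁_ne_zero : D.M₁ ≠ 0 := pow_ne_zero _ S.m_ne_zero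

theorem exists_levelExp_good : ∃ e : HeightOneSpectrum (𝓞 S.F) → ℕ,
    IsLevelExp (D.levelIdeal S.F) e ∧ ∀ w ∉ badSet (S := S), e w = 0 := by
  classical
  obtain ⟨e, he, -⟩ := LT.exists_levelExp (D.levelIdeal_ne_bot S.F)
  refine ⟨fun w => if w ∈ badSet then e w else 0, fun w j hj => ?_, fun w hw => if_neg hw⟩
  by_cases hw : w ∈ badSet (S := S)
  · simp only [if_pos hw]
    exact he w j hj
  · simp only [if_neg hw]
    by_contra hj0
    refine hw (w.isPrime.mem_of_pow_mem (D.l + 2) ?_)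
    have h1 : (D.lvl : 𝓞 S.F) ∈ w.asIdeal :=
      Ideal.pow_le_self (by omega) (hj (Ideal.mem_span_singleton_self _))
    simpa [Level.lvl] using h1

/-- `-1/M₁` as an idele. -/
def nu0 : (Adf S.F)ˣ :=
  Units.map (algebraMap S.F (Adf S.F)).toMonoidHom
    (Units.mk0 (-((D.M₁ : S.F))⁻¹) (neg_ne_zero.mpr (inv_ne_zero (Nat.cast_ne_zero.mpr D.M₁_ne_zero))))

theorem trace_coe (x : 𝓞 S.F) :
    Algebra.trace ℚ S.F (x : S.F) = (Algebra.trace ℤ (𝓞 S.F) x : ℚ) :=
  Algebra.trace_localization (Rₘ := ℚ) (Sₘ := S.F) ℤ (nonZeroDivisors ℤ) x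

theorem ratChar_eq_phaseInf (b : 𝓞 S.F) :
    ratChar D.M₁ (Algebra.trace ℤ (𝓞 S.F) b) = phaseInf ((D.M₁ : S.F)⁻¹ * (b : S.F)) := by
  rw [ratChar, LT.phaseInf_eq_exp_trace]
  have hM : ((D.M₁ : ℕ) : ℚ) ≠ 0 := Nat.cast_ne_zero.mpr D.M₁_ne_zero
  have e : (D.M₁ : S.F)⁻¹ * (b : S.F) = ((D.M₁ : ℚ)⁻¹) • (b : S.F) := by
    rw [Algebra.smul_def, map_inv₀, map_natCast]
  rw [e, map_smul, trace_coe, smul_eq_mul]
  congr 1
  push_cast
  ring

section

variable {σ : S.F ≃+* S.F} {φ : XInf S.F → GAf S.F → ℂ} {W : GAf S.F → ℂ}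

/-- The translations by the upper box act by the character. -/
theorem apply_upper (hφ : IsCuspFn (D.levelIdeal S.F) φ)
    (hchi : ∀ M ∈ (D.boxF σ).resSet, ∀ x g,
      φ x (g * (D.boxF σ).lift M) = (D.boxF σ).chi M * φ x g)
    {b : 𝓞 S.F} (hb : b ∈ S.boxBF σ) (x : XInf S.F) (g : GAf S.F) :
    φ x (g * upperTri 1 (algebraMap S.F (Adf S.F) (b : S.F)) 1) =
      ratChar D.M₁ (Algebra.trace ℤ (𝓞 S.F) b) * φ x g := by
  have hM : (D.boxF σ).resMat 0 b 0 0 ∈ (D.boxF σ).resSet :=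
    ⟨0, zero_mem _, b, hb, 0, zero_mem _, 0, zero_mem _, rfl⟩
  have h := hchi _ hM x g
  rw [(D.boxF σ).apply_lift hφ.level ((D.boxF σ).isLiftOf_upper b),
    (D.boxF σ).chi_resMat D.M₁_dvd_lvl hb] at h
  rw [← h, LT.map_upperTri]
  simp only [map_one]
  rfl

/-- The diagonal box acts trivially. -/
theorem apply_diag (hφ : IsCuspFn (D.levelIdeal S.F) φ)
    (hchi : ∀ M ∈ (D.boxF σ).resSet, ∀ x g,
      φ x (g * (D.boxF σ).lift M) = (D.boxF σ).chi M * φ x g)
    {u : (IntAd S.F)ˣ} {o : 𝓞 S.F}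
    (hu : (u : IntAd S.F) - Box.intDiag o ∈ (D.boxF σ).lvlIdeal.map Box.intDiag)
    (ho : o - 1 ∈ D.boxAF σ) (x : XInf S.F) (g : GAf S.F) :
    φ x (g * upperTri (Units.map intToAdele.toMonoidHom u) 0 1) = φ x g := by
  have hM : (D.boxF σ).resMat (o - 1) 0 0 0 ∈ (D.boxF σ).resSet :=
    ⟨o - 1, ho, 0, zero_mem _, 0, zero_mem _, 0, zero_mem _, rfl⟩
  have h := hchi _ hM x g
  rw [(D.boxF σ).apply_lift hφ.level ((D.boxF σ).isLiftOf_diag u o hu),
    (D.boxF σ).chi_resMat D.M₁_dvd_lvl (zero_mem _), map_zero, ratChar_zero, one_mul] at h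
  rw [← h, LT.map_upperTri]
  simp only [map_zero, map_one]

/-- A nonzero coefficient at a unit away from `m` equals the one at `-1/M₁`. -/
theorem diagW_eq_nu0 (hφ : IsCuspFn (D.levelIdeal S.F) φ) (hW : HasExpansion φ W)
    (hchi : ∀ M ∈ (D.boxF σ).resSet, ∀ x g,
      φ x (g * (D.boxF σ).lift M) = (D.boxF σ).chi M * φ x g)
    {a : (Adf S.F)ˣ} (ha1 : ∀ w ∉ badSet (S := S), Valued.v ((a : Adf S.F) w) = 1)
    (ha : diagW W a ≠ 0) : diagW W a = diagW W D.nu0 := by
  obtain ⟨y, hy⟩ := LT.exists_rat_int (a : Adf S.F)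
  set z : S.F := y + (D.M₁ : S.F)⁻¹ with hz
  -- the character relation
  have hrel : ∀ b ∈ S.boxBF σ, ∃ n : ℤ, Algebra.trace ℚ S.F (z * (b : S.F)) = n := by
    intro b hb
    refine exists_int_of_phaseInf_eq_one ?_
    have h1 := LT.coeff_upperUni (D.levelIdeal_ne_bot S.F) hW hφ.rational hφ.level
      ((a : Adf S.F) * algebraMap S.F (Adf S.F) (b : S.F)) (upperTri a 0 1)
    have e : upperTri 1 ((a : Adf S.F) * algebraMap S.F (Adf S.F) (b : S.F)) 1 * upperTri a 0 1 =
        upperTri a 0 1 * upperTri 1 (algebraMap S.F (Adf S.F) (b : S.F)) 1 := by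
      rw [LT.upperTri_mul, LT.upperTri_mul]
      simp
    rw [e, hW.mul_right (fun x g => D.apply_upper hφ hchi hb x g), ← mul_assoc] at h1
    have h2 := mul_right_cancel₀ ha (h1.trans (one_mul _).symm)
    rw [LT.adelicChar_apply_of_near (b := y * (b : S.F)) ?_, D.ratChar_eq_phaseInf,
      ← LT.phaseInf_add] at h2
    · rwa [hz, add_mul]
    · intro w
      have h3 := hy w
      rw [map_mul, ← sub_mul, LT.adele_mul_apply, map_mul]
      refine (mul_le_mul' h3 (?_ : _ ≤ (1 : ℤᵐ⁰))).trans (le_of_eq (mul_one _))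
      rw [LT.adele_algebraMap_apply, LT.valued_loc, HeightOneSpectrum.valuation_of_algebraMap]
      exact w.intValuation_le_one b
  -- `M₁ z` is integral and lies in the diagonal box
  obtain ⟨q, hq⟩ : ∃ q : 𝓞 S.F, (q : S.F) = (D.M₁ : S.F) * z := by
    obtain ⟨z', hz'⟩ := D.diff (3 * z) fun o => by
      obtain ⟨n, hn⟩ := hrel _ (three_mul_mem_boxBF σ o)
      refine ⟨n, ?_⟩
      rw [← hn]
      congr 1
      simp only [map_mul, map_ofNat]
      ring
    obtain ⟨c, hc⟩ : 3 ∣ S.m ^ (3 * D.k) :=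
      dvd_pow (dvd_trans ⟨2, rfl⟩ S.six_dvd) (by have := D.two_le; omega)
    refine ⟨(c : 𝓞 S.F) * z', ?_⟩
    rw [RingOfIntegers.coe_eq_algebraMap] at hz' ⊢
    simp only [map_mul, map_natCast]
    rw [hz', Level.M₁, show 4 * D.k = 3 * D.k + D.k by ring, pow_add, hc]
    push_cast
    ring
  have hqA : -q ∈ D.boxAF σ := by
    refine neg_mem fun b hb => ?_
    obtain ⟨n, hn⟩ := hrel b hb
    refine ⟨n, ?_⟩
    have h1 := trace_coe (S := S) (q * b)
    rw [show ((q * b : 𝓞 S.F) : S.F) = ((D.M₁ : ℚ)) • (z * (b : S.F)) by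
      rw [Algebra.smul_def, map_natCast, ← mul_assoc, ← hq]; rfl, map_smul, hn, smul_eq_mul] at h1
    exact_mod_cast h1.symm
  -- the quotient by `-1/M₁` is an integral unit congruent to `1` modulo the box
  set c : (Adf S.F)ˣ := D.nu0⁻¹ * a with hc
  have hc' : (c : Adf S.F) = -(algebraMap S.F (Adf S.F) (D.M₁ : S.F)) * (a : Adf S.F) := by
    rw [hc, Units.val_mul, nu0]
    congr 1
    rw [← map_inv]
    change algebraMap S.F (Adf S.F) (Units.val (Units.mk0 _ _)⁻¹) = _
    rw [Units.val_inv_eq_inv_val, Units.val_mk0, inv_neg, inv_inv, map_neg]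
  have hclose : ∀ w, Valued.v ((c : Adf S.F) w - loc w ((1 - q : 𝓞 S.F) : S.F)) ≤
      Valued.v (loc w (D.M₁ : S.F)) := by
    intro w
    have h1 := hy w
    rw [LT.adele_sub_apply, LT.adele_algebraMap_apply] at h1
    rw [hc', LT.adele_mul_apply, LT.adele_neg_apply, LT.adele_algebraMap_apply]
    have e : ((1 - q : 𝓞 S.F) : S.F) = -((D.M₁ : S.F) * y) := by
      rw [RingOfIntegers.coe_eq_algebraMap] at hq ⊢
      rw [map_sub, map_one, hq, hz, mul_add, mul_inv_cancel₀ (Nat.cast_ne_zero.mpr D.M₁_ne_zero)]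
      ring
    rw [e, map_neg, map_mul, show -loc w (D.M₁ : S.F) * (a : Adf S.F) w - -(loc w (D.M₁ : S.F) *
      loc w y) = -(loc w (D.M₁ : S.F)) * ((a : Adf S.F) w - loc w y) by ring, map_mul,
      Valuation.map_neg]
    exact (mul_le_mul_right (by simpa using h1) _).trans (le_of_eq (mul_one _))
  have hM1 : ∀ w, Valued.v (loc w (D.M₁ : S.F)) ≤ 1 := fun w => by
    rw [show (D.M₁ : S.F) = ((D.M₁ : 𝓞 S.F) : S.F) by simp, LT.valued_loc,
      HeightOneSpectrum.valuation_of_algebraMap]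
    exact w.intValuation_le_one _
  have hcv : ∀ w, Valued.v ((c : Adf S.F) w) = 1 := by
    intro w
    by_cases hw : w ∈ badSet (S := S)
    · have hnil : q ∈ w.asIdeal := by
        obtain ⟨z', hz'⟩ := D.diff (3 * z) fun o => by
          obtain ⟨n, hn⟩ := hrel _ (three_mul_mem_boxBF σ o)
          refine ⟨n, ?_⟩
          rw [← hn]
          congr 1
          simp only [map_mul, map_ofNat]
          ring
        obtain ⟨d, hd⟩ : 3 ∣ S.m := dvd_trans ⟨2, rfl⟩ S.six_dvd
        have e : q = (S.m : 𝓞 S.F) * ((d : 𝓞 S.F) * (S.m : 𝓞 S.F) ^ (3 * D.k - 2) * z') := by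
          refine RingOfIntegers.ext ?_
          rw [RingOfIntegers.coe_eq_algebraMap] at hq hz'
          simp only [RingOfIntegers.coe_eq_algebraMap, map_mul, map_natCast, map_pow]
          rw [hq, hz', Level.M₁]
          have hk := D.two_le
          rw [show 4 * D.k = (3 * D.k - 2) + 1 + 1 + D.k by omega, pow_add, pow_succ, pow_succ]
          push_cast
          rw [hd]
          push_cast
          ring
        rw [e]
        exact Ideal.mul_mem_right _ _ hw
      have h1 : Valued.v (loc w ((1 - q : 𝓞 S.F) : S.F)) = 1 := by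
        rw [LT.valued_loc, HeightOneSpectrum.valuation_of_algebraMap]
        refine (w.intValuation_eq_one_iff_mem_primeCompl _).mpr fun h => ?_
        exact w.isPrime.ne_top ((Ideal.eq_top_iff_one _).mpr (by simpa using add_mem h hnil))
      have h2 : Valued.v (loc w (D.M₁ : S.F)) < 1 := by
        rw [show (D.M₁ : S.F) = ((D.M₁ : 𝓞 S.F) : S.F) by simp, LT.valued_loc,
          HeightOneSpectrum.valuation_of_algebraMap, w.intValuation_lt_one_iff_mem, Level.M₁,
          Nat.cast_pow]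
        exact Ideal.pow_mem_of_mem _ hw _ (by have := D.two_le; omega)
      have h3 := Valuation.map_eq_of_sub_lt (Valued.v)
        (x := loc w ((1 - q : 𝓞 S.F) : S.F)) (y := (c : Adf S.F) w)
        (((hclose w).trans_lt h2).trans_le h1.ge)
      rw [h3, h1]
    · rw [hc', LT.adele_mul_apply, LT.adele_neg_apply, LT.adele_algebraMap_apply, map_mul,
        Valuation.map_neg, ha1 w hw, mul_one]
      refine valued_natCast_eq_one fun h => hw (w.isPrime.mem_of_pow_mem (4 * D.k) ?_)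
      simpa [Level.M₁] using h
  obtain ⟨u, hu⟩ := LT.exists_intUnit c hcv
  obtain ⟨o, ho⟩ := (D.boxF σ).exists_int_congr D.lvl_ne_zero (u : IntAd S.F)
  have hoA : o - 1 ∈ D.boxAF σ := by
    have hval : ∀ w, Valued.v (loc w ((o : S.F) - ((1 - q : 𝓞 S.F) : S.F))) ≤
        Valued.v (loc w (D.M₁ : S.F)) := by
      intro w
      rw [Ideal.map_span, Set.image_singleton] at ho
      obtain ⟨r, hr⟩ := Ideal.mem_span_singleton'.mp ho
      have h1 := congrArg (fun x : IntAd S.F => ((x w : w.adicCompletionIntegers S.F) :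
        w.adicCompletion S.F)) hr
      have h2 : ((r w : w.adicCompletionIntegers S.F) : w.adicCompletion S.F) *
          loc w (D.lvl : S.F) = (c : Adf S.F) w - loc w (o : S.F) := by
        rw [← hu, show (D.lvl : S.F) = ((D.lvl : 𝓞 S.F) : S.F) by simp]
        exact h1
      obtain ⟨j, hj⟩ := D.M₁_dvd_lvl
      have h3 : Valued.v ((c : Adf S.F) w - loc w (o : S.F)) ≤ Valued.v (loc w (D.M₁ : S.F)) := by
        rw [← h2, map_mul, hj, Nat.cast_mul, map_mul, map_mul]
        refine (mul_le_mul' (r w).2 (mul_le_mul_right (?_ : _ ≤ (1 : ℤᵐ⁰)) _)).trans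
          (le_of_eq (by rw [one_mul, mul_one]))
        rw [show (j : S.F) = ((j : 𝓞 S.F) : S.F) by simp, LT.valued_loc,
          HeightOneSpectrum.valuation_of_algebraMap]
        exact w.intValuation_le_one _
      rw [map_sub, show loc w (o : S.F) - loc w ((1 - q : 𝓞 S.F) : S.F) =
        ((c : Adf S.F) w - loc w ((1 - q : 𝓞 S.F) : S.F)) - ((c : Adf S.F) w - loc w (o : S.F)) by
        ring]
      exact (Valuation.map_sub _ _ _).trans (max_le (hclose w) h3)
    have hM0 : (D.M₁ : S.F) ≠ 0 := Nat.cast_ne_zero.mpr D.M₁_ne_zero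
    obtain ⟨r₀, hr₀⟩ := HeightOneSpectrum.mem_integers_of_valuation_le_one S.F
        (((o : S.F) - ((1 - q : 𝓞 S.F) : S.F)) / (D.M₁ : S.F)) fun w => by
      rw [← LT.valued_loc, map_div₀, map_div₀]
      exact div_le_one_of_le₀ (hval w) zero_le
    have hmem : o - (1 - q) ∈ Ideal.span {(D.M₁ : 𝓞 S.F)} := by
      refine Ideal.mem_span_singleton'.mpr ⟨r₀, RingOfIntegers.ext ?_⟩
      simp only [RingOfIntegers.coe_eq_algebraMap] at hr₀ ⊢
      simp only [map_sub, map_mul, map_natCast, hr₀, div_mul_cancel₀ _ hM0]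
    obtain ⟨r, hr⟩ := Ideal.mem_span_singleton'.mp hmem
    have e : o - 1 = (D.M₁ : 𝓞 S.F) * r + -q := by linear_combination -hr
    rw [e]
    refine add_mem (fun b _ => ⟨Algebra.trace ℤ (𝓞 S.F) (r * b), ?_⟩) hqA
    rw [mul_assoc, show (D.M₁ : 𝓞 S.F) * (r * b) = (D.M₁ : ℤ) • (r * b) by simp, map_zsmul,
      smul_eq_mul]
  have hkey : upperTri a (0 : Adf S.F) 1 =
      upperTri D.nu0 0 1 * upperTri (Units.map intToAdele.toMonoidHom u) 0 1 := by
    rw [LT.upperTri_mul, hu, hc]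
    simp
  show W (upperTri a 0 1) = W (upperTri D.nu0 0 1)
  rw [hkey, hW.mul_right (c := 1) (fun x g => by rw [D.apply_diag hφ hchi ho hoA, one_mul]),
    one_mul]

/-- **One coefficient determines the function.** -/
theorem eq_zero_of_nu0 (hφ : IsCuspFn (D.levelIdeal S.F) φ) (hW : HasExpansion φ W)
    (hchi : ∀ M ∈ (D.boxF σ).resSet, ∀ x g,
      φ x (g * (D.boxF σ).lift M) = (D.boxF σ).chi M * φ x g)
    (heig : ∀ w, (S.m : 𝓞 S.F) ∉ w.asIdeal → ∃ l : ℂ, IsEigenAt w φ l)
    (h0 : diagW W D.nu0 = 0) : φ = 0 := by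
  obtain ⟨e, he, he0⟩ := D.exists_levelExp_good
  have hall : ∀ a, diagW W a = 0 := LTG.diagW_eq_zero D.diffData hφ hW
    (D.levelIdeal_ne_bot S.F) he he0 heig fun a ha1 => by
      by_contra ha
      exact ha ((D.diagW_eq_nu0 hφ hW hchi ha1 ha).trans h0)
  refine funext fun x => funext fun g => ?_
  obtain ⟨γ, a, u, hu, rfl⟩ := LT.exists_rational_diag_congr (D.levelIdeal_ne_bot S.F) g
  rw [hφ.level u hu]
  have : φ x (LT.rationalMat γ * upperTri a 0 1) =
      φ (LT.infAct γ⁻¹ x) (upperTri a 0 1) := by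
    conv_rhs => rw [← hφ.rational γ]
    congr 1
    exact funext fun w => by simp [LT.infAct, map_inv]
  rw [this]
  refine (hW _ _).unique ?_
  have hz : ∀ ν : S.Fˣ, W (LT.rationalMat (upperTri ν 0 1) * upperTri a 0 1) = 0 := fun ν => by
    rw [LT.rationalMat_upperTri, LT.upperTri_mul]
    simpa [diagW] using hall (Units.map (algebraMap S.F (Adf S.F)).toMonoidHom ν * a)
  simp [hz]

end

end Setup.Level

end FermatAgent.LTG

end
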