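import Mathlib
import Fermat.Agent.LT.General.Interface
import Fermat.Agent.LT.General.Spectral.Class
import Fermat.Agent.LT.General.Spectral.OpApply
import Fermat.Agent.LT.General.Spectral.Translate
import Fermat.Agent.LT.Descent.Kernel.CosetOp
import Fermat.Agent.LT.Descent.Classical.Sph

set_option autoImplicit false

/-!
# A form of the type of the box group from a dihedral form of some level
-/

noncomputable section

open NumberField IsDedekindDomain WithZero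
open FermatAgent.LT (XInf Adf GAf IntAd intToAdele congrSubgroup upperTri HasExpansion IsCuspFn
  IsEigenAt diagW Cosets rationalMat)

namespace FermatAgent.LTG

variable {L : Type*} [Field L] [NumberField L]

/-- If all coefficients at diagonal matrices vanish, so does the function. -/
theorem eq_zero_of_diagW {𝔫 : Ideal (𝓞 L)} (h𝔫 : 𝔫 ≠ ⊥) {φ : XInf L → GAf L → ℂ} {W : GAf L → ℂ}
    (hφ : IsCuspFn 𝔫 φ) (hW : HasExpansion φ W) (hall : ∀ a, diagW W a = 0) : φ = 0 := by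
  refine funext fun x => funext fun g => ?_
  obtain ⟨γ, a, u, hu, rfl⟩ := LT.exists_rational_diag_congr h𝔫 g
  rw [hφ.level u hu]
  have : φ x (rationalMat γ * upperTri a 0 1) = φ (LT.infAct γ⁻¹ x) (upperTri a 0 1) := by
    conv_rhs => rw [← hφ.rational γ]
    congr 1
    exact funext fun w => by simp [LT.infAct, map_inv]
  rw [this]
  refine (hW _ _).unique ?_
  have hz : ∀ ν : Lˣ, W (rationalMat (upperTri ν 0 1) * upperTri a 0 1) = 0 := fun ν => by
    rw [LT.rationalMat_upperTri, LT.upperTri_mul]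
    simpa [diagW] using hall (Units.map (algebraMap L (Adf L)).toMonoidHom ν * a)
  simp [hz]

theorem intToAdele_injective : Function.Injective (intToAdele (K := L)) := fun _a _b h =>
  funext fun v => Subtype.ext (congrArg (fun x : Adf L => x v) h)

theorem intToAdele_intDiag (x : 𝓞 L) :
    intToAdele (Box.intDiag x) = algebraMap L (Adf L) (x : L) := rfl

theorem upperUni_mul_apply {R : Type*} [CommRing R] (y : R) (k : GL (Fin 2) R) (i l : Fin 2) :
    ((upperTri 1 (-y) 1 * k : GL (Fin 2) R) : Matrix (Fin 2) (Fin 2) R) i l =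
      if i = 0 then (k : Matrix (Fin 2) (Fin 2) R) 0 l - y * (k : Matrix (Fin 2) (Fin 2) R) 1 l
      else (k : Matrix (Fin 2) (Fin 2) R) 1 l := by
  fin_cases i <;> simp [upperTri, Matrix.mul_apply, Fin.sum_univ_two, sub_eq_add_neg]

theorem natCast_pow_mul {R : Type*} [CommRing R] (m n j : ℕ) :
    ((m ^ n : ℕ) : R) * ((m ^ j : ℕ) : R) = (m : R) ^ (n + j) := by
  rw [pow_add, Nat.cast_pow, Nat.cast_pow]

theorem map_natCast_pow {R R' : Type*} [CommRing R] [CommRing R'] (f : R →+* R') (m i : ℕ) :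
    f ((m : R) ^ i) = (m : R') ^ i := by
  rw [map_pow, map_natCast]

theorem dvd_natCast_pow {R : Type*} [CommRing R] (m : ℕ) {n j i : ℕ} (h : n + j ≤ i) :
    ((m ^ n : ℕ) : R) * ((m ^ j : ℕ) : R) ∣ ((m ^ i : ℕ) : R) := by
  rw [natCast_pow_mul, Nat.cast_pow]
  exact pow_dvd_pow _ h

theorem dvd_map_natPow {R R' : Type*} [CommRing R] [CommRing R'] (f : R →+* R') (m : ℕ) {n i : ℕ}
    (h : n ≤ i) {x : R} (hx : (m : R) ^ i ∣ x) : ((m ^ n : ℕ) : R') ∣ f x := by
  have h1 := map_dvd f ((pow_dvd_pow (m : R) h).trans hx)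
  rwa [map_natCast_pow, ← Nat.cast_pow] at h1

theorem dvd_map_natPows {R R' : Type*} [CommRing R] [CommRing R'] (f : R →+* R') (m : ℕ) {n j i : ℕ}
    (h : n + j ≤ i) {x : R} (hx : (m : R) ^ i ∣ x) :
    ((m ^ n : ℕ) : R') * ((m ^ j : ℕ) : R') ∣ f x := by
  rw [← Nat.cast_mul, ← pow_add]
  exact dvd_map_natPow f m h hx

/-- The entries after clearing the upper right corner by a unipotent. -/
theorem exists_conj_entries {R R' : Type*} [CommRing R] [CommRing R'] (f : R →+* R')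
    (k : GL (Fin 2) R') (m : ℕ) {n j : ℕ} {α b g δ s : R} {N : R'}
    (hN : ((m ^ n : ℕ) : R') * ((m ^ j : ℕ) : R') ∣ N)
    (e00 : N ∣ (k : Matrix (Fin 2) (Fin 2) R') 0 0 - f (1 + α))
    (e01 : N ∣ (k : Matrix (Fin 2) (Fin 2) R') 0 1 - f b)
    (e10 : N ∣ (k : Matrix (Fin 2) (Fin 2) R') 1 0 - f g)
    (e11 : N ∣ (k : Matrix (Fin 2) (Fin 2) R') 1 1 - f (1 + δ))
    (hα : ((m ^ n : ℕ) : R') ∣ f α) (hδ : ((m ^ n : ℕ) : R') ∣ f δ)
    (hg : ((m ^ n : ℕ) : R') * ((m ^ j : ℕ) : R') ∣ f g)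
    (hb : ((m ^ n : ℕ) : R') * ((m ^ j : ℕ) : R') ∣ f (b - b * s * (1 + δ))) :
    ∃ r : Matrix (Fin 2) (Fin 2) R',
      ((upperTri 1 (-f (b * s)) 1 * k : GL (Fin 2) R') : Matrix (Fin 2) (Fin 2) R') 0 0 - 1 =
        ((m ^ n : ℕ) : R') * r 0 0 ∧
      ((upperTri 1 (-f (b * s)) 1 * k : GL (Fin 2) R') : Matrix (Fin 2) (Fin 2) R') 1 1 - 1 =
        ((m ^ n : ℕ) : R') * r 1 1 ∧
      ((upperTri 1 (-f (b * s)) 1 * k : GL (Fin 2) R') : Matrix (Fin 2) (Fin 2) R') 0 1 =
        ((m ^ n : ℕ) : R') * ((m ^ j : ℕ) : R') * r 0 1 ∧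
      ((upperTri 1 (-f (b * s)) 1 * k : GL (Fin 2) R') : Matrix (Fin 2) (Fin 2) R') 1 0 =
        ((m ^ n : ℕ) : R') * ((m ^ j : ℕ) : R') * r 1 0 := by
  simp only [upperUni_mul_apply, if_pos, Fin.isValue, one_ne_zero, if_false]
  set P := ((m ^ n : ℕ) : R')
  set Q := ((m ^ j : ℕ) : R')
  have hP : P ∣ P * Q := dvd_mul_right _ _
  have d10 : P * Q ∣ (k : Matrix (Fin 2) (Fin 2) R') 1 0 := by
    have h := dvd_add (hN.trans e10) hg
    rwa [sub_add_cancel] at h
  obtain ⟨r10, h10⟩ := d10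
  obtain ⟨r00, h00⟩ : P ∣ (k : Matrix (Fin 2) (Fin 2) R') 0 0 -
      f (b * s) * (k : Matrix (Fin 2) (Fin 2) R') 1 0 - 1 := by
    refine (dvd_sub (dvd_add ((hP.trans hN).trans e00) hα)
      ((hP.trans ⟨r10, h10⟩).mul_left (f (b * s)))).trans (dvd_of_eq ?_)
    rw [map_add, map_one]
    ring
  obtain ⟨r11, h11⟩ : P ∣ (k : Matrix (Fin 2) (Fin 2) R') 1 1 - 1 := by
    refine (dvd_add ((hP.trans hN).trans e11) hδ).trans (dvd_of_eq ?_)
    rw [map_add, map_one]
    ring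
  obtain ⟨r01, h01⟩ : P * Q ∣ (k : Matrix (Fin 2) (Fin 2) R') 0 1 -
      f (b * s) * (k : Matrix (Fin 2) (Fin 2) R') 1 1 := by
    refine (dvd_add (dvd_sub (hN.trans e01) ((hN.trans e11).mul_left (f (b * s)))) hb).trans
      (dvd_of_eq ?_)
    simp only [map_sub, map_mul, map_add, map_one]
    ring
  exact ⟨!![r00, r01; r10, r11], h00, h11, h01, h10⟩

/-- Conjugation by a diagonal idele with bounded denominators. -/
theorem conj_diag_mem_congr {t : (Adf L)ˣ} {P Q : ℕ} {T T' : IntAd L}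
    (hT : intToAdele T = (Q : Adf L) * (t : Adf L))
    (hT' : intToAdele T' = (Q : Adf L) * ((t⁻¹ : (Adf L)ˣ) : Adf L))
    {k : GL (Fin 2) (IntAd L)} {r : Matrix (Fin 2) (Fin 2) (IntAd L)}
    (h00 : (k : Matrix (Fin 2) (Fin 2) (IntAd L)) 0 0 - 1 = (P : IntAd L) * r 0 0)
    (h11 : (k : Matrix (Fin 2) (Fin 2) (IntAd L)) 1 1 - 1 = (P : IntAd L) * r 1 1)
    (h01 : (k : Matrix (Fin 2) (Fin 2) (IntAd L)) 0 1 = (P : IntAd L) * (Q : IntAd L) * r 0 1)
    (h10 : (k : Matrix (Fin 2) (Fin 2) (IntAd L)) 1 0 = (P : IntAd L) * (Q : IntAd L) * r 1 0) :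
    (upperTri t (0 : Adf L) 1)⁻¹ * Matrix.GeneralLinearGroup.map intToAdele k * upperTri t 0 1 ∈
      congrSubgroup (Ideal.span {(P : 𝓞 L)}) := by
  set H : Matrix (Fin 2) (Fin 2) (IntAd L) :=
    !![(k : Matrix (Fin 2) (Fin 2) (IntAd L)) 0 0, (P : IntAd L) * r 0 1 * T';
      (P : IntAd L) * r 1 0 * T, (k : Matrix (Fin 2) (Fin 2) (IntAd L)) 1 1] with hH
  have htt : ((t⁻¹ : (Adf L)ˣ) : Adf L) * (t : Adf L) = 1 := Units.inv_mul t
  have hTT : T * T' = (Q : IntAd L) * (Q : IntAd L) := intToAdele_injective (by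
    rw [map_mul, map_mul, map_natCast, hT, hT']
    linear_combination (Q : Adf L) * (Q : Adf L) * htt)
  have hdet : H.det = (k : Matrix (Fin 2) (Fin 2) (IntAd L)).det := by
    rw [Matrix.det_fin_two, Matrix.det_fin_two, hH]
    simp only [Matrix.of_apply, Matrix.cons_val', Matrix.cons_val_zero, Matrix.cons_val_one,
      Matrix.empty_val', Matrix.cons_val_fin_one]
    rw [h01, h10]
    linear_combination -((P : IntAd L) * r 0 1 * (P : IntAd L) * r 1 0) * hTT
  have hu : IsUnit H.det := by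
    rw [hdet, ← Matrix.GeneralLinearGroup.val_det_apply]
    exact Units.isUnit _
  set h : GL (Fin 2) (IntAd L) := Matrix.GeneralLinearGroup.mk'' H hu with hh
  have hval : (h : Matrix (Fin 2) (Fin 2) (IntAd L)) = H := rfl
  have heq : (upperTri t (0 : Adf L) 1)⁻¹ * Matrix.GeneralLinearGroup.map intToAdele k *
      upperTri t 0 1 = Matrix.GeneralLinearGroup.map intToAdele h := by
    rw [mul_assoc, inv_mul_eq_iff_eq_mul]
    refine Units.ext (Matrix.ext fun i j => ?_)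
    have e01 : intToAdele ((k : Matrix (Fin 2) (Fin 2) (IntAd L)) 0 1) =
        (t : Adf L) * intToAdele ((P : IntAd L) * r 0 1 * T') := by
      rw [h01, map_mul, map_mul, map_mul, map_mul, map_natCast, map_natCast, hT']
      linear_combination -((P : Adf L) * (Q : Adf L) * intToAdele (r 0 1)) * htt
    have e10 : intToAdele ((k : Matrix (Fin 2) (Fin 2) (IntAd L)) 1 0) * (t : Adf L) =
        intToAdele ((P : IntAd L) * r 1 0 * T) := by
      rw [h10, map_mul, map_mul, map_mul, map_mul, map_natCast, map_natCast, hT]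
      ring
    simp only [map_mul, map_natCast] at e01 e10
    fin_cases i <;> fin_cases j <;>
      simp [Matrix.mul_apply, Fin.sum_univ_two, upperTri, hval, hH]
    all_goals first | ring1 | linear_combination e01 | linear_combination e10
  rw [heq]
  refine Subgroup.mem_map_of_mem _ (MonoidHom.mem_ker.mpr (Units.ext (Matrix.ext fun i j => ?_)))
  have hP : ∀ x : IntAd L, (P : IntAd L) * x ∈
      (Ideal.span {(P : 𝓞 L)}).map (RingHom.pi fun v : HeightOneSpectrum (𝓞 L) =>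
        algebraMap (𝓞 L) (v.adicCompletionIntegers L)) := fun x => by
    refine Ideal.mul_mem_right _ _ ?_
    have := Ideal.mem_map_of_mem (RingHom.pi fun v : HeightOneSpectrum (𝓞 L) =>
      algebraMap (𝓞 L) (v.adicCompletionIntegers L)) (Ideal.mem_span_singleton_self (P : 𝓞 L))
    rwa [map_natCast] at this
  rw [Matrix.GeneralLinearGroup.map_apply, Units.val_one, Matrix.one_apply]
  change Ideal.Quotient.mk _ (H i j) = _
  fin_cases i <;> fin_cases j <;>
    simp only [hH, Matrix.of_apply, Matrix.cons_val', Matrix.cons_val_zero, Matrix.cons_val_one,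
      Matrix.empty_val', Matrix.cons_val_fin_one, Fin.zero_eta, Fin.mk_one, if_pos, if_neg,
      zero_ne_one, one_ne_zero, not_false_eq_true]
  · exact Ideal.Quotient.eq.mpr (by rw [h00]; exact hP _)
  · exact Ideal.Quotient.eq_zero_iff_mem.mpr (by rw [mul_assoc]; exact hP _)
  · exact Ideal.Quotient.eq_zero_iff_mem.mpr (by rw [mul_assoc]; exact hP _)
  · exact Ideal.Quotient.eq.mpr (by rw [h11]; exact hP _)

namespace Setup.Level

variable {S : Setup} (D : S.Level)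

/-- The diagonal box is divisible by a deep power of `m`. -/
theorem pow_dvd_of_mem_boxAF {σ : S.F ≃+* S.F} {α : 𝓞 S.F} (h : α ∈ D.boxAF σ) :
    (S.m : 𝓞 S.F) ^ (3 * D.k - 1) ∣ α := by
  have hM : (D.M₁ : S.F) ≠ 0 := Nat.cast_ne_zero.mpr D.M₁_ne_zero
  obtain ⟨z, hz⟩ := D.diff ((3 : S.F) * (α : S.F) / (D.M₁ : S.F)) fun o => by
    obtain ⟨n, hn⟩ := h _ (three_mul_mem_boxBF σ o)
    refine ⟨n, ?_⟩
    have e : (3 : S.F) * (α : S.F) / (D.M₁ : S.F) * (o : S.F) =
        ((D.M₁ : ℚ)⁻¹) • ((α * (3 * o) : 𝓞 S.F) : S.F) := by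
      simp only [RingOfIntegers.coe_eq_algebraMap, map_mul, map_ofNat]
      rw [Algebra.smul_def, map_inv₀, map_natCast]
      ring
    rw [e, map_smul, trace_coe, hn, smul_eq_mul, Int.cast_mul, Int.cast_natCast, ← mul_assoc,
      inv_mul_cancel₀ (Nat.cast_ne_zero.mpr D.M₁_ne_zero), one_mul]
  obtain ⟨d, hd⟩ : 3 ∣ S.m := dvd_trans ⟨2, rfl⟩ S.six_dvd
  refine ⟨(d : 𝓞 S.F) * z, RingOfIntegers.ext ?_⟩
  simp only [RingOfIntegers.coe_eq_algebraMap] at hz ⊢
  simp only [map_mul, map_natCast, map_pow]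
  rw [hz]
  have hk := D.two_le
  field_simp
  rw [Level.M₁, show 4 * D.k = (3 * D.k - 1) + 1 + D.k by omega, pow_add, pow_succ, hd]
  push_cast
  ring

/-- The exponents of a level supported on the bad places. -/
theorem exists_levelExp_pow (S : Setup) (n : ℕ) : ∃ e : HeightOneSpectrum (𝓞 S.F) → ℕ,
    LT.IsLevelExp (Ideal.span {((S.m ^ n : ℕ) : 𝓞 S.F)}) e ∧
      ∀ w ∉ badSet (S := S), e w = 0 := by
  classical
  obtain ⟨e, he, -⟩ := LT.exists_levelExp (𝔫 := Ideal.span {((S.m ^ n : ℕ) : 𝓞 S.F)})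
    (by simp [S.m_ne_zero])
  refine ⟨fun w => if w ∈ badSet then e w else 0, fun w j hj => ?_, fun w hw => if_neg hw⟩
  by_cases hw : w ∈ badSet (S := S)
  · simp only [if_pos hw]
    exact he w j hj
  · simp only [if_neg hw]
    by_contra hj0
    refine hw (w.isPrime.mem_of_pow_mem n ?_)
    have h1 : ((S.m ^ n : ℕ) : 𝓞 S.F) ∈ w.asIdeal :=
      Ideal.pow_le_self (by omega) (hj (Ideal.mem_span_singleton_self _))
    simpa using h1

theorem natCast_mem_imp {w : HeightOneSpectrum (𝓞 S.F)} (h : (D.lvl : 𝓞 S.F) ∈ w.asIdeal) :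
    (S.m : 𝓞 S.F) ∈ w.asIdeal :=
  w.isPrime.mem_of_pow_mem (D.l + 2) (by simpa [Level.lvl] using h)

theorem not_le_of_good {w : HeightOneSpectrum (𝓞 S.F)} (hw : (S.m : 𝓞 S.F) ∉ w.asIdeal) :
    ¬ D.levelIdeal S.F ≤ w.asIdeal := fun h =>
  hw (D.natCast_mem_imp (h (Ideal.mem_span_singleton_self _)))

/-- The value of the character at a rational point. -/
theorem adelicChar_algebraMap (x : S.F) :
    LT.adelicChar (algebraMap S.F (Adf S.F) x) = LT.phaseInf x :=
  LT.adelicChar_apply_of_near (by rw [sub_self]; exact zero_mem _)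

open Classical in
/-- An idele which is a unit away from `m` is, up to an integral unit which is one over `m`, trivial
away from `m`. -/
theorem exists_bad_part (c : (Adf S.F)ˣ)
    (hc : ∀ w ∉ badSet (S := S), Valued.v ((c : Adf S.F) w) = 1) :
    ∃ (t : (Adf S.F)ˣ) (u : (IntAd S.F)ˣ),
      (∀ w : HeightOneSpectrum (𝓞 S.F), (S.m : 𝓞 S.F) ∉ w.asIdeal → (t : Adf S.F) w = 1) ∧
      (∀ w : HeightOneSpectrum (𝓞 S.F), (S.m : 𝓞 S.F) ∈ w.asIdeal →
        ((u : IntAd S.F) w : w.adicCompletion S.F) = 1) ∧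
      t = c * Units.map intToAdele.toMonoidHom u := by
  have hc0 : ∀ w, (c : Adf S.F) w ≠ 0 := (FiniteAdeleRing.isUnit_iff.mp c.isUnit).1
  let z : IntAd S.F := fun w => if hw : (S.m : 𝓞 S.F) ∈ w.asIdeal then 1
    else ⟨((c : Adf S.F) w)⁻¹, by
      show Valued.v ((c : Adf S.F) w)⁻¹ ≤ (1 : ℤᵐ⁰)
      rw [map_inv₀, hc w hw, inv_one]⟩
  let z' : IntAd S.F := fun w => if hw : (S.m : 𝓞 S.F) ∈ w.asIdeal then 1
    else ⟨(c : Adf S.F) w, (hc w hw).le⟩
  have h1 : z * z' = 1 := funext fun w => by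
    change z w * z' w = 1
    by_cases hw : (S.m : 𝓞 S.F) ∈ w.asIdeal
    · simp [z, z', hw]
    · simp only [z, z', dif_neg hw]
      exact Subtype.ext (inv_mul_cancel₀ (hc0 w))
  let u : (IntAd S.F)ˣ := ⟨z, z', h1, by rw [mul_comm]; exact h1⟩
  refine ⟨c * Units.map intToAdele.toMonoidHom u, u, fun w hw => ?_, fun w hw => ?_, rfl⟩
  · rw [Units.val_mul, LT.adele_mul_apply]
    change (c : Adf S.F) w * ((z w : w.adicCompletionIntegers S.F) : w.adicCompletion S.F) = 1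
    simp only [z, dif_neg hw]
    exact mul_inv_cancel₀ (hc0 w)
  · change ((z w : w.adicCompletionIntegers S.F) : w.adicCompletion S.F) = 1
    simp only [z, dif_pos hw]
    rfl

/-- A diagonal integral unit which is one over `m` lies in every congruence subgroup of level a
power of `m`. -/
theorem diag_mem_congr (S : Setup) (n : ℕ) (u : (IntAd S.F)ˣ)
    (hu : ∀ w : HeightOneSpectrum (𝓞 S.F), (S.m : 𝓞 S.F) ∈ w.asIdeal →
      ((u : IntAd S.F) w : w.adicCompletion S.F) = 1) :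
    upperTri (Units.map intToAdele.toMonoidHom u) (0 : Adf S.F) 1 ∈
      congrSubgroup (Ideal.span {((S.m ^ n : ℕ) : 𝓞 S.F)}) := by
  obtain ⟨e, he, he0⟩ := exists_levelExp_pow S n
  have hsmall : ∀ v : (IntAd S.F)ˣ, (∀ w : HeightOneSpectrum (𝓞 S.F),
      (S.m : 𝓞 S.F) ∈ w.asIdeal → ((v : IntAd S.F) w : w.adicCompletion S.F) = 1) → ∀ i j,
      (upperTri (Units.map intToAdele.toMonoidHom v) (0 : Adf S.F) 1 i j) -
        (1 : Matrix (Fin 2) (Fin 2) (Adf S.F)) i j ∈ LT.smallAdeles e := by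
    intro v hv i j
    fin_cases i <;> fin_cases j
    · intro w
      simp only [upperTri, Fin.zero_eta, Fin.isValue, Matrix.of_apply, Matrix.cons_val',
        Matrix.cons_val_zero, Matrix.empty_val', Matrix.cons_val_fin_one, Matrix.one_apply_eq]
      rw [LT.adele_sub_apply]
      change Valued.v (((v : IntAd S.F) w : w.adicCompletion S.F) - 1) ≤ _
      by_cases hw : (S.m : 𝓞 S.F) ∈ w.asIdeal
      · rw [hv w hw, sub_self, map_zero]
        exact zero_le
      · rw [he0 w hw, Nat.cast_zero, neg_zero, exp_zero]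
        exact (Valuation.map_sub _ _ _).trans (max_le ((v : IntAd S.F) w).2 (by rw [map_one]))
    all_goals simp [upperTri]
  refine LT.IsNearOne.mem_congrSubgroup he ⟨hsmall u hu, fun i j => ?_⟩
  have hinv : (upperTri (Units.map intToAdele.toMonoidHom u) (0 : Adf S.F) 1)⁻¹ =
      upperTri (Units.map intToAdele.toMonoidHom u⁻¹) (0 : Adf S.F) 1 :=
    inv_eq_of_mul_eq_one_right (by
      rw [LT.upperTri_mul, map_inv, mul_inv_cancel]
      simp [upperTri]
      ext i j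
      fin_cases i <;> fin_cases j <;> simp)
  rw [hinv]
  refine hsmall u⁻¹ (fun w hw => ?_) i j
  have h2 := congrArg (fun x : IntAd S.F => ((x w : w.adicCompletionIntegers S.F) :
    w.adicCompletion S.F)) (Units.mul_inv u)
  change ((u : IntAd S.F) w : w.adicCompletion S.F) *
    (((u⁻¹ : (IntAd S.F)ˣ) : IntAd S.F) w : w.adicCompletion S.F) = 1 at h2
  rwa [hu w hw, one_mul] at h2

section

variable {n j : ℕ} {G : XInf S.F → GAf S.F → ℂ} {σ : S.F ≃+* S.F} {W : GAf S.F → ℂ}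
  {t : (Adf S.F)ˣ} {T T' : IntAd S.F}

/-- The translate is invariant under the deep congruence subgroup. -/
theorem translate_level (hG : IsCuspFn (Ideal.span {((S.m ^ n : ℕ) : 𝓞 S.F)}) G)
    (hl : n + j ≤ D.l + 2) (hT : intToAdele T = ((S.m ^ j : ℕ) : Adf S.F) * (t : Adf S.F))
    (hT' : intToAdele T' = ((S.m ^ j : ℕ) : Adf S.F) * ((t⁻¹ : (Adf S.F)ˣ) : Adf S.F))
    (u : GAf S.F) (hu : u ∈ congrSubgroup (D.levelIdeal S.F)) (x : XInf S.F) (g : GAf S.F) :
    G x (g * u * upperTri t 0 1) = G x (g * upperTri t 0 1) := by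
  obtain ⟨k, rfl, hk⟩ := exists_entries_of_mem_congr hu
  have hd : ((S.m ^ n : ℕ) : IntAd S.F) * ((S.m ^ j : ℕ) : IntAd S.F) ∣ (D.lvl : IntAd S.F) := by
    rw [natCast_pow_mul (R := IntAd S.F) S.m n j, Level.lvl, Nat.cast_pow (α := IntAd S.F)]
    exact pow_dvd_pow _ hl
  have hdn : ((S.m ^ n : ℕ) : IntAd S.F) ∣ (D.lvl : IntAd S.F) := (dvd_mul_right _ _).trans hd
  obtain ⟨r00, h00⟩ := hdn.trans (hk 0 0)
  obtain ⟨r11, h11⟩ := hdn.trans (hk 1 1)
  obtain ⟨r01, h01⟩ := hd.trans (hk 0 1)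
  obtain ⟨r10, h10⟩ := hd.trans (hk 1 0)
  rw [Matrix.one_apply_eq] at h00 h11
  rw [Matrix.one_apply_ne (by decide), sub_zero] at h01 h10
  have hc := conj_diag_mem_congr hT hT' (k := k) (r := !![r00, r01; r10, r11]) h00 h11 h01 h10
  rw [show g * Matrix.GeneralLinearGroup.map intToAdele k * upperTri t 0 1 = g * upperTri t 0 1 *
    ((upperTri t (0 : Adf S.F) 1)⁻¹ * Matrix.GeneralLinearGroup.map intToAdele k *
      upperTri t 0 1) by group, hG.level _ hc]

/-- The coefficient at a translate by an element of the box group. -/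
theorem coeff_box (hG : IsCuspFn (Ideal.span {((S.m ^ n : ℕ) : 𝓞 S.F)}) G)
    (hW : HasExpansion G W) (hk : n + 1 ≤ D.k) (hl : n + j ≤ D.l)
    (hT : intToAdele T = ((S.m ^ j : ℕ) : Adf S.F) * (t : Adf S.F))
    (hT' : intToAdele T' = ((S.m ^ j : ℕ) : Adf S.F) * ((t⁻¹ : (Adf S.F)ˣ) : Adf S.F))
    {M : Matrix (Fin 2) (Fin 2) (𝓞 S.F ⧸ (D.boxF σ).lvlIdeal)} (hM : M ∈ (D.boxF σ).resSet) :
    W (upperTri D.nu0 0 1 * ((D.boxF σ).lift M * upperTri t 0 1)) =
      (D.boxF σ).chi M * W (upperTri (D.nu0 * t) 0 1) := by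
  obtain ⟨α, hα, b, hb, γ, hγ, δ, hδ, rfl⟩ := hM
  have hα3 := D.pow_dvd_of_mem_boxAF hα
  have hδ3 := D.pow_dvd_of_mem_boxAF hδ
  have hk2 := D.two_le
  have hm1 : (S.m : 𝓞 S.F) ∣ δ := (dvd_pow_self _ (by omega)).trans hδ3
  have hthree : (3 : 𝓞 S.F) ∣ δ := by
    refine (?_ : (3 : 𝓞 S.F) ∣ (S.m : 𝓞 S.F)).trans hm1
    exact_mod_cast Nat.cast_dvd_cast (α := 𝓞 S.F) (dvd_trans ⟨2, rfl⟩ S.six_dvd)
  set s : 𝓞 S.F := ∑ i ∈ Finset.range (D.l + 2), (-δ) ^ i with hs
  have hgeo : b - b * s * (1 + δ) = b * (-δ) ^ (D.l + 2) := by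
    have h1 := geom_sum_mul (-δ) (D.l + 2)
    rw [← hs] at h1
    linear_combination b * h1
  have hbs : b * s ∈ S.boxBF σ := by
    obtain ⟨e, he⟩ : (3 : 𝓞 S.F) ∣ s - 1 := by
      rw [hs, Finset.sum_range_succ', pow_zero, add_sub_cancel_right]
      exact Finset.dvd_sum fun i _ => (dvd_pow (hthree.neg_right) (by omega))
    rw [show b * s = b + 3 * (b * e) by linear_combination b * he]
    exact add_mem hb (three_mul_mem_boxBF σ _)
  have htr : (D.M₁ : ℤ) ∣ Algebra.trace ℤ (𝓞 S.F) b - Algebra.trace ℤ (𝓞 S.F) (b * s) := by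
    rw [← map_sub, show b - b * s = δ * (b * s) + b * (-δ) ^ (D.l + 2) by linear_combination hgeo,
      map_add]
    refine dvd_add (hδ _ hbs) ?_
    obtain ⟨e, he⟩ := hm1
    have hle : 4 * D.k ≤ D.l + 2 := by have := D.l_ge; omega
    obtain ⟨c, hc⟩ : (D.M₁ : 𝓞 S.F) ∣ b * (-δ) ^ (D.l + 2) := by
      refine dvd_mul_of_dvd_right ?_ _
      rw [Level.M₁, Nat.cast_pow]
      exact (pow_dvd_pow _ hle).trans (pow_dvd_pow_of_dvd (Dvd.intro _ (he.symm)).neg_right _)
    rw [hc, show (D.M₁ : 𝓞 S.F) * c = (D.M₁ : ℤ) • c by simp, map_zsmul, smul_eq_mul]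
    exact dvd_mul_right _ _
  -- the chosen lift
  obtain ⟨k, hk0, hkdvd⟩ := (D.boxF σ).exists_lift_spec
    (o := !![1 + α, b; ((S.m ^ D.l : ℕ) : 𝓞 S.F) * γ, 1 + δ])
    (M := (D.boxF σ).resMat α b γ δ) rfl fun v hv => by
      have hmv := D.natCast_mem_imp hv
      refine ⟨?_, ?_, ?_⟩
      · simpa using Ideal.mem_of_dvd _ ((dvd_pow_self _ (by omega)).trans hα3) hmv
      · simpa using Ideal.mem_of_dvd _ hm1 hmv
      · simp only [Matrix.of_apply, Matrix.cons_val', Matrix.cons_val_zero, Matrix.cons_val_one,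
          Matrix.empty_val', Matrix.cons_val_fin_one, Nat.cast_pow]
        exact Ideal.mul_mem_right _ _ (Ideal.pow_mem_of_mem _ hmv _ (by have := D.l_ge; omega))
  set y : IntAd S.F := Box.intDiag (b * s) with hy
  set k' : GL (Fin 2) (IntAd S.F) := upperTri 1 (-y) 1 * k with hk'
  have e00 := hkdvd 0 0
  have e01 := hkdvd 0 1
  have e10 := hkdvd 1 0
  have e11 := hkdvd 1 1
  simp only [Matrix.of_apply, Matrix.cons_val', Matrix.cons_val_zero, Matrix.cons_val_one,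
    Matrix.empty_val', Matrix.cons_val_fin_one] at e00 e01 e10 e11
  have hlk : n + j ≤ D.l + 2 := by omega
  have hγd : (S.m : 𝓞 S.F) ^ D.l ∣ ((S.m ^ D.l : ℕ) : 𝓞 S.F) * γ :=
    (dvd_of_eq (Nat.cast_pow _ _).symm).trans (dvd_mul_right _ _)
  have hbd : (S.m : 𝓞 S.F) ^ (D.l + 2) ∣ b - b * s * (1 + δ) := by
    rw [hgeo]
    exact dvd_mul_of_dvd_right (pow_dvd_pow_of_dvd hm1.neg_right _) _
  obtain ⟨r, h00, h11, h01, h10⟩ := exists_conj_entries Box.intDiag k S.m (N := (D.lvl : IntAd S.F))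
    (dvd_natCast_pow (R := IntAd S.F) S.m hlk) e00 e01 e10 e11
    (dvd_map_natPow Box.intDiag S.m (n := n) (show n ≤ 3 * D.k - 1 by omega) hα3)
    (dvd_map_natPow Box.intDiag S.m (n := n) (show n ≤ 3 * D.k - 1 by omega) hδ3)
    (dvd_map_natPows Box.intDiag S.m hl hγd) (dvd_map_natPows Box.intDiag S.m hlk hbd)
  have hc := conj_diag_mem_congr hT hT' (k := k') (r := r) h00 h11 h01 h10
  -- the unipotent on the left
  set B : Adf S.F := algebraMap S.F (Adf S.F) ((b * s : 𝓞 S.F) : S.F) with hB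
  have hlift : (D.boxF σ).lift ((D.boxF σ).resMat α b γ δ) =
      upperTri 1 B 1 * Matrix.GeneralLinearGroup.map intToAdele k' := by
    rw [hk', map_mul, LT.map_upperTri, ← mul_assoc, hk0, LT.upperTri_mul]
    have hz : intToAdele (-y) = -B := by rw [map_neg, hy, intToAdele_intDiag]
    rw [hz, map_one]
    conv_lhs => rw [← one_mul (Matrix.GeneralLinearGroup.map intToAdele k)]
    congr 1
    refine Units.ext (Matrix.ext fun i l => ?_)
    fin_cases i <;> fin_cases l <;> simp [upperTri]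
  have hnu : (D.nu0 : Adf S.F) * B =
      algebraMap S.F (Adf S.F) (-(D.M₁ : S.F)⁻¹ * ((b * s : 𝓞 S.F) : S.F)) := by
    rw [map_mul]; rfl
  have hsplit : upperTri D.nu0 (0 : Adf S.F) 1 * ((D.boxF σ).lift ((D.boxF σ).resMat α b γ δ) *
      upperTri t 0 1) = upperTri 1 ((D.nu0 : Adf S.F) * B) 1 * (upperTri (D.nu0 * t) 0 1 *
        ((upperTri t (0 : Adf S.F) 1)⁻¹ * Matrix.GeneralLinearGroup.map intToAdele k' *
          upperTri t 0 1)) := by
    rw [hlift]
    have e1 : upperTri D.nu0 (0 : Adf S.F) 1 * upperTri 1 B 1 =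
        upperTri 1 ((D.nu0 : Adf S.F) * B) 1 * upperTri D.nu0 0 1 := by
      rw [LT.upperTri_mul, LT.upperTri_mul]; simp
    have e2 : upperTri (D.nu0 * t) (0 : Adf S.F) 1 = upperTri D.nu0 0 1 * upperTri t 0 1 := by
      rw [LT.upperTri_mul]; simp
    rw [e2, ← mul_assoc, ← mul_assoc, e1]
    group
  rw [hsplit]
  have h1 := LT.coeff_upperUni (𝔫 := Ideal.span {((S.m ^ n : ℕ) : 𝓞 S.F)}) (by simp [S.m_ne_zero])
    hW hG.rational hG.level ((D.nu0 : Adf S.F) * B) (upperTri (D.nu0 * t) 0 1 *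
        ((upperTri t (0 : Adf S.F) 1)⁻¹ * Matrix.GeneralLinearGroup.map intToAdele k' *
          upperTri t 0 1))
  have hX : W (upperTri (D.nu0 * t) 0 1 * ((upperTri t (0 : Adf S.F) 1)⁻¹ *
      Matrix.GeneralLinearGroup.map intToAdele k' * upperTri t 0 1)) =
      W (upperTri (D.nu0 * t) 0 1) :=
    (hW.mul_right (c := 1) (k := (upperTri t (0 : Adf S.F) 1)⁻¹ *
      Matrix.GeneralLinearGroup.map intToAdele k' * upperTri t 0 1)
      (fun x g => by rw [hG.level _ hc, one_mul]) _).trans (one_mul _)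
  rw [hX] at h1
  rw [(D.boxF σ).chi_resMat D.M₁_dvd_lvl hb,
    ratChar_eq_of_dvd_sub htr, D.ratChar_eq_phaseInf]
  rw [hnu, adelicChar_algebraMap] at h1
  have hph : LT.phaseInf ((D.M₁ : S.F)⁻¹ * ((b * s : 𝓞 S.F) : S.F)) *
      LT.phaseInf (-(D.M₁ : S.F)⁻¹ * ((b * s : 𝓞 S.F) : S.F)) = 1 := by
    rw [← LT.phaseInf_add, neg_mul, add_neg_cancel, LT.phaseInf_eq_exp_trace]
    simp
  rw [← h1, ← mul_assoc (LT.phaseInf _) (LT.phaseInf _), hph, one_mul, hnu]

end

end Setup.Level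

end FermatAgent.LTG

end
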