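import Mathlib
import Fermat.Agent.LT.General.Spectral.WordOps

set_option autoImplicit false

/-!
# The operators of combinations of matched words
-/

noncomputable section

open MeasureTheory NumberField IsDedekindDomain
open scoped ComplexConjugate MatrixGroups InnerProductSpace
open FermatAgent.LT (H3 YSpace yVol yKer yConv yOp IsYKernel IsCosetOp IsHermOp Cosets kerSum
  AutDomain unitKer placeKer)

namespace FermatAgent.LTG

theorem clm_congr' {L : Type*} [Field L] [NumberField L] {𝔫 : Ideal (𝓞 L)} [Fact (𝔫 ≠ ⊥)]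
    (𝔇 : AutDomain PGL(2, L) (yVol 𝔫)) {k k' : YSpace 𝔫 → YSpace 𝔫 → ℂ} (hk : IsYKernel k)
    (hk' : IsYKernel k') (h : k = k') : hk.clm 𝔇 = hk'.clm 𝔇 := by
  subst h; rfl

namespace Combo

variable {S : Setup} (D : S.Level) (σ : S.F ≃+* S.F) (w₁ : InfinitePlace S.K → InfinitePlace S.F)

/-- A word as a combination. -/
def single (x : KWord S) : Combo S := [((1 : ℝ), x)]

/-- The product of two combinations. -/
def mul (A B : Combo S) : Combo S :=
  A.flatMap fun p => B.map fun q => (p.1 * q.1, p.2.mul q.2)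

theorem kerF_nil : Combo.kerF D σ ([] : Combo S) = fun _ _ => 0 := rfl

theorem kerK_nil : Combo.kerK D σ w₁ ([] : Combo S) = fun _ _ => 0 := rfl

theorem kerF_cons (p : ℝ × KWord S) (A : Combo S) :
    Combo.kerF D σ (p :: A) =
      fun y z => (p.1 : ℂ) * p.2.kerF D σ y z + Combo.kerF D σ A y z := by
  funext y z
  simp [Combo.kerF]

theorem kerK_cons (p : ℝ × KWord S) (A : Combo S) :
    Combo.kerK D σ w₁ (p :: A) =
      fun y z => (p.1 : ℂ) * p.2.kerK D σ w₁ y z + Combo.kerK D σ w₁ A y z := by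
  funext y z
  simp [Combo.kerK]

theorem kerF_append (A B : Combo S) :
    Combo.kerF D σ (A ++ B) = fun y z => Combo.kerF D σ A y z + Combo.kerF D σ B y z := by
  funext y z
  simp [Combo.kerF]

theorem kerK_append (A B : Combo S) :
    Combo.kerK D σ w₁ (A ++ B) =
      fun y z => Combo.kerK D σ w₁ A y z + Combo.kerK D σ w₁ B y z := by
  funext y z
  simp [Combo.kerK]

theorem kerF_single (x : KWord S) : Combo.kerF D σ (single x) = x.kerF D σ := by
  funext y z
  simp [Combo.kerF, single]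

theorem kerK_single (x : KWord S) : Combo.kerK D σ w₁ (single x) = x.kerK D σ w₁ := by
  funext y z
  simp [Combo.kerK, single]

theorem isYKernel_kerF : ∀ A : Combo S, IsYKernel (Combo.kerF D σ A)
  | [] => by rw [kerF_nil]; exact isYKernel_zero
  | p :: A => by
    rw [kerF_cons]
    exact isYKernel_add (isYKernel_smul p.2.isYKernel_kerF _) (isYKernel_kerF A)

theorem isYKernel_kerK : ∀ A : Combo S, IsYKernel (Combo.kerK D σ w₁ A)
  | [] => by rw [kerK_nil]; exact isYKernel_zero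
  | p :: A => by
    rw [kerK_cons]
    exact isYKernel_add (isYKernel_smul p.2.isYKernel_kerK _) (isYKernel_kerK A)

theorem conj_kerF : ∀ (A : Combo S) (y z : YSpace (D.levelIdeal S.F)),
    conj (Combo.kerF D σ A y z) = Combo.kerF D σ A z y
  | [], y, z => by simp [kerF_nil]
  | p :: A, y, z => by
    simp only [kerF_cons, map_add, map_mul, Complex.conj_ofReal, KWord.conj_kerF, conj_kerF A y z]

theorem conj_kerK : ∀ (A : Combo S) (y z : YSpace (D.levelIdeal S.K)),
    conj (Combo.kerK D σ w₁ A y z) = Combo.kerK D σ w₁ A z y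
  | [], y, z => by simp [kerK_nil]
  | p :: A, y, z => by
    simp only [kerK_cons, map_add, map_mul, Complex.conj_ofReal, KWord.conj_kerK, conj_kerK A y z]

/-- Composition with one word. -/
theorem yConv_kerF_map (x : KWord S) (c : ℝ) : ∀ B : Combo S,
    (fun y z => (c : ℂ) * yConv (x.kerF D σ) (Combo.kerF D σ B) y z) =
      Combo.kerF D σ (B.map fun q => (c * q.1, x.mul q.2))
  | [] => by
    rw [List.map_nil, kerF_nil, yConv_zero_right]
    funext y z
    rw [mul_zero]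
  | q :: B => by
    rw [List.map_cons, kerF_cons, kerF_cons, ← yConv_kerF_map x c B,
      yConv_add_right x.isYKernel_kerF (isYKernel_smul q.2.isYKernel_kerF _) (isYKernel_kerF D σ B),
      yConv_smul_right, KWord.kerF_mul]
    funext y z
    push_cast
    ring

theorem yConv_kerK_map (x : KWord S) (c : ℝ) : ∀ B : Combo S,
    (fun y z => (c : ℂ) * yConv (x.kerK D σ w₁) (Combo.kerK D σ w₁ B) y z) =
      Combo.kerK D σ w₁ (B.map fun q => (c * q.1, x.mul q.2))
  | [] => by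
    rw [List.map_nil, kerK_nil, yConv_zero_right]
    funext y z
    rw [mul_zero]
  | q :: B => by
    rw [List.map_cons, kerK_cons, kerK_cons, ← yConv_kerK_map x c B,
      yConv_add_right x.isYKernel_kerK (isYKernel_smul q.2.isYKernel_kerK _)
        (isYKernel_kerK D σ w₁ B),
      yConv_smul_right, KWord.kerK_mul]
    funext y z
    push_cast
    ring

theorem kerF_mul : ∀ A B : Combo S,
    yConv (Combo.kerF D σ A) (Combo.kerF D σ B) = Combo.kerF D σ (mul A B)
  | [], B => by rw [kerF_nil, yConv_zero_left]; rfl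
  | p :: A, B => by
    rw [mul, List.flatMap_cons, kerF_append, ← mul, ← kerF_mul A B, ← yConv_kerF_map, kerF_cons,
      yConv_add_left (isYKernel_smul p.2.isYKernel_kerF _) (isYKernel_kerF D σ A)
        (isYKernel_kerF D σ B), yConv_smul_left]

theorem kerK_mul : ∀ A B : Combo S,
    yConv (Combo.kerK D σ w₁ A) (Combo.kerK D σ w₁ B) = Combo.kerK D σ w₁ (mul A B)
  | [], B => by rw [kerK_nil, yConv_zero_left]; rfl
  | p :: A, B => by
    rw [mul, List.flatMap_cons, kerK_append, ← mul, ← kerK_mul A B, ← yConv_kerK_map, kerK_cons,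
      yConv_add_left (isYKernel_smul p.2.isYKernel_kerK _) (isYKernel_kerK D σ w₁ A)
        (isYKernel_kerK D σ w₁ B), yConv_smul_left]

theorem yConv_word_commF (x : KWord S) : ∀ B : Combo S,
    yConv (x.kerF D σ) (Combo.kerF D σ B) = yConv (Combo.kerF D σ B) (x.kerF D σ)
  | [] => by rw [kerF_nil, yConv_zero_right, yConv_zero_left]
  | q :: B => by
    rw [kerF_cons, yConv_add_right x.isYKernel_kerF (isYKernel_smul q.2.isYKernel_kerF _)
        (isYKernel_kerF D σ B),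
      yConv_add_left (isYKernel_smul q.2.isYKernel_kerF _) (isYKernel_kerF D σ B) x.isYKernel_kerF,
      yConv_smul_right, yConv_smul_left, KWord.kerF_mul, KWord.kerF_mul, KWord.kerF_mul_comm x q.2,
      yConv_word_commF x B]

theorem yConv_commF : ∀ A B : Combo S,
    yConv (Combo.kerF D σ A) (Combo.kerF D σ B) = yConv (Combo.kerF D σ B) (Combo.kerF D σ A)
  | [], B => by rw [kerF_nil, yConv_zero_right, yConv_zero_left]
  | p :: A, B => by
    rw [kerF_cons, yConv_add_left (isYKernel_smul p.2.isYKernel_kerF _) (isYKernel_kerF D σ A)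
        (isYKernel_kerF D σ B),
      yConv_add_right (isYKernel_kerF D σ B) (isYKernel_smul p.2.isYKernel_kerF _)
        (isYKernel_kerF D σ A),
      yConv_smul_right, yConv_smul_left, yConv_word_commF, yConv_commF A B]

/-- A product is bounded on the group when its second factor is. -/
theorem bounded_mulF (A B : Combo S)
    (h : ∃ C : ℝ, ∀ y z, ‖kerSum (Combo.kerF D σ B) y z‖ ≤ C) :
    ∃ C : ℝ, ∀ y z, ‖kerSum (Combo.kerF D σ (mul A B)) y z‖ ≤ C := by
  rw [← kerF_mul]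
  exact (isYKernel_kerF D σ A).kerSum_yConv_bounded (isYKernel_kerF D σ B) h

theorem bounded_mulK (A B : Combo S)
    (h : ∃ C : ℝ, ∀ y z, ‖kerSum (Combo.kerK D σ w₁ B) y z‖ ≤ C) :
    ∃ C : ℝ, ∀ y z, ‖kerSum (Combo.kerK D σ w₁ (mul A B)) y z‖ ≤ C := by
  rw [← kerK_mul]
  exact (isYKernel_kerK D σ w₁ A).kerSum_yConv_bounded (isYKernel_kerK D σ w₁ B) h

/-- The number of letters over `v` is even in every word. -/
def EvenAt (v : HeightOneSpectrum (𝓞 S.K)) (A : Combo S) : Prop :=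
  ∀ p ∈ A, Even (p.2.countOver v)

/-- The number of letters over `v` is odd in every word. -/
def OddAt (v : HeightOneSpectrum (𝓞 S.K)) (A : Combo S) : Prop :=
  ∀ p ∈ A, Odd (p.2.countOver v)

variable {v : HeightOneSpectrum (𝓞 S.K)} {A B : Combo S}

theorem mem_mul {r : ℝ × KWord S} (h : r ∈ mul A B) :
    ∃ p ∈ A, ∃ q ∈ B, r.2 = p.2.mul q.2 := by
  obtain ⟨p, hp, hr⟩ := List.mem_flatMap.mp h
  obtain ⟨q, hq, rfl⟩ := List.mem_map.mp hr
  exact ⟨p, hp, q, hq, rfl⟩

theorem EvenAt.mul (hA : EvenAt v A) (hB : EvenAt v B) : EvenAt v (Combo.mul A B) := fun r hr => by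
  obtain ⟨p, hp, q, hq, e⟩ := mem_mul hr
  rw [e, KWord.countOver_mul]
  exact (hA p hp).add (hB q hq)

theorem OddAt.mul (hA : OddAt v A) (hB : EvenAt v B) : OddAt v (Combo.mul A B) := fun r hr => by
  obtain ⟨p, hp, q, hq, e⟩ := mem_mul hr
  rw [e, KWord.countOver_mul]
  exact (hA p hp).add_even (hB q hq)

theorem EvenAt.mul_odd (hA : EvenAt v A) (hB : OddAt v B) : OddAt v (Combo.mul A B) := fun r hr => by
  obtain ⟨p, hp, q, hq, e⟩ := mem_mul hr
  rw [e, KWord.countOver_mul]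
  exact (hA p hp).add_odd (hB q hq)

variable (A B)
variable (𝔇F : AutDomain PGL(2, S.F) (yVol (D.levelIdeal S.F)))
  (𝔇K : AutDomain PGL(2, S.K) (yVol (D.levelIdeal S.K)))

/-- The operator on `F`. -/
def OF : 𝔇F.Space →L[ℂ] 𝔇F.Space := (isYKernel_kerF D σ A).clm 𝔇F

/-- The operator on `K`. -/
def OK : 𝔇K.Space →L[ℂ] 𝔇K.Space := (isYKernel_kerK D σ w₁ A).clm 𝔇K

theorem OK_single (x : KWord S) :
    OK D σ w₁ (single x) 𝔇K = (x.isYKernel_kerK (D := D) (σ := σ) (w₁ := w₁)).clm 𝔇K :=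
  clm_congr' 𝔇K _ _ (kerK_single D σ w₁ x)

theorem OF_mul : OF D σ A 𝔇F * OF D σ B 𝔇F = OF D σ (mul A B) 𝔇F := by
  rw [OF, OF, IsYKernel.clm_mul]
  exact clm_congr' 𝔇F _ _ (kerF_mul D σ A B)

theorem OK_mul : OK D σ w₁ A 𝔇K * OK D σ w₁ B 𝔇K = OK D σ w₁ (mul A B) 𝔇K := by
  rw [OK, OK, IsYKernel.clm_mul]
  exact clm_congr' 𝔇K _ _ (kerK_mul D σ w₁ A B)

theorem OF_symm (φ ψ : 𝔇F.Space) : ⟪OF D σ A 𝔇F φ, ψ⟫_ℂ = ⟪φ, OF D σ A 𝔇F ψ⟫_ℂ :=
  (isYKernel_kerF D σ A).inner_clm 𝔇F (conj_kerF D σ A) φ ψ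

theorem OK_symm (φ ψ : 𝔇K.Space) : ⟪OK D σ w₁ A 𝔇K φ, ψ⟫_ℂ = ⟪φ, OK D σ w₁ A 𝔇K ψ⟫_ℂ :=
  (isYKernel_kerK D σ w₁ A).inner_clm 𝔇K (conj_kerK D σ w₁ A) φ ψ

theorem commute_OF : Commute (OF D σ A 𝔇F) (OF D σ B 𝔇F) := by
  rw [Commute, SemiconjBy, OF, OF, IsYKernel.clm_mul, IsYKernel.clm_mul]
  exact clm_congr' 𝔇F _ _ (yConv_commF D σ A B)

theorem hasKernelF (h : ∃ C : ℝ, ∀ y z, ‖kerSum (Combo.kerF D σ A) y z‖ ≤ C) :
    LT.TraceKernel.HasKernel (OF D σ A 𝔇F) (kerSum (Combo.kerF D σ A)) :=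
  (isYKernel_kerF D σ A).hasKernel 𝔇F h

theorem hasKernelK (h : ∃ C : ℝ, ∀ y z, ‖kerSum (Combo.kerK D σ w₁ A) y z‖ ≤ C) :
    LT.TraceKernel.HasKernel (OK D σ w₁ A 𝔇K) (kerSum (Combo.kerK D σ w₁ A)) :=
  (isYKernel_kerK D σ w₁ A).hasKernel 𝔇K h

/-- A product kernel whose operator commutes with the level and the base changed Hecke operators
commutes with every combination. -/
theorem yConv_yKer_commK {h : InfinitePlace S.K → H3 → H3 → ℂ} (hh : ∀ u, LT.H3.IsInvKer (h u))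
    {T : Module.End ℂ (Cosets (D.levelIdeal S.K) → ℂ)} (hT : IsCosetOp T)
    (hL : Commute T D.levelOpK)
    (hbc : ∀ w : HeightOneSpectrum (𝓞 S.F), (S.m : 𝓞 S.F) ∉ w.asIdeal → Commute T (D.bcOp w)) :
    ∀ A : Combo S, yConv (yKer h T) (Combo.kerK D σ w₁ A) = yConv (Combo.kerK D σ w₁ A) (yKer h T)
  | [] => by rw [kerK_nil, yConv_zero_right, yConv_zero_left]
  | p :: A => by
    have hk : IsYKernel (yKer (𝔫 := D.levelIdeal S.K) h T) := LT.isYKernel_yKer hh hT
    have e : yConv (yKer h T) (p.2.kerK D σ w₁) = yConv (p.2.kerK D σ w₁) (yKer h T) := by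
      rw [KWord.kerK_eq, LT.yConv_yKer hT p.2.isCosetOp_opK, LT.yConv_yKer p.2.isCosetOp_opK hT,
        (show Commute T (p.2.opK D) from hL.mul_right
          (commute_map_prod fun w hw => hbc w (p.2.good w hw).1)).eq]
      congr 1
      funext u
      exact LT.H3.kConv_comm (hh u) (p.2.isInvKer_slot u)
    rw [kerK_cons, yConv_add_right hk (isYKernel_smul p.2.isYKernel_kerK _)
        (isYKernel_kerK D σ w₁ A),
      yConv_add_left (isYKernel_smul p.2.isYKernel_kerK _) (isYKernel_kerK D σ w₁ A) hk,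
      yConv_smul_right, yConv_smul_left, e, yConv_yKer_commK hh hT hL hbc A]

theorem commute_OK_yKer {h : InfinitePlace S.K → H3 → H3 → ℂ} (hh : ∀ u, LT.H3.IsInvKer (h u))
    {T : Module.End ℂ (Cosets (D.levelIdeal S.K) → ℂ)} (hT : IsCosetOp T)
    (hL : Commute T D.levelOpK)
    (hbc : ∀ w : HeightOneSpectrum (𝓞 S.F), (S.m : 𝓞 S.F) ∉ w.asIdeal → Commute T (D.bcOp w)) :
    Commute (OK D σ w₁ A 𝔇K) ((LT.isYKernel_yKer hh hT).clm 𝔇K) := by
  rw [Commute, SemiconjBy, OK, IsYKernel.clm_mul, IsYKernel.clm_mul]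
  exact clm_congr' 𝔇K _ _ (yConv_yKer_commK D σ w₁ hh hT hL hbc A).symm

end Combo

end FermatAgent.LTG

end
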