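import Mathlib
import Fermat.Agent.LT.General.Spectral.ComboOps
import Fermat.Agent.LT.General.Spectral.Annihilator
import Fermat.Agent.LT.Descent.Spectral.CuspForm

set_option autoImplicit false

/-!
# The data of the descent and the matched generators
-/

noncomputable section

open MeasureTheory NumberField IsDedekindDomain
open scoped ComplexConjugate MatrixGroups InnerProductSpace
open FermatAgent.LT (H3 YSpace yVol AutDomain IsFrobOver q8Trace)

namespace FermatAgent.LTG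

/-- `t` gives the traces of the Frobenius elements of the places of `F`. -/
structure Setup.IsTrace (S : Setup) (t : HeightOneSpectrum (𝓞 S.F) → ℤ) : Prop where
  frob : ∀ w, (S.m : 𝓞 S.F) ∉ w.asIdeal → ∀ σ, IsFrobOver w σ → q8Trace (S.ρ σ) = t w
  gal : ∀ σ : S.F ≃+* S.F, ∀ w, (S.m : 𝓞 S.F) ∉ w.asIdeal → t (LT.galPlace σ w) = t w

/-- A good place of `F` of degree one over `K`. -/
def Setup.IsLetter (S : Setup) (w : HeightOneSpectrum (𝓞 S.F)) : Prop :=
  (S.m : 𝓞 S.F) ∉ w.asIdeal ∧ Ideal.absNorm w.asIdeal = Ideal.absNorm (S.underK w).asIdeal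

/-- The mean value of the unit balls at all the places of a field. -/
def unitMean (L : IntermediateField ℚ (AlgebraicClosure ℚ)) [NumberField L] : ℂ :=
  (LT.H3.sph0 1 : ℂ) ^ Fintype.card (InfinitePlace L)

theorem unitMean_ne_zero (L : IntermediateField ℚ (AlgebraicClosure ℚ)) [NumberField L] :
    unitMean L ≠ 0 :=
  pow_ne_zero _ (Complex.ofReal_ne_zero.mpr (LT.H3.sph0_pos one_pos).ne')

theorem conj_unitMean (L : IntermediateField ℚ (AlgebraicClosure ℚ)) [NumberField L] :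
    conj (unitMean L) = unitMean L := by simp [unitMean]

theorem conj_lamOf {S : Setup} (t : HeightOneSpectrum (𝓞 S.F) → ℤ)
    (w : HeightOneSpectrum (𝓞 S.F)) : conj (lamOf t w) = lamOf t w := Complex.conj_ofReal _

theorem lamOf_ne_zero {S : Setup} {t : HeightOneSpectrum (𝓞 S.F) → ℤ}
    {w : HeightOneSpectrum (𝓞 S.F)} (h : t w ≠ 0) : lamOf t w ≠ 0 := by
  refine Complex.ofReal_ne_zero.mpr (mul_ne_zero ?_ (Int.cast_ne_zero.mpr h))
  rw [Real.sqrt_ne_zero', Nat.cast_pos]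
  exact Nat.pos_of_ne_zero (Ideal.absNorm_eq_zero_iff.not.mpr w.ne_bot)

/-- The data fixed in the descent. -/
structure DescentData (S : Setup) where
  /-- the level -/
  D : S.Level
  /-- the generator -/
  σ : S.F ≃+* S.F
  isGen : S.IsGalGen σ
  /-- a place over each place of `K` -/
  w₁ : InfinitePlace S.K → InfinitePlace S.F
  w₁_over : ∀ u, (w₁ u).comap S.inclKF.toRingHom = u
  /-- the traces -/
  t : HeightOneSpectrum (𝓞 S.F) → ℤ
  /-- the annihilator of the constant terms -/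
  An : Annihilator S D σ w₁ t
  /-- the place of `K` at which the words are odd -/
  v₀ : HeightOneSpectrum (𝓞 S.K)
  /-- a place over it -/
  w₀ : HeightOneSpectrum (𝓞 S.F)
  w₀_over : S.underK w₀ = v₀
  letter : ∀ w, S.underK w = v₀ → S.IsLetter w
  p_notMem : (An.p : 𝓞 S.K) ∉ v₀.asIdeal
  t_ne_zero : ∀ w, S.underK w = v₀ → t w ≠ 0

namespace DescentData

variable {S : Setup} (P : DescentData S)

theorem letter_w₀ : S.IsLetter P.w₀ := P.letter _ P.w₀_over

/-- The indices of the generators. -/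
abbrev Index : Type :=
  Unit ⊕ (InfinitePlace S.F × {q : ℚ // 0 < q}) ⊕
    {w : HeightOneSpectrum (𝓞 S.F) // S.IsLetter w ∧ S.underK w ≠ P.v₀} ⊕
    ({w : HeightOneSpectrum (𝓞 S.F) // S.underK w = P.v₀} ×
      {w : HeightOneSpectrum (𝓞 S.F) // S.underK w = P.v₀}) ⊕ Unit

instance : Nonempty P.Index := ⟨Sum.inl ()⟩

instance : Countable P.Index := inferInstanceAs (Countable (_ ⊕ _ ⊕ _ ⊕ _ ⊕ _))

/-- The combination of a generator. -/
def combo : P.Index → Combo S
  | Sum.inl _ => Combo.single (KWord.unitW S)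
  | Sum.inr (Sum.inl p) => Combo.single (KWord.ballW p.1 ((p.2 : ℚ) : ℝ))
  | Sum.inr (Sum.inr (Sum.inl w)) => Combo.single (KWord.heckeW w.1 w.2.1)
  | Sum.inr (Sum.inr (Sum.inr (Sum.inl ww))) =>
      Combo.single ((KWord.heckeW ww.1.1 (P.letter _ ww.1.2)).mul
        (KWord.heckeW ww.2.1 (P.letter _ ww.2.2)))
  | Sum.inr (Sum.inr (Sum.inr (Sum.inr _))) => P.An.A

/-- The scalar of a generator. -/
def scal : P.Index → ℂ
  | Sum.inl _ => unitMean S.F
  | Sum.inr (Sum.inl p) => (LT.H3.sph0 ((p.2 : ℚ) : ℝ) : ℂ) * unitMean S.F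
  | Sum.inr (Sum.inr (Sum.inl w)) => lamOf P.t w.1 * unitMean S.F
  | Sum.inr (Sum.inr (Sum.inr (Sum.inl ww))) =>
      lamOf P.t ww.1.1 * unitMean S.F * (lamOf P.t ww.2.1 * unitMean S.F)
  | Sum.inr (Sum.inr (Sum.inr (Sum.inr _))) => (P.An.α : ℂ)

theorem conj_scal (j : P.Index) : conj (P.scal j) = P.scal j := by
  rcases j with _ | p | w | ww | _ <;> simp [scal, conj_unitMean, conj_lamOf]

theorem evenAt_combo (j : P.Index) : Combo.EvenAt P.v₀ (P.combo j) := by
  classical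
  rcases j with _ | p | w | ww | _
  · simp [combo, Combo.EvenAt, Combo.single, KWord.unitW, KWord.countOver]
  · simp [combo, Combo.EvenAt, Combo.single, KWord.ballW, KWord.countOver]
  · simp [combo, Combo.EvenAt, Combo.single, KWord.heckeW, KWord.countOver, w.2.2]
  · simp [combo, Combo.EvenAt, Combo.single, KWord.heckeW, KWord.mul, KWord.countOver, ww.1.2,
      ww.2.2]
  · intro x hx
    have h0 : x.2.countOver P.v₀ = 0 := by
      simp only [KWord.countOver, List.countP_eq_zero, decide_eq_true_eq]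
      intro w hw hwv
      refine P.p_notMem ?_
      rw [← hwv, S.natCast_mem_underK]
      exact P.An.letters x hx w hw
    rw [h0]
    exact Even.zero

variable (𝔇F : AutDomain PGL(2, S.F) (yVol (P.D.levelIdeal S.F)))
  (𝔇K : AutDomain PGL(2, S.K) (yVol (P.D.levelIdeal S.K)))

/-- The generator on `F`. -/
def genF (j : P.Index) : 𝔇F.Space →L[ℂ] 𝔇F.Space :=
  Combo.OF P.D P.σ (P.combo j) 𝔇F - P.scal j • 1

/-- The generator on `K`. -/
def genK (j : P.Index) : 𝔇K.Space →L[ℂ] 𝔇K.Space :=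
  Combo.OK P.D P.σ P.w₁ (P.combo j) 𝔇K - P.scal j • 1

theorem genF_symm (j : P.Index) (x y : 𝔇F.Space) :
    ⟪P.genF 𝔇F j x, y⟫_ℂ = ⟪x, P.genF 𝔇F j y⟫_ℂ := by
  simp [genF, inner_sub_left, inner_sub_right, inner_smul_left, inner_smul_right, P.conj_scal j,
    Combo.OF_symm]

theorem genK_symm (j : P.Index) (x y : 𝔇K.Space) :
    ⟪P.genK 𝔇K j x, y⟫_ℂ = ⟪x, P.genK 𝔇K j y⟫_ℂ := by
  simp [genK, inner_sub_left, inner_sub_right, inner_smul_left, inner_smul_right, P.conj_scal j,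
    Combo.OK_symm]

/-- The normalisation. -/
def scale (j : P.Index) : ℝ := (‖P.genF 𝔇F j‖ + ‖P.genK 𝔇K j‖ + 1)⁻¹

theorem scale_pos (j : P.Index) : 0 < P.scale 𝔇F 𝔇K j := inv_pos.mpr (by positivity)

/-- An enumeration of the indices. -/
def enum : ℕ → P.Index := (exists_surjective_nat P.Index).choose

theorem enum_surjective : Function.Surjective P.enum :=
  (exists_surjective_nat P.Index).choose_spec

/-- The normalised generators on `F`. -/
def XF (n : ℕ) : 𝔇F.Space →L[ℂ] 𝔇F.Space :=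
  (P.scale 𝔇F 𝔇K (P.enum n) : ℂ) • P.genF 𝔇F (P.enum n)

/-- The normalised generators on `K`. -/
def XK (n : ℕ) : 𝔇K.Space →L[ℂ] 𝔇K.Space :=
  (P.scale 𝔇F 𝔇K (P.enum n) : ℂ) • P.genK 𝔇K (P.enum n)

theorem mem_kerF {v : 𝔇F.Space} :
    v ∈ LT.Joint.kerAll (P.XF 𝔇F 𝔇K) ↔
      ∀ j, Combo.OF P.D P.σ (P.combo j) 𝔇F v = P.scal j • v := by
  rw [LT.Joint.mem_kerAll]
  refine ⟨fun h j => ?_, fun h n => ?_⟩
  · obtain ⟨n, rfl⟩ := P.enum_surjective j
    have h1 := h n
    rw [XF, smul_apply, smul_eq_zero, Complex.ofReal_eq_zero] at h1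
    have h2 := h1.resolve_left (P.scale_pos 𝔇F 𝔇K _).ne'
    rwa [genF, sub_apply, smul_apply, LT.StrongLimit.onev, sub_eq_zero] at h2
  · rw [XF, smul_apply, genF, sub_apply, smul_apply, LT.StrongLimit.onev, h, sub_self, smul_zero]

theorem mem_kerK {v : 𝔇K.Space} :
    v ∈ LT.Joint.kerAll (P.XK 𝔇F 𝔇K) ↔
      ∀ j, Combo.OK P.D P.σ P.w₁ (P.combo j) 𝔇K v = P.scal j • v := by
  rw [LT.Joint.mem_kerAll]
  refine ⟨fun h j => ?_, fun h n => ?_⟩
  · obtain ⟨n, rfl⟩ := P.enum_surjective j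
    have h1 := h n
    rw [XK, smul_apply, smul_eq_zero, Complex.ofReal_eq_zero] at h1
    have h2 := h1.resolve_left (P.scale_pos 𝔇F 𝔇K _).ne'
    rwa [genK, sub_apply, smul_apply, LT.StrongLimit.onev, sub_eq_zero] at h2
  · rw [XK, smul_apply, genK, sub_apply, smul_apply, LT.StrongLimit.onev, h, sub_self, smul_zero]

end DescentData

end FermatAgent.LTG

end
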