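import Mathlib
import Fermat.Agent.LT.General.Spectral.YLinear

set_option autoImplicit false

/-!
# Smoothing by a kernel with bounded sums over the group
-/

noncomputable section

open MeasureTheory Set Filter NumberField IsDedekindDomain
open scoped ENNReal MatrixGroups Topology
open FermatAgent.LT (H3 YSpace yVol IsYKernel yConv yOp kerSum AutDomain unitKer IsCosetOp
  IsSmoothEigen Cosets)

namespace FermatAgent.LTG

variable {L : Type*} [Field L] [NumberField L] {𝔫 : Ideal (𝓞 L)} [h𝔫 : Fact (𝔫 ≠ ⊥)]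
  {T : Module.End ℂ (Cosets 𝔫 → ℂ)}

/-- **Smoothing.** An eigenvector of the unit kernel and of a commuting kernel with bounded sums
over the group is given by a continuous bounded function with both eigenvalues everywhere. -/
theorem exists_smooth_kernel (𝔇 : AutDomain PGL(2, L) (yVol 𝔫)) (hfin : yVol 𝔫 𝔇.carrier < ⊤)
    (hT : IsCosetOp T) {k : YSpace 𝔫 → YSpace 𝔫 → ℂ} (K : IsYKernel k)
    (hb : ∃ C : ℝ, ∀ y z, ‖kerSum k y z‖ ≤ C)
    (hcomm : yConv k (unitKer T) = yConv (unitKer T) k) {w : 𝔇.Space} {α c : ℂ} (hα : α ≠ 0)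
    (hc : c ≠ 0) (hw : (LT.isYKernel_unitKer hT).clm 𝔇 w = c • w) (hKw : K.clm 𝔇 w = α • w) :
    ∃ Φ, IsSmoothEigen T Φ c ∧ 𝔇.lift w =ᵐ[yVol 𝔫] Φ ∧ ∀ y, yOp k Φ y = α * Φ y := by
  have hk := LT.isYKernel_unitKer hT
  have : IsFiniteMeasure ((yVol 𝔫).restrict 𝔇.carrier) := ⟨by rwa [Measure.restrict_apply_univ]⟩
  obtain ⟨B, hB⟩ := hb
  have hker : LT.TraceKernel.HasKernel (K.clm 𝔇) (kerSum k) := K.hasKernel 𝔇 ⟨B, hB⟩
  set Φ₀ : YSpace 𝔫 → ℂ := fun y => α⁻¹ *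
    ∫ z in 𝔇.carrier, kerSum k y z * (w : YSpace 𝔫 → ℂ) z ∂(yVol 𝔫)
  have hΦ₀i : ∀ (γ : PGL(2, L)) y, Φ₀ (γ • y) = Φ₀ y := fun γ y => by
    simp only [Φ₀, LT.kerSum_smul_left K]
  have hwm : Measurable ((Lp.aestronglyMeasurable w).mk w) :=
    (Lp.aestronglyMeasurable w).stronglyMeasurable_mk.measurable
  have hΦ₀m : Measurable Φ₀ := by
    refine Measurable.const_mul ?_ _
    have : (fun y => ∫ z in 𝔇.carrier, kerSum k y z * (w : YSpace 𝔫 → ℂ) z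
        ∂(yVol 𝔫)) = fun y => ∫ z in 𝔇.carrier, kerSum k y z *
          (Lp.aestronglyMeasurable w).mk w z ∂(yVol 𝔫) := funext fun y => integral_congr_ae (by
      filter_upwards [(Lp.aestronglyMeasurable w).ae_eq_mk] with z hz
      rw [← hz])
    rw [this]
    exact (StronglyMeasurable.integral_prod_right'
      (f := fun p : YSpace 𝔫 × YSpace 𝔫 => kerSum k p.1 p.2 *
        (Lp.aestronglyMeasurable w).mk w p.2)
      (K.measurable_kerSum.mul (hwm.comp measurable_snd)).stronglyMeasurable).measurable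
  have hΦ₀b : ∀ y, ‖Φ₀ y‖ ≤ ‖α⁻¹‖ * (|B| *
      ∫ z in 𝔇.carrier, ‖(w : YSpace 𝔫 → ℂ) z‖ ∂(yVol 𝔫)) := fun y => by
    rw [norm_mul]
    refine mul_le_mul_of_nonneg_left ?_ (norm_nonneg _)
    rw [← integral_const_mul]
    refine (norm_integral_le_integral_norm _).trans (integral_mono_of_nonneg
      (Eventually.of_forall fun _ => norm_nonneg _)
      ((((Lp.memLp w).integrable one_le_two).norm).const_mul _) (Eventually.of_forall fun z => ?_))
    simp only [norm_mul]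
    exact mul_le_mul_of_nonneg_right ((hB y z).trans (le_abs_self B)) (norm_nonneg _)
  have hΦ₀w : 𝔇.lift w =ᵐ[yVol 𝔫] Φ₀ := by
    refine 𝔇.lift_ae_of_eq hΦ₀i ?_
    filter_upwards [hker.ae_eq w, Lp.coeFn_smul α w] with y h1 h2
    rw [hKw, h2, Pi.smul_apply, smul_eq_mul] at h1
    simp only [Φ₀]
    rw [← h1, inv_mul_cancel_left₀ hα]
  obtain ⟨C₁, hC₁⟩ := LT.yOp_bounded hk hΦ₀b
  set Φ : YSpace 𝔫 → ℂ := fun y => c⁻¹ * yOp (unitKer T) Φ₀ y
  have hΦm : Measurable Φ := (LT.measurable_yOp hk hΦ₀m).const_mul _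
  have hΦb : ∀ y, ‖Φ y‖ ≤ ‖c⁻¹‖ * C₁ := fun y => by
    rw [norm_mul]; exact mul_le_mul_of_nonneg_left (hC₁ y) (norm_nonneg _)
  have hΦw : 𝔇.lift w =ᵐ[yVol 𝔫] Φ := by
    have h1 := hk.lift_clm_ae 𝔇 w
    have h2 : 𝔇.lift (c • w) =ᵐ[yVol 𝔫] c • 𝔇.lift w :=
      𝔇.lift_ae_of_eq (fun γ y => by simp [𝔇.lift_invariant])
        ((Lp.coeFn_smul c w).trans ((𝔇.lift_ae_restrict w).symm.fun_comp (c • ·)))
    have h3 : yOp (unitKer T) (𝔇.lift w) =ᵐ[yVol 𝔫] yOp (unitKer T) Φ₀ :=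
      AutDomain.op_congr_ae (T := LT.yTransport L 𝔫) (W := Function.uncurry (unitKer T)) hΦ₀w
    rw [hw] at h1
    filter_upwards [h1, h2, h3] with y e1 e2 e3
    rw [e2, Pi.smul_apply, smul_eq_mul, e3] at e1
    simp only [Φ]
    rw [← e1, inv_mul_cancel_left₀ hc]
  have heig : ∀ y, yOp (unitKer T) Φ y = c * Φ y := fun y => by
    have h4 : yOp (unitKer T) Φ = yOp (unitKer T) Φ₀ := by
      refine LT.eq_of_ae_eq_continuous (fun q => LT.continuous_yOp_unitKer hT hΦm hΦb q)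
        (fun q => LT.continuous_yOp_unitKer hT hΦ₀m hΦ₀b q) ?_
      exact AutDomain.op_congr_ae (T := LT.yTransport L 𝔫) (W := Function.uncurry (unitKer T))
        (hΦw.symm.trans hΦ₀w)
    rw [h4]
    simp only [Φ]
    rw [mul_inv_cancel_left₀ hc]
  refine ⟨Φ, ⟨hΦm, fun γ y => by simp only [Φ, LT.yOp_invariant hk hΦ₀i], ⟨_, hΦb⟩,
    fun q => continuous_const.mul (LT.continuous_yOp_unitKer hT hΦ₀m hΦ₀b q), heig⟩, hΦw, fun y => ?_⟩
  have h5 : yOp k Φ₀ =ᵐ[yVol 𝔫] fun y => α * Φ y := by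
    have e1 : 𝔇.lift (K.clm 𝔇 w) =ᵐ[yVol 𝔫] yOp k (𝔇.lift w) := K.lift_clm_ae 𝔇 w
    have e2 : yOp k (𝔇.lift w) =ᵐ[yVol 𝔫] yOp k Φ₀ :=
      AutDomain.op_congr_ae (T := LT.yTransport L 𝔫) (W := Function.uncurry k) hΦ₀w
    have e3 : 𝔇.lift (α • w) =ᵐ[yVol 𝔫] α • 𝔇.lift w :=
      𝔇.lift_ae_of_eq (fun γ y => by simp [𝔇.lift_invariant])
        ((Lp.coeFn_smul α w).trans ((𝔇.lift_ae_restrict w).symm.fun_comp (α • ·)))
    rw [hKw] at e1
    filter_upwards [e1, e2, e3, hΦw] with y a1 a2 a3 a4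
    rw [← a2, ← a1, a3, Pi.smul_apply, a4, smul_eq_mul]
  calc yOp k Φ y = c⁻¹ * yOp k (yOp (unitKer T) Φ₀) y := by
        simp only [yOp, Φ, mul_left_comm _ c⁻¹, integral_const_mul]
    _ = c⁻¹ * yOp (unitKer T) (yOp k Φ₀) y := by
        rw [← yOp_yConv K hk hΦ₀m hΦ₀b, hcomm, yOp_yConv hk K hΦ₀m hΦ₀b]
    _ = c⁻¹ * yOp (unitKer T) (fun y => α * Φ y) y := by
        congr 1
        refine integral_congr_ae ?_
        filter_upwards [h5] with u hu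
        rw [hu]
    _ = c⁻¹ * (α * (c * Φ y)) := by
        rw [← heig]
        simp only [yOp, mul_left_comm _ α, integral_const_mul]
    _ = α * Φ y := by field_simp

end FermatAgent.LTG

end
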