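import Mathlib
import Fermat.Agent.LT.General.Spectral.Line

set_option autoImplicit false

/-!
# The dihedral form projected to the type of the box group
-/

noncomputable section

open NumberField IsDedekindDomain WithZero
open FermatAgent.LT (XInf Adf GAf IntAd intToAdele congrSubgroup upperTri HasExpansion IsCuspFn
  IsEigenAt diagW Cosets rationalMat loc)

namespace FermatAgent.LTG

namespace Setup.Level

variable {S : Setup}

/-- **A form of the type of the box group.** For all deep enough levels the projection of a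
translate of a dihedral form is nonzero, with coefficient at `-1/M₁` different from zero. -/
theorem exists_typeForm {n : ℕ} {G : XInf S.F → GAf S.F → ℂ} (hG : IsDihedralLike S n G)
    (hG0 : G ≠ 0) {σ : S.F ≃+* S.F}
    (hfix : ∀ D : S.Level, ∀ M ∈ (D.boxF σ).resSet, ∀ f g,
      D.levelOpF σ f ((g * (D.boxF σ).lift M : GAf S.F) : Cosets (D.levelIdeal S.F)) =
        (D.boxF σ).chi M * D.levelOpF σ f (g : Cosets (D.levelIdeal S.F)))
    (hcomm : ∀ (D : S.Level) (w : HeightOneSpectrum (𝓞 S.F)), (S.m : 𝓞 S.F) ∉ w.asIdeal →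
      Commute (D.levelOpF σ) (LT.heckeOp (D.levelIdeal S.F) w)) :
    ∃ k₀ : ℕ, ∀ k, k₀ ≤ k → ∃ l₀ : ℕ, ∀ D : S.Level, D.k = k → l₀ ≤ D.l →
      ∃ (H : XInf S.F → GAf S.F → ℂ) (W : GAf S.F → ℂ), IsCuspFn (D.levelIdeal S.F) H ∧
        HasExpansion H W ∧ diagW W D.nu0 ≠ 0 ∧
        (∀ M ∈ (D.boxF σ).resSet, ∀ x g,
          H x (g * (D.boxF σ).lift M) = (D.boxF σ).chi M * H x g) ∧
        ∀ w, (S.m : 𝓞 S.F) ∉ w.asIdeal → ∀ τ, LT.IsFrobOver w τ →
          IsEigenAt w H (LT.q8Trace (S.ρ τ) : ℂ) := by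
  classical
  obtain ⟨W, hW⟩ := hG.cusp.expansion
  refine ⟨n + 1, fun k hk => ?_⟩
  by_cases hex : ∃ D : S.Level, D.k = k
  swap
  · exact ⟨0, fun D hD => absurd ⟨D, hD⟩ hex⟩
  obtain ⟨D₀, hD₀⟩ := hex
  obtain ⟨a, ha1, ha⟩ : ∃ a : (Adf S.F)ˣ,
      (∀ w ∉ badSet (S := S), Valued.v ((a : Adf S.F) w) = 1) ∧ diagW W a ≠ 0 := by
    by_contra hcon
    push Not at hcon
    obtain ⟨e, he, he0⟩ := exists_levelExp_pow S n
    have hne : Ideal.span {((S.m ^ n : ℕ) : 𝓞 S.F)} ≠ ⊥ := by simp [S.m_ne_zero]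
    exact hG0 (eq_zero_of_diagW hne hG.cusp hW (LTG.diagW_eq_zero D₀.diffData hG.cusp hW hne he he0
      (fun w hw => by
        obtain ⟨τ, hτ⟩ := LT.exists_isFrobOver S.F w
        exact ⟨_, hG.eigen w hw τ hτ⟩) hcon))
  set c : (Adf S.F)ˣ := D₀.nu0⁻¹ * a with hcdef
  have hc : ∀ w ∉ badSet (S := S), Valued.v ((c : Adf S.F) w) = 1 := by
    intro w hw
    have h0 : Valued.v ((D₀.nu0 : Adf S.F) w) = 1 := by
      rw [show (D₀.nu0 : Adf S.F) w = loc w (-((D₀.M₁ : S.F))⁻¹) from rfl, map_neg, map_inv₀,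
        Valuation.map_neg, map_inv₀, valued_natCast_eq_one fun h =>
          hw (w.isPrime.mem_of_pow_mem (4 * D₀.k) (by simpa [Level.M₁] using h)), inv_one]
    have h1 : (a : Adf S.F) w = (D₀.nu0 : Adf S.F) w * (c : Adf S.F) w := by
      rw [← LT.adele_mul_apply, ← Units.val_mul, hcdef, mul_inv_cancel_left]
    have h2 := ha1 w hw
    rwa [h1, map_mul, h0, one_mul] at h2
  obtain ⟨t, u, ht, hu, htu⟩ := exists_bad_part c hc
  obtain ⟨j, T, T', hT, hT'⟩ := exists_pow_mul_integral S.m_ne_zero t ht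
  refine ⟨n + j + 2, fun D hDk hDl => ?_⟩
  have hnu : D.nu0 * t = a * Units.map intToAdele.toMonoidHom u := by
    have h0 : D.nu0 = D₀.nu0 := Units.ext (by simp [nu0, Level.M₁, hDk, hD₀])
    rw [htu, h0, ← mul_assoc, hcdef, mul_inv_cancel_left]
  set P := D.boxF σ with hP
  have hN : P.N ≠ 0 := D.lvl_ne_zero
  set G1 : XInf S.F → GAf S.F → ℂ := fun x g => G x (g * upperTri t 0 1) with hG1
  have hlev1 : ∀ v ∈ congrSubgroup P.lvlIdeal, ∀ x g, G1 x (g * v) = G1 x g := fun v hv x g =>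
    D.translate_level hG.cusp (by omega) hT hT' v hv x g
  have hcen1 : ∀ (b : (Adf S.F)ˣ) x g, G1 x (g * upperTri b 0 b) = G1 x g := fun b x g => by
    change G x (g * upperTri b 0 b * upperTri t 0 1) = G x (g * upperTri t 0 1)
    rw [mul_assoc, ← Subgroup.mem_center_iff.mp (upperTri_scalar_mem_center b) (upperTri t 0 1),
      ← mul_assoc, hG.cusp.central]
  set fx : XInf S.F → Cosets P.lvlIdeal → ℂ := fun x q => G1 x q.out with hfx
  set coef : Matrix (Fin 2) (Fin 2) (𝓞 S.F ⧸ P.lvlIdeal) → ℂ :=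
    fun M => (Nat.card P.resSet : ℂ)⁻¹ * (P.chi M)⁻¹ with hcoef
  set R := (Box.resSet_finite (P := P) (Nat.pos_of_ne_zero hN)).toFinset with hR
  set H : XInf S.F → GAf S.F → ℂ :=
    fun x g => ∑ M ∈ R, coef M * G x (g * (P.lift M * upperTri t 0 1)) with hH
  have hfxmk : ∀ x (g : GAf S.F), fx x (g : Cosets P.lvlIdeal) = G x (g * upperTri t 0 1) :=
    fun x g => coset_out_eq hlev1 hcen1 x g
  have hHop : ∀ x (g : GAf S.F), D.levelOpF σ (fx x) (g : Cosets P.lvlIdeal) = H x g := by
    intro x g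
    change P.op (fx x) _ = _
    rw [P.op_mk hN, Finset.mul_sum]
    refine Finset.sum_congr rfl fun M _ => ?_
    simp only [hfxmk, hcoef, ← mul_assoc]
  set WH : GAf S.F → ℂ := fun g => ∑ M ∈ R, coef M * W (g * (P.lift M * upperTri t 0 1)) with hWH
  have hexpH : HasExpansion H WH :=
    HasExpansion.sum R fun M => (hW.comp_mul_right _).const_mul _
  refine ⟨H, WH, ?_, hexpH, ?_, ?_, ?_⟩
  · -- cusp form
    refine ⟨fun γ x g => ?_, fun b x g => ?_, fun v hv x g => ?_, fun g => ?_, ?_, fun w x g => ?_,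
      WH, hexpH⟩
    · simp only [hH, mul_assoc (rationalMat γ) g, hG.cusp.rational]
    · refine Finset.sum_congr rfl fun M _ => ?_
      rw [mul_assoc g, ← Subgroup.mem_center_iff.mp (upperTri_scalar_mem_center b),
        ← mul_assoc g, hG.cusp.central]
    · rw [← hHop, ← hHop]
      refine congrArg (D.levelOpF σ (fx x))
        ((QuotientGroup.eq (s := LT.levelGroup P.lvlIdeal)).mpr ?_)
      rw [show (g * v)⁻¹ * g = v⁻¹ by group]
      exact inv_mem (Subgroup.mem_sup_left hv)
    · exact continuous_finsetSum _ fun M _ => continuous_const.mul (hG.cusp.continuous _)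
    · obtain ⟨C, hC⟩ := hG.cusp.bounded
      refine ⟨∑ M ∈ R, ‖coef M‖ * C, fun x g => (norm_sum_le _ _).trans (Finset.sum_le_sum ?_)⟩
      intro M _
      rw [norm_mul]
      exact mul_le_mul_of_nonneg_left (hC _ _) (norm_nonneg _)
    · let := Classical.decEq (InfinitePlace S.F)
      refine LT.H3.IsSph0.sum R
        (f := fun M P' => coef M * G (Function.update x w P') (g * (P.lift M * upperTri t 0 1)))
        (fun M _ => ?_) (fun M _ => ?_) (fun M _ => ?_)
      · exact continuous_const.mul ((hG.cusp.continuous _).comp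
          (continuous_const.update w continuous_id))
      · obtain ⟨C, hC⟩ := hG.cusp.bounded
        exact ⟨‖coef M‖ * C, fun P' => by
          rw [norm_mul]; exact mul_le_mul_of_nonneg_left (hC _ _) (norm_nonneg _)⟩
      · exact (hG.cusp.sph0 w x _).const_mul _
  · -- the coefficient at `-1/M₁`
    have hterm : ∀ M ∈ R, coef M * W (upperTri D.nu0 0 1 * (P.lift M * upperTri t 0 1)) =
        (Nat.card P.resSet : ℂ)⁻¹ * diagW W a := by
      intro M hM
      have hM' : M ∈ P.resSet := (Set.Finite.mem_toFinset _).mp hM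
      rw [D.coeff_box hG.cusp hW (by omega) (by omega) hT hT' hM']
      obtain ⟨_, _, b, hb, _, _, _, _, hMe⟩ := hM'
      have hchi0 : P.chi M ≠ 0 := by
        rw [hMe, P.chi_resMat D.M₁_dvd_lvl hb]
        exact ratChar_ne_zero _ _
      have hWa : W (upperTri (D.nu0 * t) 0 1) = diagW W a := by
        have e : upperTri (a * Units.map intToAdele.toMonoidHom u) (0 : Adf S.F) 1 =
            upperTri a 0 1 * upperTri (Units.map intToAdele.toMonoidHom u) 0 1 := by
          rw [LT.upperTri_mul]; simp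
        rw [hnu, e, hW.mul_right (c := 1) (fun x g => by
          rw [hG.cusp.level _ (diag_mem_congr S n u hu), one_mul]), one_mul]
        rfl
      rw [hWa, hcoef, show (D.boxF σ).chi M = P.chi M from rfl]
      field_simp
    have hsum : diagW WH D.nu0 = (R.card : ℂ) * ((Nat.card P.resSet : ℂ)⁻¹ * diagW W a) := by
      rw [show diagW WH D.nu0 = ∑ M ∈ R, coef M *
        W (upperTri D.nu0 0 1 * (P.lift M * upperTri t 0 1)) from rfl, Finset.sum_congr rfl hterm,
        Finset.sum_const, nsmul_eq_mul]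
    have hcard : Nat.card P.resSet = R.card := Nat.card_eq_card_finite_toFinset _
    have hne : R.card ≠ 0 := Finset.card_ne_zero.mpr ⟨P.resMat 0 0 0 0,
      (Set.Finite.mem_toFinset _).mpr
        ⟨0, zero_mem _, 0, zero_mem _, 0, zero_mem _, 0, zero_mem _, rfl⟩⟩
    rw [hsum, hcard, ← mul_assoc, mul_inv_cancel₀ (Nat.cast_ne_zero.mpr hne), one_mul]
    exact ha
  · intro M hM x g
    rw [← hHop, ← hHop]
    exact hfix D M hM _ _
  · intro w hw τ hτ x g
    have h1 : LT.heckeOp (D.levelIdeal S.F) w (fx x) =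
        ((Real.sqrt (Ideal.absNorm w.asIdeal) : ℂ) * (LT.q8Trace (S.ρ τ) : ℂ)) • fx x := by
      funext q
      induction q using QuotientGroup.induction_on with
      | H g =>
        rw [LT.heckeOp_mk (D.levelIdeal_ne_bot S.F) (D.not_le_of_good hw) _ _ x, Pi.smul_apply,
          smul_eq_mul]
        have h2 := hG.eigen w hw τ hτ x (g * upperTri t 0 1)
        simp only [LT.heckeT] at h2 ⊢
        simp only [hfxmk]
        rw [← h2]
        simp only [mul_assoc g, atPlace_mul_diag_comm w _ (ht w hw)]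
    have h3 : LT.heckeT w H x g = LT.heckeOp (D.levelIdeal S.F) w (D.levelOpF σ (fx x))
        (g : Cosets P.lvlIdeal) := by
      rw [LT.heckeOp_mk (D.levelIdeal_ne_bot S.F) (D.not_le_of_good hw) _ _ x]
      simp only [LT.heckeT, hHop]
    rw [h3, ← Module.End.mul_apply, ← (hcomm D w hw).eq, Module.End.mul_apply, h1, map_smul,
      Pi.smul_apply, hHop, smul_eq_mul]

end Setup.Level

end FermatAgent.LTG

end
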