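import Mathlib
import Fermat.Agent.LT.General.Spectral.FSide.Form
import Fermat.Agent.LT.General.Spectral.FSide.Trace
import Fermat.Agent.LT.General.Spectral.TypeForm
import Fermat.Agent.LT.General.Facts.Trace
import Fermat.Agent.LT.General.Level.Exists
import Fermat.Agent.LT.General.Interface
import Fermat.Agent.LT.Base.FundDomain

set_option autoImplicit false

/-!
# The data of the descent exist
-/

noncomputable section

open MeasureTheory NumberField IsDedekindDomain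
open scoped MatrixGroups InnerProductSpace
open FermatAgent.LT (YSpace yVol AutDomain XInf GAf)

namespace FermatAgent.LTG

/-- A fundamental domain of finite volume. -/
theorem exists_autDomain {L : Type*} [Field L] [NumberField L] [IsTotallyComplex L]
    (𝔫 : Ideal (𝓞 L)) [h𝔫 : Fact (𝔫 ≠ ⊥)] :
    ∃ 𝔇 : AutDomain PGL(2, L) (yVol 𝔫), IsFiniteMeasure ((yVol 𝔫).restrict 𝔇.carrier) := by
  obtain ⟨𝔉, -, -, -, -, -, -, hm, hf, -, hvol, hstrict⟩ := LT.exists_fundDomain h𝔫.out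
  exact ⟨⟨𝔉, hf, hm, hstrict⟩, ⟨by rwa [Measure.restrict_apply_univ]⟩⟩

/-- **The data of the descent, with nonzero pairing on `F`.** -/
theorem exists_descentData (S : Setup)
    (hDih : ∃ (n : ℕ) (G : XInf S.F → GAf S.F → ℂ), G ≠ 0 ∧ IsDihedralLike S n G)
    (hAn : ∀ (D : S.Level) (σ : S.F ≃+* S.F), S.IsGalGen σ →
      ∀ w₁ : InfinitePlace S.K → InfinitePlace S.F, (∀ u, (w₁ u).comap S.inclKF.toRingHom = u) →
      ∀ t : HeightOneSpectrum (𝓞 S.F) → ℤ, S.IsTrace t → Nonempty (Annihilator S D σ w₁ t)) :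
    ∃ (P : DescentData S) (𝔇F : AutDomain PGL(2, S.F) (yVol (P.D.levelIdeal S.F))),
      S.IsTrace P.t ∧ IsFiniteMeasure ((yVol (P.D.levelIdeal S.F)).restrict 𝔇F.carrier) ∧
      ∀ (𝔇K : AutDomain PGL(2, S.K) (yVol (P.D.levelIdeal S.K))) {ι : Type}
        (e : HilbertBasis ι ℂ 𝔇F.Space),
        LT.Joint.pairing
          (fun i => Combo.OF P.D P.σ P.An.A 𝔇F (LT.galOp (P.D.levelIdeal_map P.σ) 𝔇F (e i)))
          (fun i => Combo.OF P.D P.σ (Combo.single (KWord.heckeW P.w₀ P.letter_w₀)) 𝔇F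
            (Combo.OF P.D P.σ P.An.A 𝔇F (e i)))
          (LT.Joint.kerAll (P.XF 𝔇F 𝔇K)).starProjection ≠ 0 := by
  classical
  obtain ⟨σ, hσ⟩ := S.exists_isGalGen
  obtain ⟨w₁, hw₁⟩ := S.exists_w₁
  obtain ⟨t, ht⟩ := S.exists_isTrace
  obtain ⟨n, G, hG0, hG⟩ := hDih
  have hfix : ∀ D : S.Level, ∀ M ∈ (D.boxF σ).resSet, ∀ f g,
      D.levelOpF σ f ((g * (D.boxF σ).lift M : GAf S.F) : LT.Cosets (D.levelIdeal S.F)) =
        (D.boxF σ).chi M * D.levelOpF σ f (g : LT.Cosets (D.levelIdeal S.F)) := fun D M hM f g =>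
    (D.levelOpF_eq_self_iff σ).mp (by rw [← Module.End.mul_apply, D.levelOpF_idem]) M hM g
  obtain ⟨k₀, hk₀⟩ := Setup.Level.exists_typeForm hG hG0 hfix
    fun D w hw => D.commute_levelOpF σ hw
  obtain ⟨k₁, hk₁⟩ := S.exists_level
  obtain ⟨l₀, hl₀⟩ := hk₀ (max k₀ k₁) (le_max_left _ _)
  obtain ⟨D, hDk, hDl⟩ := hk₁ (max k₀ k₁) (le_max_right _ _) (max (12 * max k₀ k₁) l₀)
    (le_max_left _ _)
  obtain ⟨H, W, hH, hW, hW0, hchi, heig⟩ := hl₀ D hDk (hDl ▸ le_max_right _ _)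
  have hH0 : H ≠ 0 := fun h => hW0 (by
    have h0 : LT.HasExpansion (fun _ _ => (0 : ℂ)) W := by
      intro x g
      have := hW x g
      rwa [h] at this
    exact h0.eq_zero _)
  obtain ⟨An⟩ := hAn D σ hσ w₁ hw₁ t ht
  obtain ⟨𝔇F, hfin⟩ := exists_autDomain (D.levelIdeal S.F)
  have hp : ({v : HeightOneSpectrum (𝓞 S.K) | (An.p : 𝓞 S.K) ∈ v.asIdeal}).Finite := by
    refine (Ideal.finite_factors (I := Ideal.span {(An.p : 𝓞 S.K)}) ?_).subset fun v hv =>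
      Ideal.dvd_span_singleton.mpr hv
    rw [Ne, Ideal.zero_eq_bot, Ideal.span_singleton_eq_bot, Nat.cast_eq_zero]
    exact An.p_prime.ne_zero
  obtain ⟨v₀, hv₀, hflip⟩ := exists_noFlipAt An 𝔇F ((S.infinite_splitLetters ht).sdiff hp)
    fun v hv => hv.1.2
  obtain ⟨w₀, hw₀⟩ := S.exists_place_over v₀
  let P : DescentData S := ⟨D, σ, hσ, w₁, hw₁, t, An, v₀, w₀, hw₀, fun w hw => (hv₀.1.2 w hw).1,
    hv₀.2, fun w hw => (hv₀.1.2 w hw).2⟩
  obtain ⟨g, hg0, hg⟩ := exists_goodVec_ne_zero An ht 𝔇F hH hH0 hchi heig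
  exact ⟨P, 𝔇F, ht, hfin, fun 𝔇K _ e => P.pairing_F_ne_zero (𝔇F := 𝔇F) 𝔇K ht hflip hg0 hg e⟩

end FermatAgent.LTG

end
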