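import Mathlib
import Fermat.Agent.LT.General.Spectral.DescentExists
import Fermat.Agent.LT.General.Spectral.Compare.Pairing
import Fermat.Agent.LT.General.Spectral.Compare.CoreK
import Fermat.Agent.LT.Descent.Spectral.Trace

set_option autoImplicit false

/-!
# The descent from the trace identity
-/

noncomputable section

open MeasureTheory NumberField IsDedekindDomain
open scoped MatrixGroups InnerProductSpace
open FermatAgent.LT (YSpace yVol AutDomain XInf GAf galY kerSum)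

namespace FermatAgent.LTG

/-- The comparison of the twisted and the plain trace on all combinations odd at a place. -/
def Setup.TraceIdentity (S : Setup) : Prop :=
  ∀ (D : S.Level) (σ : S.F ≃+* S.F), S.IsGalGen σ →
    ∀ w₁ : InfinitePlace S.K → InfinitePlace S.F, (∀ u, (w₁ u).comap S.inclKF.toRingHom = u) →
    ∀ (𝔇F : AutDomain PGL(2, S.F) (yVol (D.levelIdeal S.F)))
      (𝔇K : AutDomain PGL(2, S.K) (yVol (D.levelIdeal S.K))),
      IsFiniteMeasure ((yVol (D.levelIdeal S.F)).restrict 𝔇F.carrier) →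
      IsFiniteMeasure ((yVol (D.levelIdeal S.K)).restrict 𝔇K.carrier) →
      ∃ c : ℂ, ∀ A : Combo S,
        (∃ v : HeightOneSpectrum (𝓞 S.K), (S.m : 𝓞 S.K) ∉ v.asIdeal ∧
          (∀ w, S.underK w = v → Ideal.absNorm w.asIdeal = Ideal.absNorm v.asIdeal) ∧
          ∀ x ∈ A, Odd (x.2.countOver v)) →
        (∃ C : ℝ, ∀ y z, ‖kerSum (Combo.kerF D σ A) y z‖ ≤ C) →
        (∃ C : ℝ, ∀ y z, ‖kerSum (Combo.kerK D σ w₁ A) y z‖ ≤ C) →
        ∫ y in 𝔇F.carrier, kerSum (Combo.kerF D σ A) y (galY σ y) ∂(yVol (D.levelIdeal S.F)) =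
          c * ∫ y in 𝔇K.carrier, kerSum (Combo.kerK D σ w₁ A) y y ∂(yVol (D.levelIdeal S.K))

/-- **A nonzero vector on `K` with the eigenvalues of the descent.** -/
theorem exists_vectorK (S : Setup) (hTI : S.TraceIdentity)
    (hDih : ∃ (n : ℕ) (G : XInf S.F → GAf S.F → ℂ), G ≠ 0 ∧ IsDihedralLike S n G)
    (hAn : ∀ (D : S.Level) (σ : S.F ≃+* S.F), S.IsGalGen σ →
      ∀ w₁ : InfinitePlace S.K → InfinitePlace S.F, (∀ u, (w₁ u).comap S.inclKF.toRingHom = u) →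
      ∀ t : HeightOneSpectrum (𝓞 S.F) → ℤ, S.IsTrace t → Nonempty (Annihilator S D σ w₁ t)) :
    ∃ (P : DescentData S) (𝔇K : AutDomain PGL(2, S.K) (yVol (P.D.levelIdeal S.K)))
      (u : 𝔇K.Space),
      S.IsTrace P.t ∧ IsFiniteMeasure ((yVol (P.D.levelIdeal S.K)).restrict 𝔇K.carrier) ∧ u ≠ 0 ∧
      (LT.isYKernel_unitKer P.D.isCosetOp_levelOpK).clm 𝔇K u = unitMean S.K • u ∧
      (∀ (x : InfinitePlace S.K) (q : ℚ), 0 < q →
        (LT.isYKernel_placeKer P.D.isCosetOp_levelOpK x (q : ℝ)).clm 𝔇K u =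
          ((LT.H3.sph0 (q : ℝ) : ℂ) * unitMean S.K) • u) ∧
      (∀ w (hw : S.IsLetter w), S.underK w ≠ P.v₀ →
        (LT.isYKernel_unitKer (P.D.isCosetOp_levelOpK.mul
          (KWord.isCosetOp_bcOp (D := P.D) hw.1))).clm 𝔇K u =
            (lamOf P.t w * unitMean S.K) • u) ∧
      Combo.OK P.D P.σ P.w₁ P.An.A 𝔇K u = (P.An.α : ℂ) • u := by
  obtain ⟨P, 𝔇F, ht, hF, hne⟩ := exists_descentData S hDih hAn
  obtain ⟨𝔇K, hK⟩ := exists_autDomain (P.D.levelIdeal S.K)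
  have : Fact ((2 : ENNReal) ≠ ⊤) := ⟨by norm_num⟩
  obtain ⟨ι, e, -⟩ := exists_hilbertBasis ℂ 𝔇F.Space
  obtain ⟨ι', e', -⟩ := exists_hilbertBasis ℂ 𝔇K.Space
  have := LT.TraceKernel.countable_index e
  have := LT.TraceKernel.countable_index e'
  obtain ⟨κ, hκ⟩ := P.exists_pairing_projection 𝔇F 𝔇K e e'
    (hTI P.D P.σ P.isGen P.w₁ P.w₁_over 𝔇F 𝔇K hF hK)
  have h1 : LT.Joint.pairing (P.aF fun i => e i) (P.cF fun i => e i)
      (LT.Joint.kerAll (P.XF 𝔇F 𝔇K)).starProjection ≠ 0 := hne 𝔇K e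
  rw [hκ] at h1
  obtain ⟨u, hu0, -, hu⟩ := P.exists_kerK_ne_zero (right_ne_zero_of_mul h1)
  exact ⟨P, 𝔇K, u, ht, hK, hu0, hu⟩

end FermatAgent.LTG

end
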