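import Mathlib
import Fermat.Agent.LT.General.Spectral.Descend
import Fermat.Agent.LT.General.Spectral.KSide.FormK
import Fermat.Agent.LT.General.Annihilator.Main
import Fermat.Agent.LT.General.Dihedral.Main

set_option autoImplicit false

/-!
# The descended form, given the trace identity
-/

noncomputable section

open NumberField IsDedekindDomain
open FermatAgent.LT (XInf GAf)

namespace FermatAgent.LTG

/-- **Cubic descent, given the trace identity.** -/
theorem exists_descended (S : Setup) (hTI : S.TraceIdentity) :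
    ∃ (D : S.Level) (T : Finset ℕ) (φ : XInf S.K → GAf S.K → ℂ), IsDescended S D T φ := by
  have hAn : ∀ (D : S.Level) (σ : S.F ≃+* S.F), S.IsGalGen σ →
      ∀ w₁ : InfinitePlace S.K → InfinitePlace S.F, (∀ u, (w₁ u).comap S.inclKF.toRingHom = u) →
      ∀ t : HeightOneSpectrum (𝓞 S.F) → ℤ, S.IsTrace t → Nonempty (Annihilator S D σ w₁ t) :=
    fun D σ hσ w₁ hw₁ t ht =>
      ⟨(exists_annihilator S D hσ w₁ hw₁ t (fun w hw g hg => (ht.frob w hw g hg).symm) ∅).choose⟩
  obtain ⟨P, 𝔇K, u, ht, hK, hu0, hunit, hball, hlet, hann⟩ :=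
    exists_vectorK S hTI (exists_dihedral S) hAn
  obtain ⟨T, φ, hφ⟩ := P.exists_isDescended 𝔇K ht hu0 ⟨hunit, hball, hlet, hann⟩
  exact ⟨P.D, T, φ, hφ⟩

end FermatAgent.LTG

end
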