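import Fermat.Agent.LT.General.Spectral.Descend
import Fermat.Agent.LT.General.Geom.Main

set_option autoImplicit false

/-!
# The trace identity of the descent
-/

noncomputable section

open MeasureTheory NumberField IsDedekindDomain
open scoped MatrixGroups
open FermatAgent.LT (YSpace yVol AutDomain)

namespace FermatAgent.LTG

/-- The trace identity holds. -/
theorem Setup.traceIdentity (S : Setup) : S.TraceIdentity := by
  intro D σ hσ w₁ hw₁ 𝔇F 𝔇K hF hK
  refine trace_identity S D σ hσ w₁ hw₁ 𝔇F.isFund ?_ 𝔇K.isFund ?_
  · simpa using (inferInstance : IsFiniteMeasure ((yVol (D.levelIdeal S.F)).restrict 𝔇F.carrier)).measure_univ_lt_top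
  · simpa using (inferInstance : IsFiniteMeasure ((yVol (D.levelIdeal S.K)).restrict 𝔇K.carrier)).measure_univ_lt_top

end FermatAgent.LTG

end
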